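import Mathlib
import Fermat.Agent.PT.Data

/-!
# Group theory for the cyclotomic tower
-/

set_option autoImplicit false

open Fermat.Agent.PT

namespace Fermat.Agent.CFT6

section chain

variable {G : Type*} [Group G]

/-- discrete intermediate value theorem for indices in a tower -/
theorem exists_relIndex_eq {p : ℕ} (hp : p.Prime) (N : ℕ → Subgroup G) (hanti : Antitone N)
    (hnorm : ∀ k, (N k).Normal) (hidx : ∀ k, (N k).index = p ^ k) (U : Subgroup G)
    [U.FiniteIndex] (k : ℕ) : ∃ j, (N j).relIndex U = p ^ k := by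
  have hp1 : 1 < p := hp.one_lt
  -- `f j = (N j).relIndex U` divides `p ^ j`
  have h1 : ∀ j, ∃ a, (N j).relIndex U = p ^ a := by
    intro j
    have := hnorm j
    have h2 : (N j).relIndex U ∣ p ^ j := by
      rw [← hidx j]; exact Subgroup.relIndex_dvd_index_of_normal _ _
    obtain ⟨a, _, ha⟩ := (Nat.dvd_prime_pow hp).1 h2
    exact ⟨a, ha⟩
  choose a ha using h1
  have h0 : a 0 = 0 := by
    have h2 : N 0 = ⊤ := by rw [← Subgroup.index_eq_one, hidx 0, pow_zero]
    have h3 := ha 0
    rw [h2, Subgroup.relIndex_top_left] at h3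
    by_contra hne
    exact absurd h3 (Nat.one_lt_pow hne hp1).ne
  -- steps
  have hstep : ∀ j, a (j + 1) ≤ a j + 1 := by
    intro j
    have := hnorm (j + 1)
    have hNle : N (j + 1) ≤ N j := hanti (Nat.le_succ j)
    have h2 : (N (j + 1)).relIndex (N j) = p := by
      have h3 := Subgroup.relIndex_mul_index hNle
      rw [hidx, hidx, pow_succ, mul_comm] at h3
      exact Nat.eq_of_mul_eq_mul_left (pow_pos hp.pos j) h3
    have h3 : (N (j + 1) ⊓ U).relIndex (N j ⊓ U) * (N j ⊓ U).relIndex U =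
        (N (j + 1) ⊓ U).relIndex U :=
      Subgroup.relIndex_mul_relIndex _ _ _ (inf_le_inf_right _ hNle) inf_le_right
    rw [Subgroup.inf_relIndex_right, Subgroup.inf_relIndex_right, ha, ha] at h3
    have h4 : (N (j + 1) ⊓ U).relIndex (N j ⊓ U) ≤ p := by
      have h5 : (N (j + 1) ⊓ U).relIndex (N j ⊓ U) = (N (j + 1)).relIndex (N j ⊓ U) := by
        rw [← Subgroup.inf_relIndex_right (N (j + 1)) (N j ⊓ U),
          ← Subgroup.inf_relIndex_right (N (j + 1) ⊓ U) (N j ⊓ U)]
        congr 1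
        ext x
        simp only [Subgroup.mem_inf]
        tauto
      rw [h5]
      have h6 : (N (j + 1)).relIndex (N j) ≠ 0 := by rw [h2]; exact hp.ne_zero
      exact (Subgroup.relIndex_le_of_le_right inf_le_left h6).trans h2.le
    have h5 : p ^ a (j + 1) ≤ p ^ (a j + 1) := by
      rw [← h3, pow_succ, mul_comm]
      exact Nat.mul_le_mul_left _ h4
    exact (Nat.pow_le_pow_iff_right hp1).1 h5
  -- unbounded
  have hunb : ∀ m, ∃ j, m ≤ a j := by
    intro m
    have hU : U.index ≠ 0 := Subgroup.FiniteIndex.index_ne_zero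
    obtain ⟨t, ht⟩ : ∃ t, U.index ≤ p ^ t := ⟨U.index, (Nat.lt_pow_self hp1).le⟩
    refine ⟨m + t, ?_⟩
    have h2 : (N (m + t)).index ≤ (N (m + t) ⊓ U).index := by
      have h3 : (N (m + t) ⊓ U).index ≠ 0 := by
        have h4 := Subgroup.relIndex_mul_index (inf_le_right : N (m + t) ⊓ U ≤ U)
        rw [Subgroup.inf_relIndex_right, ha] at h4
        rw [← h4]
        exact mul_ne_zero (pow_ne_zero _ hp.ne_zero) hU
      exact Nat.le_of_dvd (Nat.pos_of_ne_zero h3) (Subgroup.index_dvd_of_le inf_le_left)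
    have h4 := Subgroup.relIndex_mul_index (inf_le_right : N (m + t) ⊓ U ≤ U)
    rw [Subgroup.inf_relIndex_right, ha] at h4
    rw [← h4, hidx] at h2
    have h5 : p ^ (m + t) ≤ p ^ (a (m + t) + t) := by
      rw [pow_add p (a (m + t)) t]
      exact h2.trans (Nat.mul_le_mul_left _ ht)
    have h6 := (Nat.pow_le_pow_iff_right hp1).1 h5
    omega
  -- find the first `j` with `k ≤ a j`
  classical
  have hex := hunb k
  refine ⟨Nat.find hex, ?_⟩
  have h2 := Nat.find_spec hex
  rw [ha]
  congr 1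
  rcases Nat.eq_zero_or_pos (Nat.find hex) with h3 | h3
  · rw [h3] at h2 ⊢
    rw [h0] at h2 ⊢
    omega
  · have h4 := Nat.find_min hex (Nat.sub_lt h3 one_pos)
    have h5 := hstep (Nat.find hex - 1)
    rw [Nat.sub_add_cancel h3] at h5
    omega

end chain

section orbits

variable {G Γ : Type*} [Group G] [Group Γ] (r : Γ →* G)

/-- orbits on `G/(U ⊓ N)` -/
theorem card_orb_inf_le (U N : Subgroup G) [U.FiniteIndex] [N.FiniteIndex] :
    Nat.card (Orb ((cosetAct (U ⊓ N)).comp r)) ≤ U.index * Nat.card (Orb ((cosetAct N).comp r)) := by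
  have hfinU : Finite (G ⧸ U) := inferInstance
  have hfinN : Finite (G ⧸ N) := inferInstance
  have hfinO : Finite (Orb ((cosetAct N).comp r)) := Quotient.finite _
  -- the projections
  let πU : G ⧸ (U ⊓ N) → G ⧸ U := Subgroup.quotientMapOfLE inf_le_left
  let πN : G ⧸ (U ⊓ N) → G ⧸ N := Subgroup.quotientMapOfLE inf_le_right
  have hU : ∀ g x, πU (cosetAct (U ⊓ N) g x) = cosetAct U g (πU x) := by
    intro g x
    obtain ⟨h, rfl⟩ := QuotientGroup.mk_surjective x
    rfl
  have hN : ∀ g x, πN (cosetAct (U ⊓ N) g x) = cosetAct N g (πN x) := by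
    intro g x
    obtain ⟨h, rfl⟩ := QuotientGroup.mk_surjective x
    rfl
  have hinj : ∀ x y, πU x = πU y → πN x = πN y → x = y := by
    intro x y h1 h2
    obtain ⟨a, rfl⟩ := QuotientGroup.mk_surjective x
    obtain ⟨b, rfl⟩ := QuotientGroup.mk_surjective y
    have h1' : (a : G ⧸ U) = b := h1
    have h2' : (a : G ⧸ N) = b := h2
    rw [QuotientGroup.eq] at h1' h2' ⊢
    exact ⟨h1', h2'⟩
  -- for each orbit choose a representative whose `N`-component is the chosen one
  have key : ∀ o : Orb ((cosetAct (U ⊓ N)).comp r), ∃ x : G ⧸ (U ⊓ N),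
      Quotient.mk (orbSetoid ((cosetAct (U ⊓ N)).comp r)) x = o ∧
      πN x = Quotient.out (Quotient.mk (orbSetoid ((cosetAct N).comp r)) (πN x)) := by
    intro o
    obtain ⟨y, rfl⟩ := Quotient.exists_rep o
    obtain ⟨g, hg⟩ := (orbSetoid ((cosetAct N).comp r)).symm
      (Quotient.mk_out (s := orbSetoid ((cosetAct N).comp r)) (πN y))
    have hg' : cosetAct N (r g) (πN y) = Quotient.out (Quotient.mk (orbSetoid ((cosetAct N).comp r)) (πN y)) := hg
    refine ⟨cosetAct (U ⊓ N) (r g) y, ?_, ?_⟩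
    · exact Quotient.sound (s := orbSetoid _) ((orbSetoid _).symm ⟨g, rfl⟩)
    · rw [hN, hg']
      congr 1
      exact Quotient.sound (s := orbSetoid _) ⟨g, hg'⟩
  choose x hx1 hx2 using key
  let F : Orb ((cosetAct (U ⊓ N)).comp r) → (G ⧸ U) × Orb ((cosetAct N).comp r) :=
    fun o => (πU (x o), Quotient.mk _ (πN (x o)))
  have hF : Function.Injective F := by
    intro o o' h
    have h1 : πU (x o) = πU (x o') := congrArg Prod.fst h
    have h2 : (Quotient.mk (orbSetoid ((cosetAct N).comp r)) (πN (x o))) = Quotient.mk _ (πN (x o')) :=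
      congrArg Prod.snd h
    have h3 : πN (x o) = πN (x o') := by rw [hx2 o, hx2 o', h2]
    rw [← hx1 o, ← hx1 o', hinj _ _ h1 h3]
  have h1 := Nat.card_le_card_of_injective F hF
  rwa [Nat.card_prod] at h1

/-- orbits of a group on a quotient by a normal subgroup -/
theorem card_orb_normal_le {C : Type*} [Group C] (ψ : G →* C) (N : Subgroup G) (hN : ψ.ker = N)
    [N.FiniteIndex] :
    Nat.card (Orb ((cosetAct N).comp r)) * Nat.card (ψ.comp r).range ≤ N.index := by
  have hfinN : Finite (G ⧸ N) := inferInstance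
  subst hN
  -- section of the range
  let e : (ψ.comp r).range → Γ := fun h => h.2.choose
  have he : ∀ h, ψ (r (e h)) = h.1 := fun h => h.2.choose_spec
  let F : Orb ((cosetAct ψ.ker).comp r) × (ψ.comp r).range → G ⧸ ψ.ker :=
    fun a => cosetAct ψ.ker (r (e a.2)) (Quotient.out a.1)
  have hF : Function.Injective F := by
    rintro ⟨o, h⟩ ⟨o', h'⟩ heq
    have h1 : cosetAct ψ.ker (r (e h)) (Quotient.out o) = cosetAct ψ.ker (r (e h')) (Quotient.out o') := heq
    have h2 : o = o' := by
      rw [← Quotient.out_eq o, ← Quotient.out_eq o']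
      refine Quotient.sound (s := orbSetoid _) ⟨(e h')⁻¹ * e h, ?_⟩
      show cosetAct ψ.ker (r ((e h')⁻¹ * e h)) _ = _
      rw [map_mul, map_mul, Equiv.Perm.mul_apply, h1, map_inv, map_inv, Equiv.Perm.inv_eq_iff_eq]
    subst h2
    obtain ⟨g, hg⟩ := QuotientGroup.mk_surjective (Quotient.out o)
    rw [← hg] at h1
    have h3 : ((r (e h) * g : G) : G ⧸ ψ.ker) = ((r (e h') * g : G) : G ⧸ ψ.ker) := h1
    rw [QuotientGroup.eq, MonoidHom.mem_ker, map_mul, map_inv, map_mul, map_mul, he, he] at h3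
    have h4 : (h.1 : C) = h'.1 := by
      have h5 : (h.1 : C) * ψ g = h'.1 * ψ g := by
        rw [← inv_mul_eq_one]; exact h3
      exact mul_right_cancel h5
    rw [Subtype.ext h4]
  have h1 := Nat.card_le_card_of_injective F hF
  rwa [Nat.card_prod] at h1

end orbits

end Fermat.Agent.CFT6
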