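import Mathlib

/-!
# Primes of a number field and embeddings in `PadicAlgCl q`

To an embedding `φ : K →+* PadicAlgCl q` corresponds the prime `{x | ‖φ x‖ < 1}` of `𝓞 K`.
-/

set_option autoImplicit false

open NumberField IsDedekindDomain

namespace Fermat.Agent.CFT6

variable {K : Type*} [Field K] [NumberField K] {q : ℕ} [Fact q.Prime]

lemma norm_le_one_of_isIntegral {x : PadicAlgCl q} (hx : IsIntegral ℤ x) : ‖x‖ ≤ 1 := by
  by_contra hlt
  push Not at hlt
  have h1 : IsIntegral (Valued.v (R := PadicAlgCl q) (Γ₀ := NNReal)).integer x := hx.tower_top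
  have h2 := (Valuation.integer.integers
    (Valued.v (R := PadicAlgCl q) (Γ₀ := NNReal))).mem_of_integral h1
  rw [Valuation.mem_integer_iff, PadicAlgCl.valuation_def] at h2
  have h3 : ‖x‖ ≤ 1 := by exact_mod_cast h2
  exact absurd h3 (not_le.2 hlt)

omit [NumberField K] in
lemma norm_embedding_le_one (φ : K →+* PadicAlgCl q) (x : 𝓞 K) : ‖φ x‖ ≤ 1 :=
  norm_le_one_of_isIntegral (x.isIntegral_coe.map φ.toIntAlgHom)

lemma norm_natCast_q : ‖(q : PadicAlgCl q)‖ = (q : ℝ)⁻¹ := by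
  have h := PadicAlgCl.norm_extends q (q : ℚ_[q])
  rw [Padic.norm_p] at h
  rw [← h]
  simp

lemma norm_natCast_q_lt : ‖(q : PadicAlgCl q)‖ < 1 := by
  rw [norm_natCast_q]
  exact inv_lt_one_of_one_lt₀ (by exact_mod_cast (Fact.out : q.Prime).one_lt)

lemma norm_intCast (m : ℤ) : ‖(m : PadicAlgCl q)‖ = ‖(m : ℚ_[q])‖ := by
  have h := PadicAlgCl.norm_extends q (m : ℚ_[q])
  rw [← h]
  simp

lemma norm_ratCast (m : ℚ) : ‖(m : PadicAlgCl q)‖ = ‖(m : ℚ_[q])‖ := by
  have h := PadicAlgCl.norm_extends q (m : ℚ_[q])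
  rw [← h]
  simp

lemma norm_intCast_lt_one_iff (m : ℤ) : ‖(m : PadicAlgCl q)‖ < 1 ↔ (q : ℤ) ∣ m := by
  rw [norm_intCast]
  exact Padic.norm_intCast_lt_one_iff

/-- the prime of `𝓞 K` attached to an embedding -/
noncomputable def primeIdeal (φ : K →+* PadicAlgCl q) : Ideal (𝓞 K) where
  carrier := {x | ‖φ x‖ < 1}
  zero_mem' := by simp
  add_mem' := by
    intro a b ha hb
    have := PadicAlgCl.isNonarchimedean q (φ a) (φ b)
    simp only [Set.mem_ofPred_eq, map_add] at *
    exact this.trans_lt (max_lt ha hb)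
  smul_mem' := by
    intro a b hb
    simp only [Set.mem_ofPred_eq, smul_eq_mul, map_mul, norm_mul] at *
    exact mul_lt_one_of_nonneg_of_lt_one_right (norm_embedding_le_one φ a) (norm_nonneg _) hb

lemma mem_primeIdeal {φ : K →+* PadicAlgCl q} {x : 𝓞 K} :
    x ∈ primeIdeal φ ↔ ‖φ x‖ < 1 := Iff.rfl

lemma notMem_primeIdeal {φ : K →+* PadicAlgCl q} {x : 𝓞 K} :
    x ∉ primeIdeal φ ↔ ‖φ x‖ = 1 := by
  rw [mem_primeIdeal, not_lt]
  exact ⟨fun h => le_antisymm (norm_embedding_le_one φ x) h, fun h => h.ge⟩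

instance isPrime_primeIdeal (φ : K →+* PadicAlgCl q) : (primeIdeal φ).IsPrime where
  ne_top' := by
    rw [Ideal.ne_top_iff_one, notMem_primeIdeal]; simp
  mem_or_mem' := by
    intro a b hab
    by_contra h
    push Not at h
    rw [notMem_primeIdeal, notMem_primeIdeal] at h
    rw [mem_primeIdeal] at hab
    simp [h.1, h.2] at hab

lemma q_mem_primeIdeal (φ : K →+* PadicAlgCl q) : (q : 𝓞 K) ∈ primeIdeal φ := by
  rw [mem_primeIdeal]
  simpa using norm_natCast_q_lt (q := q)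

lemma primeIdeal_ne_bot (φ : K →+* PadicAlgCl q) : primeIdeal φ ≠ ⊥ := by
  intro h
  have := q_mem_primeIdeal φ
  rw [h, Ideal.mem_bot] at this
  exact (Fact.out : q.Prime).ne_zero (by exact_mod_cast this)

/-- the place attached to an embedding -/
noncomputable def place (φ : K →+* PadicAlgCl q) : HeightOneSpectrum (𝓞 K) :=
  ⟨primeIdeal φ, inferInstance, primeIdeal_ne_bot φ⟩

lemma q_mem_place (φ : K →+* PadicAlgCl q) : (q : 𝓞 K) ∈ (place φ).asIdeal :=
  q_mem_primeIdeal φ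

lemma intCast_mem_place {φ : K →+* PadicAlgCl q} {m : ℤ} :
    (m : 𝓞 K) ∈ (place φ).asIdeal ↔ (q : ℤ) ∣ m := by
  show (m : 𝓞 K) ∈ primeIdeal φ ↔ _
  rw [mem_primeIdeal, ← norm_intCast_lt_one_iff]
  simp

lemma norm_le_one_of_valuation {φ : K →+* PadicAlgCl q} {x : K}
    (h : (place φ).valuation K x ≤ 1) : ‖φ x‖ ≤ 1 := by
  obtain ⟨n, d, hnd⟩ := (place φ).exists_primeCompl_mul_eq_of_integer x h
  have hd : ‖φ (d : 𝓞 K)‖ = 1 := notMem_primeIdeal.1 d.2
  have : ‖φ x‖ * ‖φ (d : 𝓞 K)‖ = ‖φ n‖ := by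
    rw [← norm_mul, ← map_mul]
    exact congrArg (fun z => ‖φ z‖) hnd
  rw [hd, mul_one] at this
  rw [this]
  exact norm_embedding_le_one φ n

lemma norm_eq_one_of_valuation {φ : K →+* PadicAlgCl q} {x : K}
    (h : (place φ).valuation K x = 1) : ‖φ x‖ = 1 := by
  have hx : x ≠ 0 := by rintro rfl; simp at h
  have h1 := norm_le_one_of_valuation h.le
  have h2 : (place φ).valuation K x⁻¹ ≤ 1 := by rw [map_inv₀, h, inv_one]
  have h3 := norm_le_one_of_valuation h2
  rw [map_inv₀, norm_inv] at h3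
  have h4 : 0 < ‖φ x‖ := norm_pos_iff.2 ((map_ne_zero φ).2 hx)
  exact le_antisymm h1 ((inv_le_one₀ h4).1 h3)

lemma valuation_lt_one_norm {φ : K →+* PadicAlgCl q} {x : K}
    (h : (place φ).valuation K x < 1) : ‖φ x‖ < 1 := by
  obtain ⟨n, d, hnd⟩ := (place φ).exists_primeCompl_mul_eq_of_integer x h.le
  have hd : ‖φ (d : 𝓞 K)‖ = 1 := notMem_primeIdeal.1 d.2
  have : ‖φ x‖ * ‖φ (d : 𝓞 K)‖ = ‖φ n‖ := by
    rw [← norm_mul, ← map_mul]
    exact congrArg (fun z => ‖φ z‖) hnd
  rw [hd, mul_one] at this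
  rw [this]
  have h2 : (place φ).valuation K (algebraMap (𝓞 K) K n) < 1 := by
    rw [← hnd, map_mul]
    have : (place φ).valuation K (algebraMap (𝓞 K) K d) ≤ 1 := (place φ).valuation_le_one _
    exact mul_lt_one_of_lt_of_le h this
  rw [HeightOneSpectrum.valuation_lt_one_iff_mem] at h2
  exact h2

/-- the norm is determined by the valuation -/
lemma valuation_eq_one_iff {φ : K →+* PadicAlgCl q} {x : K} :
    (place φ).valuation K x = 1 ↔ ‖φ x‖ = 1 := by
  refine ⟨norm_eq_one_of_valuation, fun h => ?_⟩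
  have hx : x ≠ 0 := by rintro rfl; simp at h
  rcases lt_trichotomy ((place φ).valuation K x) 1 with h1 | h1 | h1
  · exact absurd (valuation_lt_one_norm h1) (by rw [h]; exact lt_irrefl _)
  · exact h1
  · have h2 : (place φ).valuation K x⁻¹ < 1 := by
      rw [map_inv₀]; exact inv_lt_one_of_one_lt₀ h1
    have h3 := valuation_lt_one_norm h2
    rw [map_inv₀, norm_inv, h, inv_one] at h3
    exact absurd h3 (lt_irrefl _)

/-- the norm of a uniformizer -/
noncomputable def unif (φ : K →+* PadicAlgCl q) : ℝ :=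
  ‖φ ((place φ).valuation_exists_uniformizer K).choose‖

lemma unif_pos (φ : K →+* PadicAlgCl q) : 0 < unif φ := by
  have h := ((place φ).valuation_exists_uniformizer K).choose_spec
  have h0 : ((place φ).valuation_exists_uniformizer K).choose ≠ 0 := by
    intro h1; rw [h1, map_zero] at h; exact WithZero.coe_ne_zero h.symm
  exact norm_pos_iff.2 ((map_ne_zero φ).2 h0)

lemma unif_lt_one (φ : K →+* PadicAlgCl q) : unif φ < 1 := by
  have h := ((place φ).valuation_exists_uniformizer K).choose_spec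
  apply valuation_lt_one_norm
  rw [h]
  exact WithZero.exp_lt_exp.2 (by norm_num : (-1 : ℤ) < 0)

/-- the normalised order of a nonzero element at a place -/
noncomputable def ord (v : HeightOneSpectrum (𝓞 K)) (x : K) : ℤ :=
  -WithZero.log (v.valuation K x)

lemma ord_mul (v : HeightOneSpectrum (𝓞 K)) {x y : K} (hx : x ≠ 0) (hy : y ≠ 0) :
    ord v (x * y) = ord v x + ord v y := by
  unfold ord
  rw [map_mul, WithZero.log_mul ((Valuation.ne_zero_iff _).2 hx) ((Valuation.ne_zero_iff _).2 hy)]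
  ring

lemma norm_eq_unif_zpow (φ : K →+* PadicAlgCl q) {x : K} (hx : x ≠ 0) :
    ‖φ x‖ = unif φ ^ (ord (place φ) x) := by
  obtain ⟨π, hπdef⟩ : ∃ π, π = ((place φ).valuation_exists_uniformizer K).choose := ⟨_, rfl⟩
  have h : (place φ).valuation K π = WithZero.exp (-1 : ℤ) := by
    rw [hπdef]; exact ((place φ).valuation_exists_uniformizer K).choose_spec
  have hπ : π ≠ 0 := by
    rintro rfl; rw [map_zero] at h; exact WithZero.coe_ne_zero h.symm
  have hu : unif φ = ‖φ π‖ := by rw [hπdef]; rfl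
  have h1 : (place φ).valuation K (x * π ^ (-(ord (place φ) x))) = 1 := by
    rw [map_mul, map_zpow₀, h, ord, neg_neg, ← WithZero.exp_zsmul]
    have h0 : (place φ).valuation K x ≠ 0 := (Valuation.ne_zero_iff _).2 hx
    conv_lhs => rw [← WithZero.exp_log h0]
    rw [WithZero.log_exp, ← WithZero.exp_add]
    simp
  have h2 := norm_eq_one_of_valuation h1
  rw [map_mul, map_zpow₀, norm_mul, norm_zpow, ← hu, zpow_neg] at h2
  have h3 : unif φ ^ (ord (place φ) x) ≠ 0 := (zpow_pos (unif_pos φ) _).ne'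
  field_simp at h2
  exact h2

end Fermat.Agent.CFT6
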