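import Mathlib
import Fermat.Agent.CFT6.Primes

/-!
# Every prime above `q` comes from an embedding
-/

set_option autoImplicit false

open NumberField IsDedekindDomain

namespace Fermat.Agent.CFT6

variable {K : Type*} [Field K] [NumberField K] {q : ℕ} [Fact q.Prime]

omit [NumberField K] in
lemma norm_dvd_mem {I : Ideal (𝓞 K)} [NumberField K] {x : 𝓞 K} (hx : x ∈ I) :
    ((Algebra.norm ℤ x : ℤ) : 𝓞 K) ∈ I := by
  have h1 := Ideal.absNorm_mem (Ideal.span {x})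
  rw [Ideal.absNorm_span_singleton] at h1
  have h2 : Ideal.span {x} ≤ I := (Ideal.span_singleton_le_iff_mem _).2 hx
  have h3 := h2 h1
  rcases Int.natAbs_eq (Algebra.norm ℤ x) with h | h
  · rw [h, Int.cast_natCast]; exact h3
  · rw [h, Int.cast_neg, Int.cast_natCast]
    exact I.neg_mem h3

lemma norm_norm (x : K) : ‖((Algebra.norm ℚ x : ℚ) : PadicAlgCl q)‖ =
    ∏ φ : K →+* PadicAlgCl q, ‖φ x‖ := by
  have h := Algebra.norm_eq_prod_embeddings ℚ (PadicAlgCl q) x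
  rw [eq_ratCast] at h
  rw [h, norm_prod]
  exact Fintype.prod_equiv (RingHom.equivRatAlgHom (R := K) (S := PadicAlgCl q)).symm _ _ (fun σ => rfl)

theorem exists_place_eq (v : HeightOneSpectrum (𝓞 K)) (hv : (q : 𝓞 K) ∈ v.asIdeal) :
    ∃ φ : K →+* PadicAlgCl q, place φ = v := by
  classical
  by_contra hcon
  push Not at hcon
  obtain ⟨φ₀⟩ : Nonempty (K →+* PadicAlgCl q) := inferInstance
  have h1 : ¬ ((v.asIdeal : Set (𝓞 K)) ⊆
      ⋃ φ ∈ (↑(Finset.univ : Finset (K →+* PadicAlgCl q)) : Set (K →+* PadicAlgCl q)),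
        ((primeIdeal φ : Ideal (𝓞 K)) : Set (𝓞 K))) := by
    rw [Ideal.subset_union_prime φ₀ φ₀ (fun _ _ _ _ => inferInstance)]
    rintro ⟨φ, -, hφ⟩
    have : v.asIdeal = primeIdeal φ :=
      (v.isMaximal).eq_of_le (isPrime_primeIdeal φ).ne_top hφ
    exact hcon φ (HeightOneSpectrum.ext this.symm)
  rw [Set.not_subset] at h1
  obtain ⟨x, hx, hx'⟩ := h1
  have h2 : ∀ φ : K →+* PadicAlgCl q, ‖φ x‖ = 1 := by
    intro φ
    rw [← notMem_primeIdeal]
    intro h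
    apply hx'
    simp only [Set.mem_iUnion]
    exact ⟨φ, by simp, h⟩
  have h3 := norm_norm (q := q) (x : K)
  rw [Finset.prod_eq_one (fun φ _ => h2 φ)] at h3
  have h4 : ‖((Algebra.norm ℤ x : ℤ) : PadicAlgCl q)‖ = 1 := by
    rw [← h3, ← Algebra.coe_norm_int]
    simp
  have h5 : ¬ ((q : ℤ) ∣ Algebra.norm ℤ x) := by
    rw [← norm_intCast_lt_one_iff, h4]; exact lt_irrefl _
  have h6 := norm_dvd_mem hx
  have hcop : IsCoprime (q : ℤ) (Algebra.norm ℤ x) :=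
    (Prime.coprime_iff_not_dvd (Nat.prime_iff_prime_int.1 Fact.out)).2 h5
  obtain ⟨a, b, hab⟩ := hcop
  have h7 : (1 : 𝓞 K) ∈ v.asIdeal := by
    have : (1 : 𝓞 K) = (a : 𝓞 K) * (q : 𝓞 K) + (b : 𝓞 K) * ((Algebra.norm ℤ x : ℤ) : 𝓞 K) := by
      have := congrArg (fun z : ℤ => (z : 𝓞 K)) hab
      push_cast at this
      exact this.symm
    rw [this]
    exact v.asIdeal.add_mem (v.asIdeal.mul_mem_left _ hv) (v.asIdeal.mul_mem_left _ h6)
  exact v.isPrime.ne_top ((Ideal.eq_top_iff_one _).2 h7)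

end Fermat.Agent.CFT6
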