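import Mathlib
import Fermat.Agent.CFT6.Surj

/-!
# Primes above `q` and Galois orbits of embeddings
-/

set_option autoImplicit false

open NumberField IsDedekindDomain Polynomial

namespace Fermat.Agent.CFT6

section approx

variable {q : ℕ} [Fact q.Prime]

/-- approximate a polynomial over `ℚ_q` by one over `ℚ`. -/
lemma exists_rat_poly (h : Polynomial ℚ_[q]) {ε : ℝ} (hε : 0 < ε) (R : ℝ) :
    ∃ g : Polynomial ℚ, ∀ z : PadicAlgCl q, ‖z‖ ≤ R → ‖aeval z h - aeval z g‖ < ε := by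
  induction h using Polynomial.induction_on' with
  | add h₁ h₂ ih₁ ih₂ =>
    obtain ⟨g₁, hg₁⟩ := ih₁
    obtain ⟨g₂, hg₂⟩ := ih₂
    refine ⟨g₁ + g₂, fun z hz => ?_⟩
    have : aeval z (h₁ + h₂) - aeval z (g₁ + g₂) =
        (aeval z h₁ - aeval z g₁) + (aeval z h₂ - aeval z g₂) := by
      rw [map_add, map_add]; ring
    rw [this]
    exact (PadicAlgCl.isNonarchimedean q _ _).trans_lt (max_lt (hg₁ z hz) (hg₂ z hz))
  | monomial n a =>
    have hR : 0 < max R 1 ^ n := by positivity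
    obtain ⟨r, hr⟩ := Padic.rat_dense q a (ε := ε / max R 1 ^ n) (by positivity)
    refine ⟨monomial n r, fun z hz => ?_⟩
    have h1 : aeval z (monomial n a) - aeval z (monomial n r) =
        algebraMap ℚ_[q] (PadicAlgCl q) (a - r) * z ^ n := by
      rw [aeval_monomial, aeval_monomial, map_sub, sub_mul]
      simp
    rw [h1, norm_mul, norm_pow]
    have h2 : ‖algebraMap ℚ_[q] (PadicAlgCl q) (a - r)‖ = ‖a - r‖ := PadicAlgCl.norm_extends q _
    rw [h2]
    have h3 : ‖z‖ ^ n ≤ max R 1 ^ n := pow_le_pow_left₀ (norm_nonneg _) (hz.trans (le_max_left _ _)) n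
    calc ‖a - r‖ * ‖z‖ ^ n ≤ ‖a - r‖ * max R 1 ^ n := by gcongr
      _ < ε / max R 1 ^ n * max R 1 ^ n := by gcongr
      _ = ε := by field_simp

lemma norm_algEquiv (τ : PadicAlgCl q ≃ₐ[ℚ_[q]] PadicAlgCl q) (y : PadicAlgCl q) :
    ‖τ y‖ = ‖y‖ :=
  (spectralNorm_eq_of_equiv τ y).symm

lemma norm_eq_of_sub_lt {x y : PadicAlgCl q} (h : ‖x - y‖ < ‖x‖) : ‖y‖ = ‖x‖ := by
  have h1 := IsUltrametricDist.norm_add_eq_max_of_norm_ne_norm (x := x) (y := y - x)
    (by rw [← neg_sub, norm_neg]; exact h.ne')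
  rw [add_sub_cancel] at h1
  rw [h1, ← neg_sub, norm_neg]
  exact max_eq_left h.le

end approx

variable {K : Type*} [Field K] [NumberField K] {q : ℕ} [Fact q.Prime]

lemma aeval_comp_embedding (φ : K →+* PadicAlgCl q) (α : K) (g : Polynomial ℚ) :
    aeval (φ α) g = φ (aeval α g) := by
  have := (Polynomial.aeval_algHom_apply (φ.toRatAlgHom) α g)
  exact this

/-- Two embeddings inducing the same absolute value are conjugate. -/
theorem exists_algEquiv_of_norm_eq {φ φ' : K →+* PadicAlgCl q} (h : ∀ x, ‖φ x‖ = ‖φ' x‖) :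
    ∃ τ : PadicAlgCl q ≃ₐ[ℚ_[q]] PadicAlgCl q, ∀ x, τ (φ x) = φ' x := by
  set pb := Field.powerBasisOfFiniteOfSeparable ℚ K
  set α : K := pb.gen with hα
  set f : Polynomial ℚ_[q] := minpoly ℚ_[q] (φ α) with hf
  have h0 : aeval (φ' α) f = 0 := by
    rw [← norm_eq_zero]
    by_contra hne
    have hpos : 0 < ‖aeval (φ' α) f‖ := lt_of_le_of_ne (norm_nonneg _) (Ne.symm hne)
    obtain ⟨g, hg⟩ := exists_rat_poly f hpos (‖φ α‖)
    have h1 := hg (φ α) le_rfl
    have h2 := hg (φ' α) (h α).ge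
    rw [hf, minpoly.aeval, zero_sub, norm_neg, aeval_comp_embedding, h] at h1
    have h3 := norm_eq_of_sub_lt h2
    rw [aeval_comp_embedding] at h3
    rw [h3] at h1
    exact lt_irrefl _ h1
  have halg : IsAlgebraic ℚ_[q] (φ α) := Algebra.IsAlgebraic.isAlgebraic _
  obtain ⟨τ, hτ⟩ := minpoly.exists_algEquiv_of_root' (K := ℚ_[q]) (x := φ' α) (y := φ α) halg h0
  refine ⟨τ, fun x => ?_⟩
  have h1 : (((τ : PadicAlgCl q →+* PadicAlgCl q).comp φ).toRatAlgHom) = φ'.toRatAlgHom :=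
    pb.algHom_ext hτ
  exact DFunLike.congr_fun h1 x

lemma ord_q_ne_zero (φ : K →+* PadicAlgCl q) : ord (place φ) (q : K) ≠ 0 := by
  have hq0 : (q : K) ≠ 0 := by exact_mod_cast (Fact.out : q.Prime).ne_zero
  intro h
  have h1 := norm_eq_unif_zpow φ hq0
  rw [h, zpow_zero, map_natCast] at h1
  exact (norm_natCast_q_lt (q := q)).ne h1

lemma unif_eq_of_place_eq {φ φ' : K →+* PadicAlgCl q} (h : place φ = place φ') :
    unif φ = unif φ' := by
  have hq0 : (q : K) ≠ 0 := by exact_mod_cast (Fact.out : q.Prime).ne_zero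
  have h1 := norm_eq_unif_zpow φ hq0
  have h2 := norm_eq_unif_zpow φ' hq0
  rw [map_natCast] at h1 h2
  rw [h1, ← h] at h2
  exact (zpow_left_inj₀ (unif_pos φ).le (unif_pos φ').le (ord_q_ne_zero φ)).1 h2

lemma norm_eq_of_place_eq {φ φ' : K →+* PadicAlgCl q} (h : place φ = place φ') (x : K) :
    ‖φ x‖ = ‖φ' x‖ := by
  rcases eq_or_ne x 0 with rfl | hx
  · simp
  · rw [norm_eq_unif_zpow φ hx, norm_eq_unif_zpow φ' hx, unif_eq_of_place_eq h, h]

theorem place_eq_iff {φ φ' : K →+* PadicAlgCl q} :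
    place φ = place φ' ↔ ∃ τ : PadicAlgCl q ≃ₐ[ℚ_[q]] PadicAlgCl q, ∀ x, τ (φ x) = φ' x := by
  constructor
  · intro h
    exact exists_algEquiv_of_norm_eq (norm_eq_of_place_eq h)
  · rintro ⟨τ, hτ⟩
    apply HeightOneSpectrum.ext
    ext x
    show x ∈ primeIdeal φ ↔ x ∈ primeIdeal φ'
    rw [mem_primeIdeal, mem_primeIdeal, ← hτ, norm_algEquiv]

/-- an element fixed by the stabiliser of `φ` can be approximated by elements of `K`. -/
theorem exists_norm_sub_lt (φ : K →+* PadicAlgCl q) {y : PadicAlgCl q}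
    (hy : ∀ τ : PadicAlgCl q ≃ₐ[ℚ_[q]] PadicAlgCl q, (∀ x, τ (φ x) = φ x) → τ y = y)
    {ε : ℝ} (hε : 0 < ε) : ∃ x : K, ‖y - φ x‖ < ε := by
  set pb := Field.powerBasisOfFiniteOfSeparable ℚ K
  set α : K := pb.gen with hα
  have hmem : y ∈ IntermediateField.adjoin ℚ_[q] {φ α} := by
    rw [← InfiniteGalois.fixedField_fixingSubgroup (IntermediateField.adjoin ℚ_[q] {φ α})]
    rw [IntermediateField.mem_fixedField_iff]
    intro τ hτ
    apply hy
    intro x
    have h1 : (((τ : PadicAlgCl q →+* PadicAlgCl q).comp φ).toRatAlgHom) = φ.toRatAlgHom := by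
      apply pb.algHom_ext
      show τ (φ α) = φ α
      rw [IntermediateField.mem_fixingSubgroup_iff] at hτ
      exact hτ _ (IntermediateField.mem_adjoin_simple_self _ _)
    exact DFunLike.congr_fun h1 x
  have halg : IsAlgebraic ℚ_[q] (φ α) := Algebra.IsAlgebraic.isAlgebraic _
  rw [← IntermediateField.mem_toSubalgebra,
    IntermediateField.adjoin_simple_toSubalgebra_of_isAlgebraic halg,
    Algebra.adjoin_singleton_eq_range_aeval] at hmem
  obtain ⟨h, rfl⟩ := hmem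
  obtain ⟨g, hg⟩ := exists_rat_poly h hε ‖φ α‖
  exact ⟨aeval α g, by rw [← aeval_comp_embedding]; exact hg _ le_rfl⟩

theorem exists_norm_eq (φ : K →+* PadicAlgCl q) {y : PadicAlgCl q}
    (hy : ∀ τ : PadicAlgCl q ≃ₐ[ℚ_[q]] PadicAlgCl q, (∀ x, τ (φ x) = φ x) → τ y = y)
    (hy0 : y ≠ 0) : ∃ x : K, x ≠ 0 ∧ ‖φ x‖ = ‖y‖ := by
  obtain ⟨x, hx⟩ := exists_norm_sub_lt φ hy (norm_pos_iff.2 hy0)
  have h1 := norm_eq_of_sub_lt hx
  refine ⟨x, ?_, h1⟩
  rintro rfl
  rw [map_zero, norm_zero] at h1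
  exact hy0 (norm_eq_zero.1 h1.symm)

end Fermat.Agent.CFT6
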