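import Mathlib
import Fermat.Agent.CFT6.Surj
import Fermat.Agent.Herbrand.Fg

/-!
# Rank of the group of `S`-units
-/

set_option autoImplicit false

open NumberField IsDedekindDomain Module

namespace Fermat.Agent.CFT6

variable {K : Type*} [Field K] [NumberField K]

lemma ord_one (v : HeightOneSpectrum (𝓞 K)) : ord v (1 : K) = 0 := by
  simp [ord]

lemma ord_eq_zero_iff {v : HeightOneSpectrum (𝓞 K)} {x : K} (hx : x ≠ 0) :
    ord v x = 0 ↔ v.valuation K x = 1 := by
  have h0 : v.valuation K x ≠ 0 := (Valuation.ne_zero_iff _).2 hx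
  unfold ord
  rw [neg_eq_zero]
  constructor
  · intro h
    rw [← WithZero.exp_log h0, h, WithZero.exp_zero]
  · intro h; rw [h, WithZero.log_one]

/-- the order homomorphism -/
noncomputable def ordHom (V : Set (HeightOneSpectrum (𝓞 K))) :
    Additive Kˣ →+ (V → ℤ) where
  toFun x v := ord v.1 (x.toMul : K)
  map_zero' := by funext v; exact ord_one v.1
  map_add' x y := by
    funext v
    show ord v.1 (((x.toMul * y.toMul : Kˣ)) : K) = _
    rw [Units.val_mul, ord_mul _ (Units.ne_zero _) (Units.ne_zero _)]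
    rfl

/-- an element generating a power of a prime -/
lemma exists_gen (v : HeightOneSpectrum (𝓞 K)) :
    ∃ a : Kˣ, ord v (a : K) = Nat.card (ClassGroup (𝓞 K)) ∧
      ∀ w : HeightOneSpectrum (𝓞 K), w ≠ v → ord w (a : K) = 0 := by
  classical
  set h := Nat.card (ClassGroup (𝓞 K)) with hh
  have hI : v.asIdeal ≠ ⊥ := v.ne_bot
  have hI' : v.asIdeal ∈ nonZeroDivisors (Ideal (𝓞 K)) := mem_nonZeroDivisors_of_ne_zero hI
  have h1 : ClassGroup.mk0 (⟨v.asIdeal ^ h, pow_mem hI' h⟩ : nonZeroDivisors (Ideal (𝓞 K))) = 1 := by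
    have h3 : (⟨v.asIdeal ^ h, pow_mem hI' h⟩ : nonZeroDivisors (Ideal (𝓞 K))) =
        (⟨v.asIdeal, hI'⟩ : nonZeroDivisors (Ideal (𝓞 K))) ^ h := rfl
    rw [h3, map_pow, hh, pow_card_eq_one']
  have h2' : (v.asIdeal ^ h).IsPrincipal := (ClassGroup.mk0_eq_one_iff (pow_mem hI' h)).1 h1
  obtain ⟨a, ha⟩ := h2'.principal
  have ha0 : a ≠ 0 := by
    rintro rfl
    have h3 : v.asIdeal ^ h = ⊥ := by rw [ha]; simp
    exact hI (eq_bot_iff.2 (by
      intro x hx
      have := Ideal.pow_mem_pow hx h
      rw [h3, Ideal.mem_bot] at this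
      exact (Ideal.mem_bot).2 (pow_eq_zero_iff (by rw [hh]; exact Nat.card_pos.ne') |>.1 this)))
  have haK : (algebraMap (𝓞 K) K a) ≠ 0 := by
    simpa using ha0
  have hspan : Ideal.span {a} = v.asIdeal ^ h := ha.symm
  have hamem : a ∈ v.asIdeal ^ h := by rw [← hspan]; exact Ideal.mem_span_singleton_self a
  refine ⟨Units.mk0 (algebraMap (𝓞 K) K a) haK, ?_, ?_⟩
  · have h4 : v.intValuation a = WithZero.exp (-(h : ℤ)) := by
      apply le_antisymm
      · exact (v.intValuation_le_pow_iff_mem a h).2 hamem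
      · by_contra hlt
        push Not at hlt
        have h5 : v.intValuation a ≤ WithZero.exp (-((h + 1 : ℕ) : ℤ)) := by
          have h6 : v.intValuation a ≠ 0 := v.intValuation_ne_zero a ha0
          rw [← WithZero.exp_log h6] at hlt ⊢
          rw [WithZero.exp_lt_exp] at hlt
          rw [WithZero.exp_le_exp]
          push_cast
          linarith
        rw [v.intValuation_le_pow_iff_mem, ← Ideal.span_singleton_le_iff_mem, hspan] at h5
        have h7 : v.asIdeal ^ (h + 1) < v.asIdeal ^ h :=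
          Ideal.pow_succ_lt_pow hI h
        exact absurd h5 (not_le_of_gt h7)
    show ord v (algebraMap (𝓞 K) K a) = _
    rw [ord, v.valuation_of_algebraMap, h4, WithZero.log_exp, neg_neg]
  · intro w hw
    show ord w (algebraMap (𝓞 K) K a) = 0
    rw [ord_eq_zero_iff haK, HeightOneSpectrum.valuation_eq_one_iff_notMem]
    intro haw
    apply hw
    have h8 : v.asIdeal ^ h ≤ w.asIdeal := by
      rw [← hspan, Ideal.span_singleton_le_iff_mem]; exact haw
    have h9 : v.asIdeal ≤ w.asIdeal := w.isPrime.le_of_pow_le h8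
    exact (HeightOneSpectrum.ext (v.isMaximal.eq_of_le w.isPrime.ne_top h9)).symm

section rank

variable (V : Set (HeightOneSpectrum (𝓞 K)))

/-- the order homomorphism on `V`-units -/
noncomputable def ordUnit : Additive (V.unit K) →ₗ[ℤ] (V → ℤ) :=
  ((ordHom V).comp (MonoidHom.toAdditive (V.unit K).subtype)).toIntLinearMap

lemma ordUnit_apply (x : V.unit K) (v : V) :
    ordUnit V (Additive.ofMul x) v = ord v.1 ((x : Kˣ) : K) := rfl

lemma mem_of_ker {x : Additive (V.unit K)} (hx : ordUnit V x = 0) :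
    ∃ u : (𝓞 K)ˣ, ((u : 𝓞 K) : K) = ((x.toMul : Kˣ) : K) := by
  set y : Kˣ := (x.toMul : Kˣ) with hy
  have h1 : ∀ v : HeightOneSpectrum (𝓞 K), v.valuation K (y : K) = 1 := by
    intro v
    by_cases hv : v ∈ V
    · have := congrFun hx ⟨v, hv⟩
      have h2 : ord v (y : K) = 0 := this
      exact (ord_eq_zero_iff (Units.ne_zero y)).1 h2
    · exact x.toMul.2 v hv
  obtain ⟨a, ha⟩ := HeightOneSpectrum.mem_integers_of_valuation_le_one K (y : K)
    (fun v => (h1 v).le)
  obtain ⟨b, hb⟩ := HeightOneSpectrum.mem_integers_of_valuation_le_one K ((y : K)⁻¹)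
    (fun v => by rw [map_inv₀, h1 v, inv_one])
  have hab : a * b = 1 := by
    apply FaithfulSMul.algebraMap_injective (𝓞 K) K
    rw [map_mul, ha, hb, map_one]
    exact mul_inv_cancel₀ (Units.ne_zero y)
  exact ⟨⟨a, b, hab, by rw [mul_comm]; exact hab⟩, ha⟩

/-- units of the ring of integers as `V`-units -/
noncomputable def unitsTo : Additive (𝓞 K)ˣ →ₗ[ℤ] Additive (V.unit K) :=
  (MonoidHom.toAdditive ((Units.map (algebraMap (𝓞 K) K : 𝓞 K →* K)).codRestrict (V.unit K) (by
    intro u v _
    show v.valuation K (algebraMap (𝓞 K) K (u : 𝓞 K)) = 1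
    rw [HeightOneSpectrum.valuation_eq_one_iff_notMem]
    intro h
    exact v.isPrime.ne_top (Ideal.eq_top_of_isUnit_mem _ h u.isUnit)))).toIntLinearMap

lemma unitsTo_apply (u : (𝓞 K)ˣ) :
    ((((unitsTo V (Additive.ofMul u)).toMul : V.unit K) : Kˣ) : K) = ((u : 𝓞 K) : K) := rfl

lemma unitsTo_injective : Function.Injective (unitsTo V) := by
  intro a b hab
  have h1 := congrArg (fun z : Additive (V.unit K) => (((z.toMul : V.unit K) : Kˣ) : K)) hab
  have h2 : (((a.toMul : (𝓞 K)ˣ) : 𝓞 K) : K) = (((b.toMul : (𝓞 K)ˣ) : 𝓞 K) : K) := h1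
  have h3 : (a.toMul : (𝓞 K)ˣ) = b.toMul := by
    apply Units.ext
    exact FaithfulSMul.algebraMap_injective (𝓞 K) K h2
  exact h3

lemma range_unitsTo : (unitsTo V).range = (ordUnit V).ker := by
  ext x
  rw [LinearMap.mem_range, LinearMap.mem_ker]
  constructor
  · rintro ⟨u, rfl⟩
    funext v
    have h2 : ord v.1 ((((u.toMul : (𝓞 K)ˣ) : 𝓞 K) : K)) = 0 := by
      have h3 : ((((u.toMul : (𝓞 K)ˣ) : 𝓞 K) : K)) ≠ 0 := by
        simp
      rw [ord_eq_zero_iff h3]
      show v.1.valuation K (algebraMap (𝓞 K) K (u.toMul : 𝓞 K)) = 1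
      rw [HeightOneSpectrum.valuation_eq_one_iff_notMem]
      intro h
      exact v.1.isPrime.ne_top (Ideal.eq_top_of_isUnit_mem _ h u.toMul.isUnit)
    exact h2
  · intro hx
    obtain ⟨u, hu⟩ := mem_of_ker V hx
    refine ⟨Additive.ofMul u, ?_⟩
    have : ((unitsTo V (Additive.ofMul u)).toMul : V.unit K) = x.toMul := by
      apply Subtype.ext
      apply Units.ext
      exact hu
    exact this

variable [Finite V]

lemma smul_mem_range (f : V → ℤ) : (Nat.card (ClassGroup (𝓞 K)) : ℤ) • f ∈ (ordUnit V).range := by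
  classical
  have : Fintype V := Fintype.ofFinite V
  choose a ha ha' using fun v : HeightOneSpectrum (𝓞 K) => exists_gen v
  have hmem : ∀ v : V, a v.1 ∈ V.unit K := by
    intro v w hw
    have hne : w ≠ v.1 := by rintro rfl; exact hw v.2
    exact (ord_eq_zero_iff (Units.ne_zero _)).1 (ha' v.1 w hne)
  refine ⟨∑ v : V, f v • (Additive.ofMul (⟨a v.1, hmem v⟩ : V.unit K)), ?_⟩
  rw [map_sum]
  funext w
  rw [Finset.sum_apply]
  simp only [map_zsmul, Pi.smul_apply, ordUnit_apply]
  rw [Finset.sum_eq_single w]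
  · rw [ha w.1]; simp [mul_comm]
  · intro v _ hvw
    rw [ha' v.1 w.1 (fun h => hvw (Subtype.ext h.symm))]
    simp
  · intro h; exact absurd (Finset.mem_univ _) h

lemma finrank_range_ordUnit : finrank ℤ (ordUnit V).range = Nat.card V := by
  have : Fintype V := Fintype.ofFinite V
  apply le_antisymm
  · have := Submodule.finrank_le (ordUnit V).range
    rwa [Module.finrank_fintype_fun_eq_card, ← Nat.card_eq_fintype_card] at this
  · have h1 : finrank ℤ (DistribSMul.toLinearMap ℤ (V → ℤ)
        (Nat.card (ClassGroup (𝓞 K)))).range = finrank ℤ (V → ℤ) :=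
      (DistribSMul.toLinearMap ..).finrank_range_of_inj <|
        AddSubgroup.distribSMulToLinearMap_injective_of_isTorsionFree Nat.card_pos.ne'
    rw [Module.finrank_fintype_fun_eq_card, ← Nat.card_eq_fintype_card] at h1
    rw [← h1]
    apply Submodule.finrank_mono
    rintro _ ⟨f, rfl⟩
    have := smul_mem_range V f
    simpa using this

instance finite_unit : Module.Finite ℤ (Additive (V.unit K)) := by
  rw [Module.finite_def]
  refine Submodule.fg_of_fg_map_of_fg_inf_ker (ordUnit V) ?_ ?_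
  · exact IsNoetherian.noetherian _
  · rw [inf_of_le_right le_top, ← range_unitsTo, LinearMap.range_eq_map]
    exact (Module.finite_def.1 inferInstance : (⊤ : Submodule ℤ (Additive (𝓞 K)ˣ)).FG).map _

theorem finrank_unit : finrank ℤ (Additive (V.unit K)) = Units.rank K + Nat.card V := by
  have h := Submodule.finrank_quotient_add_finrank (ordUnit V).ker
  rw [(ordUnit V).quotKerEquivRange.finrank_eq, finrank_range_ordUnit, ← range_unitsTo,
    LinearMap.finrank_range_of_inj (unitsTo_injective V), Units.finrank_eq] at h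
  rw [← h]; ring

end rank

end Fermat.Agent.CFT6
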