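import Mathlib
import Fermat.Agent.CFT.Idele
import Fermat.Agent.CFT6.SUnitRank
import Fermat.Agent.CFT6.Orbit

/-!
# `S`-units in the embedding model
-/

set_option autoImplicit false

open NumberField IsDedekindDomain Module Fermat.Agent.CFT

namespace Fermat.Agent.CFT6

/-- `S`-units, defined via embeddings. -/
def SUnits (K : Type*) [Field K] (S : Finset Nat.Primes) : Subgroup Kˣ where
  carrier := {x | ∀ q ∉ S, ∀ φ : Emb K q, ‖φ (x : K)‖ = 1}
  mul_mem' := by
    intro a b ha hb q hq φ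
    rw [Units.val_mul, map_mul, norm_mul, ha q hq φ, hb q hq φ, one_mul]
  one_mem' := by intro q _ φ; simp
  inv_mem' := by
    intro a ha q hq φ
    rw [Units.val_inv_eq_inv_val, map_inv₀, norm_inv, ha q hq φ, inv_one]

lemma mem_SUnits {K : Type*} [Field K] {S : Finset Nat.Primes} {x : Kˣ} :
    x ∈ SUnits K S ↔ ∀ q ∉ S, ∀ φ : Emb K q, ‖φ (x : K)‖ = 1 := Iff.rfl

/-- the orbits of embeddings in `Cq`; the places of `K` above `q`. -/
abbrev Orb (K : Type*) [Field K] (q : Nat.Primes) : Type _ :=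
  MulAction.orbitRel.Quotient (Gq q) (Emb K q)

variable (K : Type*) [Field K] [NumberField K]

/-- the places above `S`. -/
def above (S : Finset Nat.Primes) : Set (HeightOneSpectrum (𝓞 K)) :=
  {v | ∃ q ∈ S, ((q : ℕ) : 𝓞 K) ∈ v.asIdeal}

/-- the places above `q`. -/
abbrev Above (q : Nat.Primes) : Type _ :=
  {v : HeightOneSpectrum (𝓞 K) // ((q : ℕ) : 𝓞 K) ∈ v.asIdeal}

variable {K}

/-- two distinct primes do not both lie in a proper ideal. -/
lemma prime_unique {v : HeightOneSpectrum (𝓞 K)} {q r : Nat.Primes}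
    (hq : ((q : ℕ) : 𝓞 K) ∈ v.asIdeal) (hr : ((r : ℕ) : 𝓞 K) ∈ v.asIdeal) : q = r := by
  obtain ⟨φ, rfl⟩ := exists_place_eq (q := (q : ℕ)) v hq
  have h1 : (((r : ℕ) : ℤ) : 𝓞 K) ∈ (place φ).asIdeal := by simpa using hr
  rw [intCast_mem_place] at h1
  have h2 : (q : ℕ) ∣ (r : ℕ) := by exact_mod_cast h1
  exact Subtype.ext ((Nat.prime_dvd_prime_iff_eq q.2 r.2).1 h2)

lemma exists_prime_mem (v : HeightOneSpectrum (𝓞 K)) :
    ∃ q : Nat.Primes, ((q : ℕ) : 𝓞 K) ∈ v.asIdeal := by
  have h1 : ∃ n : ℕ, n ≠ 0 ∧ (n : 𝓞 K) ∈ v.asIdeal := by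
    refine ⟨Ideal.absNorm v.asIdeal, ?_, Ideal.absNorm_mem _⟩
    rw [Ne, Ideal.absNorm_eq_zero_iff]
    exact v.ne_bot
  obtain ⟨n, hn, hmem⟩ := h1
  induction n using Nat.recOnMul with
  | zero => exact absurd rfl hn
  | one =>
    exact absurd ((Ideal.eq_top_iff_one _).2 (by simpa using hmem)) v.isPrime.ne_top
  | prime p hp => exact ⟨⟨p, hp⟩, hmem⟩
  | mul a b iha ihb =>
    rw [Nat.cast_mul] at hmem
    rcases v.isPrime.mem_or_mem hmem with h | h
    · exact iha (by rintro rfl; simp at hn) h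
    · exact ihb (by rintro rfl; simp at hn) h

/-- places above `q` are Galois orbits of embeddings. -/
noncomputable def orbEquiv (q : Nat.Primes) : Orb K q ≃ Above K q :=
  Equiv.ofBijective
    (Quotient.lift (fun φ : Emb K q => (⟨place φ, q_mem_place φ⟩ : Above K q)) (by
      intro φ φ' h
      obtain ⟨τ, hτ⟩ := h
      apply Subtype.ext
      show place φ = place φ'
      symm
      rw [place_eq_iff]
      exact ⟨τ, fun x => by rw [← hτ]; rfl⟩))
    (by
      constructor
      · rintro ⟨φ⟩ ⟨φ'⟩ h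
        have h1 : place φ = place φ' := congrArg Subtype.val h
        obtain ⟨τ, hτ⟩ := place_eq_iff.1 h1
        symm
        apply Quotient.sound
        exact ⟨τ, RingHom.ext hτ⟩
      · rintro ⟨v, hv⟩
        obtain ⟨φ, rfl⟩ := exists_place_eq (q := (q : ℕ)) v hv
        exact ⟨Quotient.mk _ φ, rfl⟩)

lemma orbEquiv_mk (q : Nat.Primes) (φ : Emb K q) :
    (orbEquiv q (Quotient.mk _ φ : Orb K q) : HeightOneSpectrum (𝓞 K)) = place φ := rfl

instance finite_Above (q : Nat.Primes) : Finite (Above K q) :=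
  Finite.of_equiv _ (orbEquiv q)

/-- `above` as a disjoint union. -/
noncomputable def aboveEquiv (S : Finset Nat.Primes) : (above K S) ≃ Σ q : S, Above K q.1 :=
  Equiv.ofBijective
    (fun v => ⟨⟨v.2.choose, v.2.choose_spec.1⟩, ⟨v.1, v.2.choose_spec.2⟩⟩)
    (by
      constructor
      · intro v w h
        have : ((⟨⟨v.2.choose, v.2.choose_spec.1⟩, ⟨v.1, v.2.choose_spec.2⟩⟩ :
          Σ q : S, Above K q.1).2 : HeightOneSpectrum (𝓞 K)) =
          ((⟨⟨w.2.choose, w.2.choose_spec.1⟩, ⟨w.1, w.2.choose_spec.2⟩⟩ :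
          Σ q : S, Above K q.1).2 : HeightOneSpectrum (𝓞 K)) := by
            have h' : (⟨⟨v.2.choose, v.2.choose_spec.1⟩, ⟨v.1, v.2.choose_spec.2⟩⟩ :
              Σ q : S, Above K q.1) =
              (⟨⟨w.2.choose, w.2.choose_spec.1⟩, ⟨w.1, w.2.choose_spec.2⟩⟩ :
              Σ q : S, Above K q.1) := h
            rw [h']
        exact Subtype.ext this
      · rintro ⟨⟨q, hq⟩, ⟨v, hv⟩⟩
        refine ⟨⟨v, q, hq, hv⟩, ?_⟩
        have h : ∀ (w : above K S) (hw : w = ⟨v, q, hq, hv⟩), w.2.choose = q := by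
          intro w hw
          subst hw
          exact prime_unique (Exists.choose_spec (⟨q, hq, hv⟩ : ∃ q ∈ S, ((q : ℕ) : 𝓞 K) ∈ v.asIdeal)).2 hv
        have h' := h ⟨v, q, hq, hv⟩ rfl
        refine Sigma.ext (Subtype.ext h') ?_
        simp only
        congr!)

instance finite_above (S : Finset Nat.Primes) : Finite (above K S) :=
  Finite.of_equiv _ (aboveEquiv S).symm

lemma card_above (S : Finset Nat.Primes) :
    Nat.card (above K S) = ∑ q ∈ S, Nat.card (Orb K q) := by
  rw [Nat.card_congr (aboveEquiv S), Nat.card_sigma, Finset.sum_coe_sort S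
    (fun q => Nat.card (Above K q))]
  exact Finset.sum_congr rfl (fun q _ => (Nat.card_congr (orbEquiv q)).symm)

theorem SUnits_eq (S : Finset Nat.Primes) : SUnits K S = (above K S).unit K := by
  ext x
  constructor
  · intro hx v hv
    obtain ⟨q, hq⟩ := exists_prime_mem v
    obtain ⟨φ, rfl⟩ := exists_place_eq (q := (q : ℕ)) v hq
    rw [valuation_eq_one_iff]
    exact hx q (fun hS => hv ⟨q, hS, hq⟩) φ
  · intro hx q hq φ
    rw [← valuation_eq_one_iff]
    apply hx
    rintro ⟨r, hr, hr'⟩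
    have := prime_unique (q_mem_place φ) hr'
    exact hq (this ▸ hr)

instance finite_SUnits (S : Finset Nat.Primes) : Module.Finite ℤ (Additive (SUnits K S)) := by
  rw [SUnits_eq]; infer_instance

/-- the rank of the group of `S`-units -/
theorem finrank_SUnits (S : Finset Nat.Primes) :
    finrank ℤ (Additive (SUnits K S)) = Units.rank K + ∑ q ∈ S, Nat.card (Orb K q) := by
  rw [SUnits_eq, finrank_unit, card_above]

end Fermat.Agent.CFT6
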