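import Mathlib
import Fermat.Agent.CFT.PowClose
import Fermat.Agent.CFT6.SUnits

/-!
# Integral approximation in the semilocal algebra
-/

set_option autoImplicit false

open NumberField IsDedekindDomain Module Fermat.Agent.CFT

namespace Fermat.Agent.CFT6

section

variable {K : Type*} [Field K] [NumberField K]

lemma valuation_le_one_iff {q : Nat.Primes} {φ : Emb K q} {x : K} :
    (place φ).valuation K x ≤ 1 ↔ ‖φ x‖ ≤ 1 := by
  refine ⟨norm_le_one_of_valuation, fun h => ?_⟩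
  by_contra hlt
  push Not at hlt
  have h1 : (place φ).valuation K x⁻¹ < 1 := by
    rw [map_inv₀]; exact inv_lt_one_of_one_lt₀ hlt
  have h2 := valuation_lt_one_norm h1
  rw [map_inv₀, norm_inv] at h2
  have hx : x ≠ 0 := by
    rintro rfl
    rw [map_zero] at hlt
    exact absurd hlt (not_lt.2 zero_le_one)
  have h3 : 0 < ‖φ x‖ := norm_pos_iff.2 ((map_ne_zero φ).2 hx)
  have h4 := (inv_lt_one₀ h3).1 h2
  exact absurd h (not_le.2 h4)

lemma exists_integral_of_norm_le_one {y : K} (h : ∀ (q : Nat.Primes) (φ : Emb K q), ‖φ y‖ ≤ 1) :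
    ∃ a : 𝓞 K, (a : K) = y := by
  have := HeightOneSpectrum.mem_integers_of_valuation_le_one (R := 𝓞 K) K y (fun v => by
    obtain ⟨q, hq⟩ := exists_prime_mem v
    obtain ⟨φ, rfl⟩ := exists_place_eq (q := (q : ℕ)) v hq
    exact valuation_le_one_iff.2 (h q φ))
  exact this

lemma norm_natCast_eq_one {q : Nat.Primes} {n : ℕ} (hn : ¬ (q : ℕ) ∣ n) :
    ‖(n : Cq q)‖ = 1 := by
  refine le_antisymm (norm_natCast_le_one n) (not_lt.1 fun h => hn ?_)
  have h1 : ‖((n : ℤ) : Cq q)‖ < 1 := by simpa using h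
  have := (norm_intCast_lt_one_iff (q := (q : ℕ)) (n : ℤ)).1 h1
  exact_mod_cast this

lemma norm_prime_ne {q r : Nat.Primes} (h : q ≠ r) : ‖(((r : ℕ) : ℕ) : Cq q)‖ = 1 :=
  norm_natCast_eq_one (fun hd => h (Subtype.ext ((Nat.prime_dvd_prime_iff_eq q.2 r.2).1 hd)))

lemma exists_nat_mul_integral {q : Nat.Primes} {x : K} (hx : ∀ φ : Emb K q, ‖φ x‖ ≤ 1) :
    ∃ m : ℕ, ¬ (q : ℕ) ∣ m ∧ ∃ a : 𝓞 K, (a : K) = m * x := by
  have key : ∃ N : ℕ, N ≠ 0 ∧ IsIntegral ℤ ((N : K) * x) := by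
    obtain ⟨N, hN, hN'⟩ := (IsFractionRing.isAlgebraic_iff ℤ ℚ K |>.2
      (Algebra.IsAlgebraic.isAlgebraic (R := ℚ) x)).exists_integral_multiple
    refine ⟨N.natAbs, by simpa using hN, ?_⟩
    have h2 : IsIntegral ℤ ((N.natAbs : ℤ) • x) := by
      rcases Int.natAbs_eq N with h | h
      · rw [← h]; exact hN'
      · have : ((N.natAbs : ℤ) • x) = - (N • x) := by
          rw [← neg_smul]; congr 1; omega
        rw [this]; exact hN'.neg
    simpa [zsmul_eq_mul] using h2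
  obtain ⟨N, hN, hNx⟩ := key
  obtain ⟨k, m, hm, hNm⟩ := Nat.exists_eq_pow_mul_and_not_dvd hN (q : ℕ) q.2.ne_one
  refine ⟨m, hm, exists_integral_of_norm_le_one ?_⟩
  intro r φ
  by_cases hr : r = q
  · subst hr
    rw [map_mul, norm_mul, map_natCast]
    exact mul_le_one₀ (norm_natCast_le_one m) (norm_nonneg _) (hx φ)
  · have h1 : ‖φ ((N : K) * x)‖ ≤ 1 := CFT.norm_le_one_of_isIntegral (hNx.map φ.toIntAlgHom)
    rw [hNm, Nat.cast_mul, Nat.cast_pow, mul_assoc, map_mul, map_pow, map_natCast, norm_mul,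
      norm_pow, norm_prime_ne hr, one_pow, one_mul] at h1
    exact h1

/-- integral elements of `K` are dense in the semilocal integers -/
theorem exists_integral_approx {q : Nat.Primes} (u : Emb K q → Cq q)
    (hu : ∀ (τ : Gq q) (φ : Emb K q), u (τ • φ) = τ (u φ)) (hu1 : ∀ φ, ‖u φ‖ ≤ 1)
    {ε : ℝ} (hε : 0 < ε) : ∃ a : 𝓞 K, ∀ φ : Emb K q, ‖φ (a : K) - u φ‖ < ε := by
  classical
  obtain ⟨x, hx⟩ := dense_semilocal (K := K) {q} (Function.update (fun q' _ => 0) q u)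
    (by
      intro r hr τ φ
      rw [Finset.mem_singleton] at hr
      subst hr
      rw [Function.update_self]
      exact hu τ φ) (ε := min ε 1) (lt_min hε one_pos)
  have hx' : ∀ φ : Emb K q, ‖φ x - u φ‖ < min ε 1 := by
    intro φ
    have := hx q (Finset.mem_singleton_self q) φ
    rwa [Function.update_self] at this
  have hx1 : ∀ φ : Emb K q, ‖φ x‖ ≤ 1 := by
    intro φ
    have h1 : φ x = (φ x - u φ) + u φ := by ring
    rw [h1]
    exact (PadicAlgCl.isNonarchimedean q _ _).trans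
      (max_le ((hx' φ).le.trans (min_le_right _ _)) (hu1 φ))
  obtain ⟨m, hm, a, ha⟩ := exists_nat_mul_integral hx1
  have hq1 : ‖((q : ℕ) : Cq q)‖ < 1 := norm_natCast_q_lt
  obtain ⟨k, hk⟩ := exists_pow_lt_of_lt_one hε hq1
  have hcop : IsCoprime (m : ℤ) ((q : ℕ) ^ k : ℤ) := by
    apply IsCoprime.pow_right
    rw [Nat.isCoprime_iff_coprime]
    exact ((Nat.Prime.coprime_iff_not_dvd q.2).2 hm).symm
  obtain ⟨c, d, hcd⟩ := hcop
  refine ⟨(c : 𝓞 K) * a, fun φ => ?_⟩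
  have h2 : φ (((c : 𝓞 K) * a : 𝓞 K) : K) - φ x = (-(d : Cq q) * φ x) * ((q : ℕ) : Cq q) ^ k := by
    have h3 : (((c : 𝓞 K) * a : 𝓞 K) : K) = (c : K) * (m * x) := by
      rw [← ha]; simp
    rw [h3, map_mul, map_mul, map_intCast, map_natCast]
    have h4 : (c : Cq q) * (m : Cq q) + (d : Cq q) * ((q : ℕ) : Cq q) ^ k = 1 := by
      have := congrArg (fun z : ℤ => (z : Cq q)) hcd
      push_cast at this
      exact this
    linear_combination (φ x) * h4
  have h5 : ‖φ (((c : 𝓞 K) * a : 𝓞 K) : K) - φ x‖ < ε := by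
    rw [h2, norm_mul, norm_mul, norm_neg, norm_pow]
    have hd : ‖(d : Cq q)‖ ≤ 1 := by
      have := IsUltrametricDist.norm_intCast_le_one (R := Cq q) d
      simpa using this
    calc ‖(d : Cq q)‖ * ‖φ x‖ * ‖((q : ℕ) : Cq q)‖ ^ k ≤ 1 * ‖((q : ℕ) : Cq q)‖ ^ k := by
          gcongr
          exact mul_le_one₀ hd (norm_nonneg _) (hx1 φ)
      _ < ε := by rw [one_mul]; exact hk
  have h6 : φ (((c : 𝓞 K) * a : 𝓞 K) : K) - u φ =
      (φ (((c : 𝓞 K) * a : 𝓞 K) : K) - φ x) + (φ x - u φ) := by ring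
  rw [h6]
  exact (PadicAlgCl.isNonarchimedean q _ _).trans_lt
    (max_lt h5 ((hx' φ).trans_le (min_le_left _ _)))

end

end Fermat.Agent.CFT6
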