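import Mathlib
import Fermat.Agent.CFT6.IntApprox

/-!
# Cyclotomic fields in the embedding model
-/

set_option autoImplicit false

open NumberField IsDedekindDomain Module Fermat.Agent.CFT
open scoped Pointwise

namespace Fermat.Agent.CFT6

section

variable {ℓ : ℕ} [hℓ : Fact ℓ.Prime] {M : Type*} [Field M] [NumberField M]
  [IsCyclotomicExtension {ℓ} ℚ M] {q : Nat.Primes}

instance liesOver_place (φ : Emb M q) :
    (place φ).asIdeal.LiesOver (Ideal.span {((q : ℕ) : ℤ)}) := by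
  constructor
  ext m
  rw [Ideal.mem_span_singleton, Ideal.mem_comap]
  have h := intCast_mem_place (φ := φ) (m := m)
  rw [← h]
  simp

lemma not_dvd_of_ne (hq : (q : ℕ) ≠ ℓ) : ¬ (q : ℕ) ∣ ℓ :=
  fun h => hq ((Nat.prime_dvd_prime_iff_eq q.2 hℓ.out).1 h)

/-- Frobenius at `q ≠ ℓ` in the local Galois group -/
theorem exists_frob (hq : (q : ℕ) ≠ ℓ) (φ : Emb M q) :
    ∃ τ : Gq q, ∀ x : M, x ^ ℓ = 1 → τ (φ x) = φ (x ^ (q : ℕ)) := by
  have : NeZero ℓ := ⟨hℓ.out.ne_zero⟩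
  have hcop : (q : ℕ).Coprime ℓ := (Nat.Prime.coprime_iff_not_dvd q.2).2 (not_dvd_of_ne hq)
  have : (place φ).asIdeal.IsMaximal := (place φ).isMaximal
  have h1 := IsCyclotomicExtension.Rat.galEquivZMod_stabilizer ℓ M (q : ℕ) (place φ).asIdeal hcop
  set u : (ZMod ℓ)ˣ := ZMod.unitOfCoprime (q : ℕ) hcop with hu
  have h2 : u ∈ (IsCyclotomicExtension.Rat.galEquivZMod ℓ M).mapSubgroup
      (MulAction.stabilizer Gal(M/ℚ) (place φ).asIdeal) := by
    rw [h1]; exact Subgroup.mem_zpowers _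
  obtain ⟨σ, hσ, hσu⟩ := h2
  have hσu' : IsCyclotomicExtension.Rat.galEquivZMod ℓ M σ = u := hσu
  have hσ' : σ • (place φ).asIdeal = (place φ).asIdeal := hσ
  -- the embedding `φ ∘ σ` induces the same place
  have h3 : place φ = place (φ.comp (σ : M →+* M)) := by
    apply HeightOneSpectrum.ext
    ext x
    show x ∈ primeIdeal φ ↔ x ∈ primeIdeal (φ.comp (σ : M →+* M))
    rw [mem_primeIdeal (φ := φ.comp (σ : M →+* M))]
    have h4 : (φ.comp (σ : M →+* M)) (x : M) = φ ((σ • x : 𝓞 M) : M) := rfl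
    rw [h4]
    have h5 : x ∈ (place φ).asIdeal ↔ σ • x ∈ σ • (place φ).asIdeal :=
      (Ideal.smul_mem_pointwise_smul_iff).symm
    rw [hσ'] at h5
    exact h5
  obtain ⟨τ, hτ⟩ := place_eq_iff.1 h3
  refine ⟨τ, fun x hx => ?_⟩
  rw [hτ x]
  show φ (σ x) = _
  rw [IsCyclotomicExtension.Rat.galEquivZMod_apply_of_pow_eq ℓ M σ hx, hσu']
  congr 1
  have h6 : ((u : ZMod ℓ).val : ZMod ℓ) = ((q : ℕ) : ZMod ℓ) := by
    rw [ZMod.natCast_zmod_val, hu, ZMod.coe_unitOfCoprime]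
  rw [ZMod.natCast_eq_natCast_iff'] at h6
  rw [← Nat.mod_add_div ((u : ZMod ℓ).val) ℓ, h6, pow_add, pow_mul, hx, one_pow, mul_one]
  conv_rhs => rw [← Nat.mod_add_div (q : ℕ) ℓ, pow_add, pow_mul, hx, one_pow, mul_one]

/-- `q ≠ ℓ` is unramified -/
theorem norm_mem_zpow (hq : (q : ℕ) ≠ ℓ) (φ : Emb M q) {x : M} (hx : x ≠ 0) :
    ∃ n : ℤ, ‖φ x‖ = ((q : ℕ) : ℝ) ^ n := by
  have : NeZero ℓ := ⟨hℓ.out.ne_zero⟩
  have hmax : (place φ).asIdeal.IsMaximal := (place φ).isMaximal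
  have h1 : Ideal.ramificationIdx (place φ).asIdeal ℤ = 1 :=
    IsCyclotomicExtension.Rat.ramificationIdx_eq_of_not_dvd (m := ℓ) (q : ℕ) M (place φ).asIdeal
      (not_dvd_of_ne hq)
  have h0 : (Ideal.span {((q : ℕ) : ℤ)}).map (algebraMap ℤ (𝓞 M)) = Ideal.span {((q : ℕ) : 𝓞 M)} := by
    rw [Ideal.map_span, Set.image_singleton]; simp
  have hq0 : ((q : ℕ) : 𝓞 M) ≠ 0 := by exact_mod_cast q.2.ne_zero
  have hne : (Ideal.span {((q : ℕ) : ℤ)}).map (algebraMap ℤ (𝓞 M)) ≠ ⊥ := by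
    rw [h0, Ne, Ideal.span_singleton_eq_bot]; exact hq0
  rw [Ideal.IsDedekindDomain.ramificationIdx_eq_multiplicity (Ideal.span {((q : ℕ) : ℤ)})
    (place φ).asIdeal hne, h0] at h1
  have h2 := (place φ).intValuation_eq_exp_neg_multiplicity hq0
  rw [h1] at h2
  have h3 : ord (place φ) ((q : ℕ) : M) = 1 := by
    have h4 : ((q : ℕ) : M) = algebraMap (𝓞 M) M ((q : ℕ) : 𝓞 M) := by simp
    rw [ord, h4, (place φ).valuation_of_algebraMap, h2, WithZero.log_exp]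
    simp
  have hqM : ((q : ℕ) : M) ≠ 0 := by exact_mod_cast q.2.ne_zero
  have h5 := norm_eq_unif_zpow φ hqM
  rw [h3, zpow_one, map_natCast, norm_natCast_q] at h5
  refine ⟨-ord (place φ) x, ?_⟩
  rw [norm_eq_unif_zpow φ hx, ← h5, inv_zpow, zpow_neg]

end

end Fermat.Agent.CFT6
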