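import Mathlib
import Fermat.Agent.CFT6.Cyclo
import Fermat.Agent.CFT.Galois
import Fermat.Agent.PTLocal.Unram

/-!
# Local norms for cyclic extensions of `ℚ` of prime degree, in the embedding model
-/

set_option autoImplicit false

open NumberField IsDedekindDomain Module Fermat.Agent.CFT
open scoped Pointwise

namespace Fermat.Agent.CFT6

/-- the local Galois group acts transitively on the embeddings -/
def TransAt (L : Type*) [Field L] (q : Nat.Primes) : Prop :=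
  ∀ ψ ψ' : Emb L q, ∃ τ : Gq q, τ • ψ = ψ'

/-- `x` is a norm from `L ⊗ ℚ_q` -/
def NormAt (L : Type*) [Field L] [NumberField L] (q : Nat.Primes) (x : Cq q) : Prop :=
  ∃ y ∈ Jq L q, ∏ ψ : Emb L q, (y ψ : Cq q) = x

section

variable {L : Type*} [Field L] [NumberField L] {q : Nat.Primes}

lemma NormAt.mul {x x' : Cq q} (h : NormAt L q x) (h' : NormAt L q x') : NormAt L q (x * x') := by
  obtain ⟨y, hy, rfl⟩ := h
  obtain ⟨y', hy', rfl⟩ := h'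
  refine ⟨y * y', mul_mem hy hy', ?_⟩
  rw [← Finset.prod_mul_distrib]
  rfl

lemma NormAt.inv {x : Cq q} (h : NormAt L q x) : NormAt L q x⁻¹ := by
  obtain ⟨y, hy, rfl⟩ := h
  refine ⟨y⁻¹, inv_mem hy, ?_⟩
  rw [← Finset.prod_inv_distrib]
  refine Finset.prod_congr rfl (fun ψ _ => ?_)
  simp

lemma normAt_pow {x : ℚ} (hx : x ≠ 0) : NormAt L q (((x : ℚ) : Cq q) ^ finrank ℚ L) := by
  have hx' : ((x : ℚ) : Cq q) ≠ 0 := by exact_mod_cast hx
  refine ⟨fun _ => Units.mk0 _ hx', fun τ φ => ?_, ?_⟩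
  · show ((x : ℚ) : Cq q) = τ ((x : ℚ) : Cq q)
    rw [map_ratCast]
  · rw [Finset.prod_const, Finset.card_univ, NumberField.Embeddings.card]
    rfl

/-- in the prime degree case, a moved embedding gives transitivity. -/
lemma transAt_of_move {p : ℕ} [hp : Fact p.Prime] [IsGalois ℚ L] (hL : finrank ℚ L = p)
    {ψ : Emb L q} {τ : Gq q} (h : τ • ψ ≠ ψ) : TransAt L q := by
  have hcard : Nat.card (L ≃ₐ[ℚ] L) = p := by rw [IsGalois.card_aut_eq_finrank, hL]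
  obtain ⟨σ, hσ⟩ := exists_comp_eq (K := ℚ) (ψ := ψ) (ψ' := τ • ψ) (Subsingleton.elim _ _)
  have hσ1 : σ ≠ 1 := by
    rintro rfl
    apply h
    rw [hσ]; rfl
  have key : ∀ k : ℕ, (τ ^ k) • ψ = ψ.comp ((σ ^ k : L ≃ₐ[ℚ] L) : L →+* L) := by
    intro k
    induction k with
    | zero => rw [pow_zero, one_smul]; rfl
    | succ k ih =>
      rw [pow_succ', mul_smul, ih]
      have h1 : τ • (ψ.comp ((σ ^ k : L ≃ₐ[ℚ] L) : L →+* L)) =
        (τ • ψ).comp ((σ ^ k : L ≃ₐ[ℚ] L) : L →+* L) := rfl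
      rw [h1, hσ, pow_succ']
      rfl
  have orb : ∀ ψ' : Emb L q, ∃ ρ : Gq q, ρ • ψ = ψ' := by
    intro ψ'
    obtain ⟨σ', hσ'⟩ := exists_comp_eq (K := ℚ) (ψ := ψ) (ψ' := ψ') (Subsingleton.elim _ _)
    have h1 : σ' ∈ Subgroup.zpowers σ := mem_zpowers_of_prime_card hcard hσ1
    have hfin : Finite (L ≃ₐ[ℚ] L) := Nat.finite_of_card_ne_zero (by rw [hcard]; exact hp.out.ne_zero)
    rw [← mem_powers_iff_mem_zpowers, Submonoid.mem_powers_iff] at h1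
    obtain ⟨k, rfl⟩ := h1
    exact ⟨τ ^ k, by rw [key, hσ']⟩
  intro ψ₁ ψ₂
  obtain ⟨ρ₁, h₁⟩ := orb ψ₁
  obtain ⟨ρ₂, h₂⟩ := orb ψ₂
  exact ⟨ρ₂ * ρ₁⁻¹, by rw [← h₁, mul_smul, inv_smul_smul, h₂]⟩

omit [NumberField L] in
lemma norm_const_of_trans (ht : TransAt L q) {y : Emb L q → (Cq q)ˣ} (hy : y ∈ Jq L q)
    (ψ ψ' : Emb L q) : ‖(y ψ : Cq q)‖ = ‖(y ψ' : Cq q)‖ := by
  obtain ⟨τ, rfl⟩ := ht ψ' ψ
  rw [hy τ ψ', norm_gq]

omit [NumberField L] in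
lemma norm_const_of_trans' (ht : TransAt L q) (z : L) (ψ ψ' : Emb L q) : ‖ψ z‖ = ‖ψ' z‖ := by
  obtain ⟨τ, rfl⟩ := ht ψ' ψ
  rw [smul_emb_apply, norm_gq]

/-- the norm of a local norm, nonsplit case -/
lemma norm_prod_of_trans (ht : TransAt L q) {y : Emb L q → (Cq q)ˣ} (hy : y ∈ Jq L q)
    (ψ : Emb L q) : ‖∏ ψ' : Emb L q, (y ψ' : Cq q)‖ = ‖(y ψ : Cq q)‖ ^ finrank ℚ L := by
  rw [norm_prod, Finset.prod_congr rfl (fun ψ' _ => norm_const_of_trans ht hy ψ' ψ),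
    Finset.prod_const, Finset.card_univ, NumberField.Embeddings.card]

/-- values of equivariant functions are norms of elements -/
lemma exists_norm_eq_Jq' {f : Emb L q → (Cq q)ˣ} (hf : f ∈ Jq L q) (φ : Emb L q) :
    ∃ x : L, x ≠ 0 ∧ ‖φ x‖ = ‖(f φ : Cq q)‖ := by
  apply exists_norm_eq φ _ (Units.ne_zero _)
  intro τ hτ
  have h1 : τ • φ = φ := RingHom.ext hτ
  have h2 := hf τ φ
  rw [h1] at h2
  exact h2.symm

/-- (L2) local norms have valuation divisible by the degree at unramified nonsplit primes. -/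
lemma exists_zpow_of_normAt (ht : TransAt L q)
    (hunr : ∀ (ψ : Emb L q) (z : L), z ≠ 0 → ∃ n : ℤ, ‖ψ z‖ = ((q : ℕ) : ℝ) ^ n) {x : Cq q}
    (h : NormAt L q x) : ∃ n : ℤ, ‖x‖ = ((q : ℕ) : ℝ) ^ (n * finrank ℚ L) := by
  obtain ⟨y, hy, rfl⟩ := h
  obtain ⟨ψ⟩ : Nonempty (Emb L q) := inferInstance
  obtain ⟨z, hz0, hz⟩ := exists_norm_eq_Jq' hy ψ
  obtain ⟨n, hn⟩ := hunr ψ z hz0
  refine ⟨n, ?_⟩
  rw [norm_prod_of_trans ht hy ψ, ← hz, hn, zpow_mul, zpow_natCast]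

end

end Fermat.Agent.CFT6
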