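import Mathlib
import Fermat.Agent.CFT6.RecLocal

/-!
# Local norms at the ramified prime of a cyclotomic field
-/

set_option autoImplicit false

open NumberField IsDedekindDomain Module Fermat.Agent.CFT
open scoped Pointwise

namespace Fermat.Agent.CFT6

section

variable {ℓ : ℕ} [hℓ : Fact ℓ.Prime] {M : Type*} [Field M] [NumberField M]
  [IsCyclotomicExtension {ℓ} ℚ M] {q : Nat.Primes}

lemma place_ell_eq (hq : (q : ℕ) = ℓ) {ζ : M} (hζ : IsPrimitiveRoot ζ ℓ) (φ : Emb M q) :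
    (place φ).asIdeal = Ideal.span {hζ.toInteger - 1} := by
  subst hq
  have : (place φ).asIdeal.IsPrime := (place φ).isPrime
  exact IsCyclotomicExtension.Rat.eq_span_zeta_sub_one_of_liesOver' (q : ℕ) M hζ (place φ).asIdeal

/-- all embeddings above `ℓ` are conjugate -/
theorem transAt_ell (hq : (q : ℕ) = ℓ) : TransAt M q := by
  intro ψ ψ'
  have : NeZero ℓ := ⟨hℓ.out.ne_zero⟩
  have hζ := IsCyclotomicExtension.zeta_spec ℓ ℚ M
  have h1 : place ψ = place ψ' :=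
    HeightOneSpectrum.ext (by rw [place_ell_eq hq hζ, place_ell_eq hq hζ])
  obtain ⟨τ, hτ⟩ := place_eq_iff.1 h1
  exact ⟨τ, RingHom.ext hτ⟩

/-- algebraic integers of the cyclotomic field are close to integers at `ℓ`. -/
theorem exists_int_close (hq : (q : ℕ) = ℓ) (z : 𝓞 M) :
    ∃ b : ℤ, ∀ φ : Emb M q, ‖φ (z : M) - (b : Cq q)‖ < 1 := by
  have : NeZero ℓ := ⟨hℓ.out.ne_zero⟩
  have hζ := IsCyclotomicExtension.zeta_spec ℓ ℚ M
  have htop := IsCyclotomicExtension.Rat.adjoin_singleton_eq_top hζ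
  have hz : z ∈ Algebra.adjoin ℤ {hζ.toInteger} := by rw [htop]; trivial
  induction hz using Algebra.adjoin_induction with
  | mem x hx =>
    rw [Set.mem_singleton_iff] at hx
    subst hx
    refine ⟨1, fun φ => ?_⟩
    have h1 : hζ.toInteger - 1 ∈ (place φ).asIdeal := by
      rw [place_ell_eq hq hζ]; exact Ideal.mem_span_singleton_self _
    have h2 : ‖φ ((hζ.toInteger - 1 : 𝓞 M) : M)‖ < 1 := h1
    have h3 : φ ((hζ.toInteger - 1 : 𝓞 M) : M) = φ ((hζ.toInteger : 𝓞 M) : M) - ((1 : ℤ) : Cq q) := by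
      simp
    rwa [h3] at h2
  | algebraMap r =>
    refine ⟨r, fun φ => ?_⟩
    have : φ ((algebraMap ℤ (𝓞 M) r : 𝓞 M) : M) = (r : Cq q) := by simp
    rw [this, sub_self, norm_zero]; exact one_pos
  | add x y _ _ hx hy =>
    obtain ⟨b, hb⟩ := hx
    obtain ⟨c, hc⟩ := hy
    refine ⟨b + c, fun φ => ?_⟩
    have h1 : φ ((x + y : 𝓞 M) : M) - ((b + c : ℤ) : Cq q) =
        (φ (x : M) - (b : Cq q)) + (φ (y : M) - (c : Cq q)) := by
      simp only [map_add]; push_cast; ring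
    rw [h1]
    exact (PadicAlgCl.isNonarchimedean q _ _).trans_lt (max_lt (hb φ) (hc φ))
  | mul x y _ _ hx hy =>
    obtain ⟨b, hb⟩ := hx
    obtain ⟨c, hc⟩ := hy
    refine ⟨b * c, fun φ => ?_⟩
    have h1 : φ ((x * y : 𝓞 M) : M) - ((b * c : ℤ) : Cq q) =
        φ (x : M) * (φ (y : M) - (c : Cq q)) + (c : Cq q) * (φ (x : M) - (b : Cq q)) := by
      simp only [map_mul]; push_cast; ring
    rw [h1]
    have hc1 : ‖(c : Cq q)‖ ≤ 1 := by
      have := IsUltrametricDist.norm_intCast_le_one (R := Cq q) c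
      simpa using this
    refine (PadicAlgCl.isNonarchimedean q _ _).trans_lt (max_lt ?_ ?_)
    · rw [norm_mul]
      exact mul_lt_one_of_nonneg_of_lt_one_right (norm_embedding_le_one φ x) (norm_nonneg _) (hc φ)
    · rw [norm_mul]
      exact mul_lt_one_of_nonneg_of_lt_one_right hc1 (norm_nonneg _) (hb φ)

end

lemma norm_prod_sub_lt {q : Nat.Primes} {ι : Type*} (s : Finset ι) (a : ι → Cq q) (b : Cq q)
    (ha : ∀ i ∈ s, ‖a i‖ ≤ 1) (hb : ‖b‖ ≤ 1) (h : ∀ i ∈ s, ‖a i - b‖ < 1) :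
    ‖∏ i ∈ s, a i - b ^ s.card‖ < 1 := by
  classical
  induction s using Finset.induction_on with
  | empty => simp
  | insert i s hi ih =>
    rw [Finset.prod_insert hi, Finset.card_insert_of_notMem hi, pow_succ']
    have ih' := ih (fun j hj => ha j (Finset.mem_insert_of_mem hj))
      (fun j hj => h j (Finset.mem_insert_of_mem hj))
    have h1 : a i * ∏ j ∈ s, a j - b * b ^ s.card =
        a i * (∏ j ∈ s, a j - b ^ s.card) + b ^ s.card * (a i - b) := by ring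
    rw [h1]
    refine (PadicAlgCl.isNonarchimedean q _ _).trans_lt (max_lt ?_ ?_)
    · rw [norm_mul]
      exact mul_lt_one_of_nonneg_of_lt_one_right (ha i (Finset.mem_insert_self _ _))
        (norm_nonneg _) ih'
    · rw [norm_mul, norm_pow]
      exact mul_lt_one_of_nonneg_of_lt_one_right (pow_le_one₀ (norm_nonneg _) hb)
        (norm_nonneg _) (h i (Finset.mem_insert_self _ _))

section

variable {q : Nat.Primes} {L : Type*} [Field L] [NumberField L]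

lemma transAt_of_transAt {M : Type*} [Field M] [NumberField M] [Algebra L M]
    (h : TransAt M q) : TransAt L q := by
  have : Algebra.IsAlgebraic L M := inferInstance
  intro ψ ψ'
  obtain ⟨φ, rfl⟩ := exists_ext (L := M) ψ
  obtain ⟨φ', rfl⟩ := exists_ext (L := M) ψ'
  obtain ⟨τ, hτ⟩ := h φ φ'
  exact ⟨τ, by rw [← hτ]; rfl⟩

/-- (L4) local norms at `ℓ`. -/
theorem pow_eq_one_of_normAt_ell {ℓ : ℕ} [hℓ : Fact ℓ.Prime] (M : Type*) [Field M]
    [NumberField M] [IsCyclotomicExtension {ℓ} ℚ M] [Algebra L M] (hq : (q : ℕ) = ℓ) (hℓ2 : ℓ ≠ 2) {k : ℕ}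
    (hpk : finrank ℚ L * k = ℓ - 1) {a n' : ℕ} (hn' : ¬ ℓ ∣ n')
    (h : NormAt L q (((ℓ ^ a * n' : ℕ)) : Cq q)) : (n' : ZMod ℓ) ^ k = 1 := by
  have : NeZero ℓ := ⟨hℓ.out.ne_zero⟩
  have hLpos : finrank ℚ L ≠ 0 := Module.finrank_pos.ne'
  have htM : TransAt M q := transAt_ell hq
  have ht : TransAt L q := transAt_of_transAt (M := M) htM
  have hζ := IsCyclotomicExtension.zeta_spec ℓ ℚ M
  -- the element `π` of norm `ℓ`
  obtain ⟨π, hπ⟩ : ∃ π : L, Algebra.norm ℚ π = (ℓ : ℚ) := by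
    refine ⟨Algebra.norm L (IsCyclotomicExtension.zeta ℓ ℚ M - 1), ?_⟩
    rw [Algebra.norm_norm]
    exact hζ.norm_sub_one_of_prime_ne_two' (Polynomial.cyclotomic.irreducible_rat hℓ.out.pos) hℓ2
  have hπ0 : π ≠ 0 := by
    rintro rfl
    rw [Algebra.norm_zero] at hπ
    exact hℓ.out.ne_zero (by exact_mod_cast hπ.symm)
  have hπprod : ∏ ψ : Emb L q, ψ π = (ℓ : Cq q) := by
    have h1 := Algebra.norm_eq_prod_embeddings ℚ (Cq q) π
    rw [eq_ratCast, hπ] at h1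
    have h2 : ∏ σ : L →ₐ[ℚ] Cq q, σ π = ∏ ψ : Emb L q, ψ π :=
      Fintype.prod_equiv (RingHom.equivRatAlgHom (R := L) (S := Cq q)).symm _ _ (fun σ => rfl)
    rw [← h2, ← h1]
    norm_cast
  have hℓ0 : (ℓ : Cq q) ≠ 0 := by exact_mod_cast hℓ.out.ne_zero
  have hn'1 : ‖(n' : Cq q)‖ = 1 := norm_natCast_eq_one (by rwa [hq])
  obtain ⟨y, hy, hprod⟩ := h
  -- the normalised function
  let w : Emb L q → (Cq q)ˣ := fun ψ => (Units.map (ψ : L →* Cq q) (Units.mk0 π hπ0)) ^ a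
  have hw : w ∈ Jq L q := by
    intro τ φ
    show (((Units.map ((τ • φ : Emb L q) : L →* Cq q) (Units.mk0 π hπ0)) ^ a : (Cq q)ˣ) : Cq q) =
      τ (((Units.map (φ : L →* Cq q) (Units.mk0 π hπ0)) ^ a : (Cq q)ˣ) : Cq q)
    rw [Units.val_pow_eq_pow_val, Units.val_pow_eq_pow_val, map_pow]
    rfl
  have hwprod : ∏ ψ : Emb L q, (w ψ : Cq q) = (ℓ : Cq q) ^ a := by
    rw [← hπprod, ← Finset.prod_pow]
    refine Finset.prod_congr rfl (fun ψ _ => ?_)
    show (((Units.map (ψ : L →* Cq q) (Units.mk0 π hπ0)) ^ a : (Cq q)ˣ) : Cq q) = _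
    rw [Units.val_pow_eq_pow_val]; rfl
  set y' : Emb L q → (Cq q)ˣ := y * w⁻¹ with hy'def
  have hy' : y' ∈ Jq L q := mul_mem hy (inv_mem hw)
  have hy'prod : ∏ ψ : Emb L q, (y' ψ : Cq q) = (n' : Cq q) := by
    have h1 : ∏ ψ : Emb L q, (y' ψ : Cq q) =
        (∏ ψ : Emb L q, (y ψ : Cq q)) * (∏ ψ : Emb L q, (w ψ : Cq q))⁻¹ := by
      rw [← Finset.prod_inv_distrib, ← Finset.prod_mul_distrib]
      refine Finset.prod_congr rfl (fun ψ _ => ?_)
      simp [hy'def]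
    rw [h1, hprod, hwprod]
    push_cast
    field_simp
  have hy'norm : ∀ ψ, ‖(y' ψ : Cq q)‖ = 1 := by
    intro ψ
    have h1 := norm_prod_of_trans ht hy' ψ
    rw [hy'prod, hn'1] at h1
    exact (pow_eq_one_iff_of_nonneg (norm_nonneg _) hLpos).1 h1.symm
  obtain ⟨z, hz⟩ := exists_integral_approx (fun ψ => (y' ψ : Cq q)) (fun τ ψ => hy' τ ψ)
    (fun ψ => (hy'norm ψ).le) one_pos
  obtain ⟨b, hb⟩ := exists_int_close (M := M) hq (algebraMap (𝓞 L) (𝓞 M) z)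
  have hb' : ∀ ψ : Emb L q, ‖ψ (z : L) - (b : Cq q)‖ < 1 := by
    intro ψ
    obtain ⟨φ, rfl⟩ := exists_ext (L := M) ψ
    exact hb φ
  have hbn : ‖(b : Cq q)‖ ≤ 1 := by
    have := IsUltrametricDist.norm_intCast_le_one (R := Cq q) b
    simpa using this
  have h2 : ∀ ψ ∈ (Finset.univ : Finset (Emb L q)), ‖(y' ψ : Cq q) - (b : Cq q)‖ < 1 := by
    intro ψ _
    have h3 : (y' ψ : Cq q) - (b : Cq q) = -(ψ (z : L) - (y' ψ : Cq q)) + (ψ (z : L) - (b : Cq q)) := by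
      ring
    rw [h3]
    refine (PadicAlgCl.isNonarchimedean q _ _).trans_lt (max_lt ?_ (hb' ψ))
    rw [norm_neg]; exact hz ψ
  have h3 := norm_prod_sub_lt Finset.univ (fun ψ => (y' ψ : Cq q)) (b : Cq q)
    (fun ψ _ => (hy'norm ψ).le) hbn h2
  rw [hy'prod, Finset.card_univ, NumberField.Embeddings.card] at h3
  have h4 : ‖(((n' : ℤ) - b ^ finrank ℚ L : ℤ) : Cq q)‖ < 1 := by
    push_cast; exact h3
  have h5 : (ℓ : ℤ) ∣ (n' : ℤ) - b ^ finrank ℚ L := by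
    have := (norm_intCast_lt_one_iff (q := (q : ℕ)) _).1 h4
    rwa [hq] at this
  have h6 : (n' : ZMod ℓ) = (b : ZMod ℓ) ^ finrank ℚ L := by
    have h7 := (ZMod.intCast_zmod_eq_zero_iff_dvd ((n' : ℤ) - b ^ finrank ℚ L) ℓ).2 h5
    push_cast at h7
    exact sub_eq_zero.1 h7
  have h8 : (n' : ZMod ℓ) ≠ 0 := by
    rw [Ne, ZMod.natCast_eq_zero_iff]; exact hn'
  have h9 : (b : ZMod ℓ) ≠ 0 := by
    intro h0
    rw [h0, zero_pow hLpos] at h6
    exact h8 h6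
  rw [h6, ← pow_mul, hpk]
  exact ZMod.pow_card_sub_one_eq_one h9

end

end Fermat.Agent.CFT6
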