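import Mathlib
import Fermat.Agent.FrobDensity.Final
import Fermat.Agent.Frob.QbarInst

/-!
# Auxiliary primes: `ℓ ≡ 1 mod p` such that `v` is not a `p`-th power modulo `ℓ`
-/

set_option autoImplicit false

open Module

namespace Fermat.Agent.CFT6

section residue

variable {Ω : Type*} [Field Ω] (A : ValuationSubring Ω)

lemma mem_of_pow_mem {x : Ω} {n : ℕ} (hn : n ≠ 0) (h : x ^ n ∈ A) : x ∈ A := by
  rw [← A.valuation_le_one_iff] at h ⊢
  rw [map_pow] at h
  by_contra hlt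
  push Not at hlt
  exact absurd h (not_le.2 (one_lt_pow₀ hlt hn))

/-- a nontrivial `p`-th root of unity is nontrivial in the residue field. -/
lemma residue_ne_one {p : ℕ} [hp : Fact p.Prime] {η : A} (hη : η ^ p = 1) (hη1 : η ≠ 1)
    (hpA : (p : IsLocalRing.ResidueField A) ≠ 0) : IsLocalRing.residue A η ≠ 1 := by
  intro h
  obtain ⟨n, hn⟩ : ∃ n, p = n + 1 := Nat.exists_eq_succ_of_ne_zero hp.out.ne_zero
  have hprim : IsPrimitiveRoot η p := by
    have := orderOf_eq_prime hη hη1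
    rw [← this]; exact IsPrimitiveRoot.orderOf η
  have h1 := IsPrimitiveRoot.prod_one_sub_pow_eq_order (hn ▸ hprim)
  have h2 := congrArg (IsLocalRing.residue A) h1
  rw [map_prod] at h2
  simp only [map_sub, map_one, map_pow, h, one_pow, sub_self] at h2
  have hn0 : n ≠ 0 := by
    rintro rfl
    exact hp.out.one_lt.ne' hn
  rw [Finset.prod_const, Finset.card_range, zero_pow hn0] at h2
  apply hpA
  rw [hn]
  simpa using h2.symm

lemma residue_natCast_ne_zero {ℓ n : ℕ} (hℓ : ℓ.Prime) (hn : n.Prime) (hne : ℓ ≠ n)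
    (hA : (ℓ : IsLocalRing.ResidueField A) = 0) : (n : IsLocalRing.ResidueField A) ≠ 0 := by
  intro h
  have hcop : IsCoprime (ℓ : ℤ) (n : ℤ) := by
    rw [Nat.isCoprime_iff_coprime]; exact (Nat.coprime_primes hℓ hn).2 hne
  obtain ⟨a, b, hab⟩ := hcop
  have := congrArg (fun z : ℤ => (z : IsLocalRing.ResidueField A)) hab
  push_cast at this
  rw [hA, h] at this
  simp at this

lemma natCast_eq_zero_of_liesOver {ℓ : ℕ} (hA : A.LiesOverPrime ℓ) :
    (ℓ : IsLocalRing.ResidueField A) = 0 := by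
  have h1 : ((ℓ : A) : Ω) ∈ A.nonunits := by simpa using! hA
  have h2 : (ℓ : A) ∈ IsLocalRing.maximalIdeal A := by
    rwa [ValuationSubring.coe_mem_nonunits_iff] at h1
  have h3 : IsLocalRing.residue A (ℓ : A) = 0 := (IsLocalRing.residue_eq_zero_iff _).2 h2
  simpa using h3

end residue

section frob

variable {Ω : Type*} [Field Ω] [Algebra ℚ Ω] {A : ValuationSubring Ω} {ℓ : ℕ} {τ : Ω ≃ₐ[ℚ] Ω}

lemma frob_mem (h : A.IsFrobeniusAt τ ℓ) (x : A) : τ (x : Ω) ∈ A := by
  have := ((⟨τ, h.mem_decompositionSubgroup⟩ : A.decompositionSubgroup ℚ) • x).2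
  exact this

lemma residue_frob (h : A.IsFrobeniusAt τ ℓ) (x : A) :
    IsLocalRing.residue A ⟨τ (x : Ω), frob_mem h x⟩ = (IsLocalRing.residue A x) ^ ℓ := by
  rw [← h.smul_residue_eq, ← IsLocalRing.ResidueField.residue_smul]
  rfl

end frob

section deg

variable {Ω : Type*} [Field Ω] [CharZero Ω]

lemma notMem_adjoin (p : ℕ) [hp : Fact p.Prime] {v : ℕ} (hv : v.Prime) {ζ α : Ω}
    (hζ : IsPrimitiveRoot ζ p) (hα : α ^ p = (v : Ω)) :
    α ∉ IntermediateField.adjoin ℚ {ζ} := by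
  intro hmem
  have hζint : IsIntegral ℚ ζ := (hζ.isIntegral hp.out.pos).tower_top
  have hfd : FiniteDimensional ℚ (IntermediateField.adjoin ℚ {ζ}) :=
    IntermediateField.adjoin.finiteDimensional hζint
  have h1 : finrank ℚ (IntermediateField.adjoin ℚ {ζ}) = p - 1 := by
    rw [IntermediateField.adjoin.finrank hζint,
      ← Polynomial.cyclotomic_eq_minpoly_rat hζ hp.out.pos, Polynomial.natDegree_cyclotomic,
      Nat.totient_prime hp.out]
  have hirr : Irreducible (Polynomial.X ^ p - Polynomial.C (v : ℚ)) := by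
    refine X_pow_sub_C_irreducible_of_prime hp.out (fun b hb => ?_)
    have : Fact v.Prime := ⟨hv⟩
    have hb0 : b ≠ 0 := by
      rintro rfl
      rw [zero_pow hp.out.ne_zero] at hb
      exact hv.ne_zero (by exact_mod_cast hb.symm)
    have h2 := congrArg (padicValRat v) hb
    rw [padicValRat.pow, padicValRat.self hv.one_lt] at h2
    have h3 : (p : ℤ) ∣ 1 := ⟨_, h2.symm⟩
    have h4 := Int.eq_one_of_dvd_one (by positivity) h3
    exact hp.out.one_lt.ne' (by exact_mod_cast h4)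
  have hmin : minpoly ℚ α = Polynomial.X ^ p - Polynomial.C (v : ℚ) := by
    symm
    apply minpoly.eq_of_irreducible_of_monic hirr
    · simp [hα]
    · exact Polynomial.monic_X_pow_sub_C _ hp.out.ne_zero
  have h2 : (minpoly ℚ α).natDegree = p := by
    rw [hmin, Polynomial.natDegree_X_pow_sub_C]
  have h3 : minpoly ℚ (⟨α, hmem⟩ : IntermediateField.adjoin ℚ {ζ}) = minpoly ℚ α :=
    (minpoly.algebraMap_eq (algebraMap (IntermediateField.adjoin ℚ {ζ}) Ω).injective
      (⟨α, hmem⟩ : IntermediateField.adjoin ℚ {ζ})).symm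
  have h4 := minpoly.natDegree_le (A := ℚ) (⟨α, hmem⟩ : IntermediateField.adjoin ℚ {ζ})
  rw [h3, h2, h1] at h4
  have := hp.out.pos
  omega

end deg

theorem exists_aux_prime_aux {Ω : Type*} [Field Ω] [CharZero Ω] [IsGalois ℚ Ω] [IsAlgClosed Ω]
    (p : ℕ) [hp : Fact p.Prime] {v : ℕ} (hv : v.Prime) :
    ∃ ℓ : ℕ, ℓ.Prime ∧ ℓ ≠ v ∧ ℓ ≠ 2 ∧ ∃ k, p * k = ℓ - 1 ∧ (v : ZMod ℓ) ^ k ≠ 1 := by
  have : NeZero (p : Ω) := ⟨by exact_mod_cast hp.out.ne_zero⟩
  obtain ⟨ζ, hζ⟩ := HasEnoughRootsOfUnity.exists_primitiveRoot Ω p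
  obtain ⟨α, hα⟩ := IsAlgClosed.exists_pow_nat_eq (v : Ω) hp.out.pos
  have hα0 : α ≠ 0 := by
    rintro rfl
    rw [zero_pow hp.out.ne_zero] at hα
    exact hv.ne_zero (by exact_mod_cast hα.symm)
  have hnot := notMem_adjoin p hv hζ hα
  obtain ⟨σ, hσζ, hσα⟩ : ∃ σ : Ω ≃ₐ[ℚ] Ω, σ ζ = ζ ∧ σ α ≠ α := by
    rw [← InfiniteGalois.fixedField_fixingSubgroup (IntermediateField.adjoin ℚ {ζ}),
      IntermediateField.mem_fixedField_iff] at hnot
    push Not at hnot
    obtain ⟨σ, hσ, hσα⟩ := hnot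
    refine ⟨σ, ?_, hσα⟩
    rw [IntermediateField.mem_fixingSubgroup_iff] at hσ
    exact hσ _ (IntermediateField.mem_adjoin_simple_self _ _)
  have hfd : FiniteDimensional ℚ (IntermediateField.adjoin ℚ {ζ, α}) := by
    have : Finite ({ζ, α} : Set Ω) := Set.toFinite _
    exact IntermediateField.finiteDimensional_adjoin (fun x _ => Algebra.IsIntegral.isIntegral x)
  obtain ⟨ℓ, hℓ, hℓS, A, hA, -, τ, hτ, ⟨j, hj⟩, ⟨k', hk'⟩⟩ :=
    FrobDensity.exists_frobenius_pow_eq_aux (IntermediateField.adjoin ℚ {ζ, α}) hfd σ {p, v, 2}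
  simp only [Finset.mem_insert, Finset.mem_singleton, not_or] at hℓS
  obtain ⟨hℓp, hℓv, hℓ2⟩ := hℓS
  have hζL : ζ ∈ IntermediateField.adjoin ℚ {ζ, α} :=
    IntermediateField.subset_adjoin _ _ (by simp)
  have hαL : α ∈ IntermediateField.adjoin ℚ {ζ, α} :=
    IntermediateField.subset_adjoin _ _ (by simp)
  have hτζ : τ ζ = ζ := by
    rw [← hk' ζ hζL]
    have : ∀ m : ℕ, (σ ^ m) ζ = ζ := by
      intro m
      induction m with
      | zero => rfl
      | succ m ih => rw [pow_succ', AlgEquiv.mul_apply, ih, hσζ]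
    exact this k'
  have hτα : τ α ≠ α := by
    intro h
    apply hσα
    rw [← hj α hαL]
    have : ∀ m : ℕ, (τ ^ m) α = α := by
      intro m
      induction m with
      | zero => rfl
      | succ m ih => rw [pow_succ', AlgEquiv.mul_apply, ih, h]
    exact this j
  have hℓk := natCast_eq_zero_of_liesOver A hA
  have hpk := residue_natCast_ne_zero A hℓ hp.out hℓp hℓk
  have hvk := residue_natCast_ne_zero A hℓ hv hℓv hℓk
  -- elements of `A`
  have hζA : ζ ∈ A := mem_of_pow_mem A hp.out.ne_zero (by rw [hζ.pow_eq_one]; exact A.one_mem)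
  have hαA : α ∈ A := mem_of_pow_mem A hp.out.ne_zero (by rw [hα]; exact natCast_mem A v)
  set zA : A := ⟨ζ, hζA⟩ with hzA
  set aA : A := ⟨α, hαA⟩ with haA
  have hzp : zA ^ p = 1 := Subtype.ext hζ.pow_eq_one
  have hz1 : zA ≠ 1 := by
    intro h
    have : ζ = 1 := congrArg Subtype.val h
    exact hζ.ne_one hp.out.one_lt this
  have hres1 := residue_ne_one A hzp hz1 hpk
  have hresp : (IsLocalRing.residue A zA) ^ p = 1 := by rw [← map_pow, hzp, map_one]
  have hord : orderOf (IsLocalRing.residue A zA) = p := orderOf_eq_prime hresp hres1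
  have hz0 : IsLocalRing.residue A zA ≠ 0 := by
    intro h0
    rw [h0, zero_pow hp.out.ne_zero] at hresp
    exact zero_ne_one hresp
  have hfz := residue_frob hτ zA
  have hfz' : (⟨τ (zA : Ω), frob_mem hτ zA⟩ : A) = zA := Subtype.ext hτζ
  rw [hfz'] at hfz
  have hdiv : p ∣ ℓ - 1 := by
    rw [← hord]
    apply orderOf_dvd_of_pow_eq_one
    have h1 : (IsLocalRing.residue A zA) ^ (ℓ - 1) * IsLocalRing.residue A zA =
        1 * IsLocalRing.residue A zA := by
      rw [← pow_succ, Nat.sub_add_cancel hℓ.one_lt.le, one_mul]; exact hfz.symm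
    exact mul_right_cancel₀ hz0 h1
  obtain ⟨k, hk⟩ := hdiv
  refine ⟨ℓ, hℓ, hℓv, hℓ2, k, hk.symm, fun hpow => ?_⟩
  -- derive a contradiction
  have hap : aA ^ p = (v : A) := Subtype.ext (by simpa using! hα)
  have ha0 : IsLocalRing.residue A aA ≠ 0 := by
    intro h0
    have := congrArg (IsLocalRing.residue A) hap
    rw [map_pow, h0, zero_pow hp.out.ne_zero, map_natCast] at this
    exact hvk this.symm
  have hvk1 : (v : IsLocalRing.ResidueField A) ^ k = 1 := by
    have h1 : (((v : ℤ) ^ k - 1 : ℤ) : ZMod ℓ) = 0 := by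
      push_cast; rw [hpow, sub_self]
    rw [ZMod.intCast_zmod_eq_zero_iff_dvd] at h1
    obtain ⟨m, hm⟩ := h1
    have h2 := congrArg (fun z : ℤ => (z : IsLocalRing.ResidueField A)) hm
    push_cast at h2
    rw [hℓk, zero_mul] at h2
    exact sub_eq_zero.1 h2
  have hfa := residue_frob hτ aA
  have h3 : (IsLocalRing.residue A aA) ^ ℓ = IsLocalRing.residue A aA := by
    have h4 : (IsLocalRing.residue A aA) ^ (ℓ - 1) = 1 := by
      rw [hk, pow_mul, ← map_pow, hap, map_natCast, hvk1]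
    calc (IsLocalRing.residue A aA) ^ ℓ = (IsLocalRing.residue A aA) ^ (ℓ - 1 + 1) := by
          rw [Nat.sub_add_cancel hℓ.one_lt.le]
      _ = _ := by rw [pow_succ, h4, one_mul]
  rw [h3] at hfa
  -- `τ α = η α`
  have hη : (τ α / α) ^ p = 1 := by
    rw [div_pow, ← map_pow, hα, map_natCast, div_self]
    exact_mod_cast hv.ne_zero
  have hηA : τ α / α ∈ A := mem_of_pow_mem A hp.out.ne_zero (by rw [hη]; exact A.one_mem)
  have hη1 : (⟨τ α / α, hηA⟩ : A) ≠ 1 := by
    intro h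
    have h5 : τ α / α = 1 := congrArg Subtype.val h
    exact hτα ((div_eq_one_iff_eq hα0).1 h5)
  have h6 := residue_ne_one A (p := p) (η := ⟨τ α / α, hηA⟩) (Subtype.ext hη) hη1 hpk
  apply h6
  have h7 : (⟨τ (aA : Ω), frob_mem hτ aA⟩ : A) = ⟨τ α / α, hηA⟩ * aA := by
    apply Subtype.ext
    show τ α = τ α / α * α
    field_simp
  rw [h7, map_mul] at hfa
  exact mul_right_cancel₀ ha0 (by rw [one_mul]; exact hfa)

/-- For every prime `v` there is a prime `ℓ ≡ 1 mod p` such that `v` is not a `p`-th power mod `ℓ`. -/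
theorem exists_aux_prime (p : ℕ) [hp : Fact p.Prime] {v : ℕ} (hv : v.Prime) :
    ∃ ℓ : ℕ, ℓ.Prime ∧ ℓ ≠ v ∧ ℓ ≠ 2 ∧ ∃ k, p * k = ℓ - 1 ∧ (v : ZMod ℓ) ^ k ≠ 1 := by
  exact exists_aux_prime_aux (Ω := AlgebraicClosure ℚ) p hv

end Fermat.Agent.CFT6
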