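import Mathlib
import Fermat.Agent.CFT6.RecLocal

/-!
# Local norms at unramified nonsplit primes
-/

set_option autoImplicit false

open NumberField IsDedekindDomain Module Fermat.Agent.CFT
open scoped Pointwise

namespace Fermat.Agent.CFT6

variable {L : Type*} [Field L] [NumberField L] {q : Nat.Primes}

section field

variable (ψ : Emb L q)

/-- the local field generated by an embedding -/
noncomputable def locField : IntermediateField ℚ_[(q : ℕ)] (Cq q) :=
  IntermediateField.adjoin ℚ_[(q : ℕ)] {ψ (Field.powerBasisOfFiniteOfSeparable ℚ L).gen}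

lemma gen_mem_locField : ψ (Field.powerBasisOfFiniteOfSeparable ℚ L).gen ∈ locField ψ :=
  IntermediateField.mem_adjoin_simple_self _ _

lemma range_mem_locField (x : L) : ψ x ∈ locField ψ := by
  obtain ⟨g, hg⟩ := (Field.powerBasisOfFiniteOfSeparable ℚ L).exists_eq_aeval' x
  rw [hg, ← aeval_comp_embedding]
  have h1 : Polynomial.aeval (ψ (Field.powerBasisOfFiniteOfSeparable ℚ L).gen) g =
      Polynomial.aeval (ψ (Field.powerBasisOfFiniteOfSeparable ℚ L).gen)
        (g.map (algebraMap ℚ ℚ_[(q : ℕ)])) := by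
    rw [Polynomial.aeval_map_algebraMap]
  rw [h1]
  exact IntermediateField.algebra_adjoin_le_adjoin _ _ (Polynomial.aeval_mem_adjoin_singleton _ _)

instance : FiniteDimensional ℚ_[(q : ℕ)] (locField ψ) :=
  IntermediateField.adjoin.finiteDimensional (Algebra.IsIntegral.isIntegral _)

lemma algHom_ext_locField {s s' : locField ψ →ₐ[ℚ_[(q : ℕ)]] Cq q}
    (h : ∀ x : L, s ⟨ψ x, range_mem_locField ψ x⟩ = s' ⟨ψ x, range_mem_locField ψ x⟩) : s = s' := by
  refine IntermediateField.algHom_ext_of_eq_adjoin ℚ_[(q : ℕ)] (S := locField ψ)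
    (s := {ψ (Field.powerBasisOfFiniteOfSeparable ℚ L).gen}) rfl ?_
  rintro x hx
  simp only [Set.mem_singleton_iff] at hx
  subst hx
  exact h _

/-- restriction of an embedding of the local field -/
noncomputable def resEmb (s : locField ψ →ₐ[ℚ_[(q : ℕ)]] Cq q) : Emb L q :=
  (s : locField ψ →+* Cq q).comp
    (ψ.codRestrict (locField ψ).toSubring (range_mem_locField ψ))

lemma resEmb_apply (s : locField ψ →ₐ[ℚ_[(q : ℕ)]] Cq q) (x : L) :
    resEmb ψ s x = s ⟨ψ x, range_mem_locField ψ x⟩ := rfl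

lemma resEmb_bijective (ht : TransAt L q) : Function.Bijective (resEmb ψ) := by
  constructor
  · intro s s' h
    apply algHom_ext_locField ψ
    intro x
    exact congrArg (fun g : Emb L q => g x) h
  · intro ψ'
    obtain ⟨τ, hτ⟩ := ht ψ ψ'
    refine ⟨(τ : Cq q →ₐ[ℚ_[(q : ℕ)]] Cq q).comp (locField ψ).val, ?_⟩
    ext x
    rw [resEmb_apply, ← hτ]
    rfl

lemma finrank_locField (ht : TransAt L q) :
    finrank ℚ_[(q : ℕ)] (locField ψ) = finrank ℚ L := by
  rw [← AlgHom.card ℚ_[(q : ℕ)] (locField ψ) (Cq q),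
    ← NumberField.Embeddings.card L (Cq q)]
  exact Fintype.card_congr (Equiv.ofBijective _ (resEmb_bijective ψ ht))

lemma isGalois_locField [IsGalois ℚ L] : IsGalois ℚ_[(q : ℕ)] (locField ψ) := by
  have hn : Normal ℚ_[(q : ℕ)] (locField ψ) := by
    rw [IntermediateField.normal_iff_forall_map_le]
    intro τ
    rw [locField, IntermediateField.adjoin_map, IntermediateField.adjoin_le_iff]
    rintro _ ⟨x, hx, rfl⟩
    rw [Set.mem_singleton_iff] at hx
    subst hx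
    obtain ⟨σ, hσ⟩ := exists_comp_eq (K := ℚ) (ψ := ψ) (ψ' := (τ : Cq q →+* Cq q).comp ψ)
      (Subsingleton.elim _ _)
    have h1 : τ (ψ (Field.powerBasisOfFiniteOfSeparable ℚ L).gen) =
        ψ (σ (Field.powerBasisOfFiniteOfSeparable ℚ L).gen) :=
      congrArg (fun g : Emb L q => g (Field.powerBasisOfFiniteOfSeparable ℚ L).gen) hσ
    show τ (ψ (Field.powerBasisOfFiniteOfSeparable ℚ L).gen) ∈ _
    rw [h1]
    exact range_mem_locField ψ _
  exact ⟨⟩

lemma eq_on_locField {τ τ' : Gq q} (h : τ • ψ = τ' • ψ) {w : Cq q} (hw : w ∈ locField ψ) :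
    τ w = τ' w := by
  have h1 : (τ : Cq q →ₐ[ℚ_[(q : ℕ)]] Cq q).comp (locField ψ).val =
      (τ' : Cq q →ₐ[ℚ_[(q : ℕ)]] Cq q).comp (locField ψ).val := by
    apply algHom_ext_locField ψ
    intro x
    exact congrArg (fun g : Emb L q => g x) h
  exact congrArg (fun g : locField ψ →ₐ[ℚ_[(q : ℕ)]] Cq q => g ⟨w, hw⟩) h1

/-- a norm from the local field is a local norm in the embedding sense. -/
lemma normAt_of_norm (ht : TransAt L q) (w : locField ψ) (hw : w ≠ 0) :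
    NormAt L q (algebraMap ℚ_[(q : ℕ)] (Cq q) (Algebra.norm ℚ_[(q : ℕ)] w)) := by
  choose ρ hρ using fun ψ' => ht ψ ψ'
  have hw' : (w : Cq q) ≠ 0 := by simpa using hw
  refine ⟨fun ψ' => Units.mk0 (ρ ψ' (w : Cq q)) ((map_ne_zero _).2 hw'), ?_, ?_⟩
  · intro τ ψ'
    show ρ (τ • ψ') (w : Cq q) = τ (ρ ψ' (w : Cq q))
    have h1 : (ρ (τ • ψ')) • ψ = (τ * ρ ψ') • ψ := by rw [hρ, mul_smul, hρ]
    exact eq_on_locField ψ h1 w.2
  · rw [Algebra.norm_eq_prod_embeddings ℚ_[(q : ℕ)] (Cq q) w]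
    symm
    refine Fintype.prod_bijective (resEmb ψ) (resEmb_bijective ψ ht) _ _ (fun s => ?_)
    show s w = ρ (resEmb ψ s) (w : Cq q)
    have h1 : s = ((ρ (resEmb ψ s)) : Cq q →ₐ[ℚ_[(q : ℕ)]] Cq q).comp (locField ψ).val := by
      apply algHom_ext_locField ψ
      intro x
      have h2 := congrArg (fun g : Emb L q => g x) (hρ (resEmb ψ s))
      exact h2.symm
    conv_lhs => rw [h1]
    rfl

end field

/-- (L3) at an unramified nonsplit prime, elements of valuation divisible by the degree are norms. -/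
theorem normAt_of_valuation {p : ℕ} [hp : Fact p.Prime] [IsGalois ℚ L] (hL : finrank ℚ L = p)
    (ht : TransAt L q)
    (hunr : ∀ (ψ : Emb L q) (z : L), z ≠ 0 → ∃ n : ℤ, ‖ψ z‖ = ((q : ℕ) : ℝ) ^ n)
    {x : ℚ_[(q : ℕ)]} (hx0 : x ≠ 0) {m : ℤ} (hx : ‖x‖ = ((q : ℕ) : ℝ) ^ (m * p)) :
    NormAt L q (algebraMap ℚ_[(q : ℕ)] (Cq q) x) := by
  obtain ⟨ψ⟩ : Nonempty (Emb L q) := inferInstance
  have hgal := isGalois_locField ψ
  have hfin := finrank_locField ψ ht
  rw [hL] at hfin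
  have hval : ∀ n : ℤ, ‖((q : ℕ) : ℚ_[(q : ℕ)]) ^ (-n)‖ = ((q : ℕ) : ℝ) ^ n := by
    intro n
    rw [norm_zpow, Padic.norm_p, inv_zpow, zpow_neg, inv_inv]
  have hunr' : ∀ y : locField ψ, y ≠ 0 → ∃ z : ℚ_[(q : ℕ)], ‖z‖ = ‖y‖ := by
    intro y hy
    have hy' : (y : Cq q) ≠ 0 := by simpa using hy
    obtain ⟨z, hz0, hz⟩ := exists_norm_eq ψ (y := (y : Cq q)) (fun τ hτ => by
      have h1 : τ • ψ = (1 : Gq q) • ψ := by rw [one_smul]; exact RingHom.ext hτ
      exact eq_on_locField ψ h1 y.2) hy'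
    obtain ⟨n, hn⟩ := hunr ψ z hz0
    refine ⟨((q : ℕ) : ℚ_[(q : ℕ)]) ^ (-n), ?_⟩
    rw [hval, ← hn, hz]
    rfl
  obtain ⟨w, hw⟩ := PTLocal.unit_norm_of_unramified (q : ℕ) ℚ_[(q : ℕ)] (locField ψ) hfin hunr' x
    (((q : ℕ) : ℚ_[(q : ℕ)]) ^ (-m)) hx0 (by rw [hx, hval, zpow_mul, zpow_natCast])
  rw [← hw]
  apply normAt_of_norm ψ ht
  rintro rfl
  rw [Algebra.norm_zero] at hw
  exact hx0 hw.symm

end Fermat.Agent.CFT6
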