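import Mathlib
import Fermat.Agent.CFT6.RecEll
import Fermat.Agent.CFT6.RecUnram
import Fermat.Agent.CFT6.RecPrime

/-!
# Reciprocity over `ℚ` for a degree `p` subfield of a cyclotomic field
-/

set_option autoImplicit false

open NumberField IsDedekindDomain Module Fermat.Agent.CFT
open scoped Pointwise

namespace Fermat.Agent.CFT6

section transport

variable {L L' : Type*} [Field L] [Field L'] {q : Nat.Primes}

lemma TransAt.congr (e : L ≃+* L') (h : TransAt L q) : TransAt L' q := by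
  intro ψ ψ'
  obtain ⟨τ, hτ⟩ := h (ψ.comp (e : L →+* L')) (ψ'.comp (e : L →+* L'))
  refine ⟨τ, ?_⟩
  ext x
  have := congrArg (fun g : Emb L q => g (e.symm x)) hτ
  simpa using this

variable [NumberField L] [NumberField L']

lemma NormAt.congr (e : L ≃+* L') {x : Cq q} (h : NormAt L q x) : NormAt L' q x := by
  obtain ⟨y, hy, hx⟩ := h
  refine ⟨fun ψ => y (ψ.comp (e : L →+* L')), fun τ ψ => hy τ (ψ.comp (e : L →+* L')), ?_⟩
  rw [← hx]
  refine Fintype.prod_bijective (fun ψ : Emb L' q => ψ.comp (e : L →+* L')) ?_ _ _ (fun ψ => rfl)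
  constructor
  · intro ψ ψ' h
    ext x
    have := congrArg (fun g : Emb L q => g (e.symm x)) h
    simpa using this
  · intro φ
    refine ⟨φ.comp (e.symm : L' →+* L), ?_⟩
    ext x
    simp

end transport

section G

variable {L : Type*} [Field L] [NumberField L]

lemma norm_natCast_eq_zpow (q : Nat.Primes) {n : ℕ} (hn : n ≠ 0) :
    ‖(n : Cq q)‖ = ((q : ℕ) : ℝ) ^ (-(n.factorization q : ℤ)) := by
  have h1 : ‖(n : Cq q)‖ = ‖((n : ℕ) : ℚ_[(q : ℕ)])‖ := by
    have := norm_intCast (q := (q : ℕ)) (n : ℤ)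
    simpa using this
  rw [h1, Padic.norm_eq_zpow_neg_valuation (by exact_mod_cast hn), Padic.valuation_natCast,
    Nat.factorization_def n q.2]

/-- unramified at `q ≠ ℓ`, from the cyclotomic field -/
lemma unr_of_cyclo {ℓ : ℕ} [hℓ : Fact ℓ.Prime] (M : Type*) [Field M]
    [NumberField M] [IsCyclotomicExtension {ℓ} ℚ M] [Algebra L M] {q : Nat.Primes}
    (hq : (q : ℕ) ≠ ℓ) (ψ : Emb L q) (z : L) (hz : z ≠ 0) :
    ∃ n : ℤ, ‖ψ z‖ = ((q : ℕ) : ℝ) ^ n := by
  obtain ⟨φ, rfl⟩ := exists_ext (L := M) ψ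
  exact norm_mem_zpow (ℓ := ℓ) hq φ (x := algebraMap L M z) (by simpa using hz)

/-- (G) the product formula argument -/
theorem dvd_factorization_of_normAt {ℓ : ℕ} [hℓ : Fact ℓ.Prime] (M : Type*) [Field M]
    [NumberField M] [IsCyclotomicExtension {ℓ} ℚ M] [Algebra L M] {p : ℕ} [hp : Fact p.Prime]
    (hL : finrank ℚ L = p) {k : ℕ} (hpk : p * k = ℓ - 1) (hℓ2 : ℓ ≠ 2)
    (htrans : ∀ q : Nat.Primes, (q : ℕ) ≠ ℓ → ((q : ℕ) : ZMod ℓ) ^ k ≠ 1 → TransAt L q)
    (v₀ : Nat.Primes) (hv : (v₀ : ℕ) ≠ ℓ) (hv' : ((v₀ : ℕ) : ZMod ℓ) ^ k ≠ 1) {n : ℕ} (hn : n ≠ 0)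
    (h : ∀ q : Nat.Primes, q ≠ v₀ → NormAt L q (n : Cq q)) : p ∣ n.factorization v₀ := by
  -- at `ℓ`
  let qℓ : Nat.Primes := ⟨ℓ, hℓ.out⟩
  have hqv : qℓ ≠ v₀ := fun h => hv (congrArg Subtype.val h).symm
  have h1 : ((n / ℓ ^ n.factorization ℓ : ℕ) : ZMod ℓ) ^ k = 1 := by
    apply pow_eq_one_of_normAt_ell (q := qℓ) (L := L) M rfl hℓ2 (by rw [hL]; exact hpk)
      (a := n.factorization ℓ) (Nat.not_dvd_ordCompl hℓ.out hn)
    rw [Nat.ordProj_mul_ordCompl_eq_self]
    exact h qℓ hqv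
  have hq0 : ∀ q : ℕ, q.Prime → q ≠ ℓ → (q : ZMod ℓ) ≠ 0 := by
    intro q hq hne h0
    rw [ZMod.natCast_eq_zero_iff] at h0
    exact hne ((Nat.prime_dvd_prime_iff_eq hℓ.out hq).1 h0).symm
  have hflt : ∀ q : ℕ, q.Prime → q ≠ ℓ → ((q : ZMod ℓ) ^ k) ^ p = 1 := by
    intro q hq hne
    rw [← pow_mul, mul_comm, hpk]
    exact ZMod.pow_card_sub_one_eq_one (hq0 q hq hne)
  -- away from `ℓ` and `v₀`
  have h2 : ∀ q : ℕ, q.Prime → q ≠ ℓ → q ≠ v₀ → ((q : ZMod ℓ) ^ k) ^ n.factorization q = 1 := by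
    intro q hq hne hne'
    by_cases hk : (q : ZMod ℓ) ^ k = 1
    · rw [hk, one_pow]
    · have ht := htrans ⟨q, hq⟩ hne hk
      obtain ⟨m, hm⟩ := exists_zpow_of_normAt ht (fun ψ z hz => unr_of_cyclo (ℓ := ℓ) M hne ψ z hz)
        (h ⟨q, hq⟩ (fun h => hne' (congrArg Subtype.val h)))
      rw [norm_natCast_eq_zpow ⟨q, hq⟩ hn, hL] at hm
      have hq1 : (1 : ℝ) < ((q : ℕ) : ℝ) := by exact_mod_cast hq.one_lt
      have h3 : (-(n.factorization q : ℤ)) = m * p :=
        zpow_right_injective₀ (by linarith) hq1.ne' hm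
      have h4 : (p : ℤ) ∣ (n.factorization q : ℤ) := ⟨-m, by linarith⟩
      have h5 : p ∣ n.factorization q := by exact_mod_cast h4
      obtain ⟨c, hc⟩ := h5
      rw [hc, pow_mul, hflt q hq hne, one_pow]
  -- product formula
  have h3 : ((n / ℓ ^ n.factorization ℓ : ℕ) : ZMod ℓ) ^ k =
      ((v₀ : ℕ) : ZMod ℓ) ^ k ^ 1 * 0 + (((v₀ : ℕ) : ZMod ℓ) ^ k) ^ n.factorization v₀ := by
    have hne : n / ℓ ^ n.factorization ℓ ≠ 0 := (Nat.ordCompl_pos ℓ hn).ne'
    conv_lhs => rw [← Nat.prod_factorization_pow_eq_self hne, Nat.factorization_ordCompl]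
    rw [mul_zero, zero_add, Finsupp.prod, Nat.cast_prod, ← Finset.prod_pow]
    by_cases hmem : (v₀ : ℕ) ∈ (n.factorization.erase ℓ).support
    · rw [Finset.prod_eq_single_of_mem _ hmem]
      · rw [Finsupp.erase_ne hv]
        push_cast
        ring
      · intro q hq hne'
        have hqp : q.Prime := by
          rw [Finsupp.support_erase] at hq
          exact Nat.prime_of_mem_primeFactors (Finset.mem_of_mem_erase hq)
        have hqℓ : q ≠ ℓ := by
          rw [Finsupp.support_erase] at hq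
          exact Finset.ne_of_mem_erase hq
        rw [Finsupp.erase_ne hqℓ]
        push_cast
        rw [← pow_mul, mul_comm, pow_mul]
        exact h2 q hqp hqℓ hne'
    · have h4 : n.factorization v₀ = 0 := by
        rw [Finsupp.mem_support_iff, not_not, Finsupp.erase_ne hv] at hmem
        exact hmem
      rw [h4, pow_zero]
      apply Finset.prod_eq_one
      intro q hq
      have hqp : q.Prime := by
        rw [Finsupp.support_erase] at hq
        exact Nat.prime_of_mem_primeFactors (Finset.mem_of_mem_erase hq)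
      have hqℓ : q ≠ ℓ := by
        rw [Finsupp.support_erase] at hq
        exact Finset.ne_of_mem_erase hq
      have hne' : q ≠ v₀ := by
        rintro rfl
        exact hmem hq
      rw [Finsupp.erase_ne hqℓ]
      push_cast
      rw [← pow_mul, mul_comm, pow_mul]
      exact h2 q hqp hqℓ hne'
  rw [h1, mul_zero, zero_add] at h3
  have hord : orderOf (((v₀ : ℕ) : ZMod ℓ) ^ k) = p :=
    orderOf_eq_prime (hflt v₀ v₀.2 hv) hv'
  rw [← hord]
  exact orderOf_dvd_of_pow_eq_one h3.symm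

end G

end Fermat.Agent.CFT6
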