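import Mathlib
import Fermat.Agent.CFT6.RecQ
import Fermat.Agent.Frob.QbarInst
import Fermat.Agent.CFT.Glue

/-!
# Reciprocity over `ℚ`: existence of the auxiliary field
-/

set_option autoImplicit false

open NumberField IsDedekindDomain Module Fermat.Agent.CFT
open scoped Pointwise

namespace Fermat.Agent.CFT6

lemma eq_natCast_of_pow_eq {ℓ : ℕ} [hℓ : Fact ℓ.Prime] {M : Type*} [Field M] {ζ : M}
    (hζ : IsPrimitiveRoot ζ ℓ) {u : (ZMod ℓ)} {q : ℕ} (h4 : ζ ^ (u.val) = ζ ^ q) :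
    u = (q : ZMod ℓ) := by
  have hu : IsUnit ζ := hζ.isUnit hℓ.out.ne_zero
  lift ζ to Mˣ using hu
  have h5 : ζ ^ u.val = ζ ^ q := Units.ext (by simpa using h4)
  rw [pow_eq_pow_iff_modEq, ← (IsPrimitiveRoot.coe_units_iff.1 hζ).eq_orderOf] at h5
  have := (ZMod.natCast_eq_natCast_iff _ _ _).2 h5
  rwa [ZMod.natCast_zmod_val] at this

/-- the subfield of degree `p` of the `ℓ`-th cyclotomic field -/
theorem exists_subfield {ℓ : ℕ} [hℓ : Fact ℓ.Prime] (M : Type*) [Field M]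
    [NumberField M] [IsCyclotomicExtension {ℓ} ℚ M] {p : ℕ} [hp : Fact p.Prime] {k : ℕ}
    (hpk : p * k = ℓ - 1) :
    ∃ L : IntermediateField ℚ M, IsGalois ℚ L ∧ finrank ℚ L = p ∧
      ∀ q : Nat.Primes, (q : ℕ) ≠ ℓ → ((q : ℕ) : ZMod ℓ) ^ k ≠ 1 → TransAt L q := by
  have : NeZero ℓ := ⟨hℓ.out.ne_zero⟩
  have hgal : IsGalois ℚ M := IsCyclotomicExtension.isGalois {ℓ} ℚ M
  let e := IsCyclotomicExtension.Rat.galEquivZMod ℓ M
  let H : Subgroup Gal(M/ℚ) := ((powMonoidHom k : (ZMod ℓ)ˣ →* (ZMod ℓ)ˣ).ker).comap (e : Gal(M/ℚ) →* (ZMod ℓ)ˣ)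
  have hcomm : ∀ a b : Gal(M/ℚ), a * b = b * a := by
    intro a b
    apply e.injective
    rw [map_mul, map_mul, mul_comm]
  have hH : H.Normal := by
    infer_instance
  have hk0 : k ≠ 0 := by
    rintro rfl
    have := hℓ.out.two_le
    omega
  have hcardH : Nat.card H = k := by
    have h1 : Nat.card H = Nat.card ((powMonoidHom k : (ZMod ℓ)ˣ →* (ZMod ℓ)ˣ).ker) :=
      Nat.card_congr (e.toEquiv.subtypeEquiv (fun a => Iff.rfl))
    rw [h1, IsCyclic.card_powMonoidHom_ker, Nat.card_eq_fintype_card, ZMod.card_units, ← hpk]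
    exact Nat.gcd_mul_left_left _ _
  have hfM : finrank ℚ M = p * k := by
    rw [IsCyclotomicExtension.finrank M (Polynomial.cyclotomic.irreducible_rat hℓ.out.pos),
      Nat.totient_prime hℓ.out, hpk]
  let L := IntermediateField.fixedField H
  have hLM : finrank L M = k := by
    rw [IntermediateField.finrank_fixedField_eq_card, hcardH]
  refine ⟨L, ?_, ?_, ?_⟩
  · exact IsGalois.of_fixedField_normal_subgroup H
  · have h1 := Module.finrank_mul_finrank ℚ L M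
    rw [hLM, hfM] at h1
    exact Nat.eq_of_mul_eq_mul_right (Nat.pos_of_ne_zero hk0) h1
  · intro q hq hqk
    obtain ⟨φ⟩ : Nonempty (Emb M q) := inferInstance
    obtain ⟨τ, hτ⟩ := exists_frob hq φ
    obtain ⟨σ, hσ⟩ := exists_comp_eq (K := ℚ) (ψ := φ) (ψ' := τ • φ) (Subsingleton.elim _ _)
    have hLgal : IsGalois ℚ L := IsGalois.of_fixedField_normal_subgroup H
    have hLp : finrank ℚ L = p := by
      have h1 := Module.finrank_mul_finrank ℚ L M
      rw [hLM, hfM] at h1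
      exact Nat.eq_of_mul_eq_mul_right (Nat.pos_of_ne_zero hk0) h1
    have hσH : σ ∉ H := by
      intro hmem
      have h2 : (e σ) ^ k = 1 := hmem
      apply hqk
      obtain ⟨ζ, hζ⟩ : ∃ ζ : M, IsPrimitiveRoot ζ ℓ :=
        IsCyclotomicExtension.exists_isPrimitiveRoot ℚ M (S := {ℓ}) rfl hℓ.out.ne_zero
      have h3 : φ (σ ζ) = φ (ζ ^ (q : ℕ)) := by
        rw [← hτ ζ hζ.pow_eq_one]
        exact (congrArg (fun g : Emb M q => g ζ) hσ).symm
      have h4 : σ ζ = ζ ^ (q : ℕ) := φ.injective h3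
      rw [IsCyclotomicExtension.Rat.galEquivZMod_apply_of_pow_eq ℓ M σ hζ.pow_eq_one] at h4
      have h5 := eq_natCast_of_pow_eq hζ h4
      rw [← h5, ← Units.val_pow_eq_pow_val]
      exact congrArg (Units.val) h2
    have h5 : ∃ x : L, σ x ≠ x := by
      by_contra hcon
      push Not at hcon
      apply hσH
      rw [← IntermediateField.fixingSubgroup_fixedField H, IntermediateField.mem_fixingSubgroup_iff]
      exact fun x hx => hcon ⟨x, hx⟩
    obtain ⟨x, hx⟩ := h5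
    refine transAt_of_move (τ := τ) (ψ := φ.comp (algebraMap L M)) hLp ?_
    intro hcon
    apply hx
    apply φ.injective
    have h6 := congrArg (fun g : Emb L q => g x) hcon
    have h7 := congrArg (fun g : Emb M q => g (x : M)) hσ
    exact h7.symm.trans h6

/-- reduction of a rational number to a natural number modulo `p`-th powers -/
lemma normAt_iff_natAbs {L : Type*} [Field L] [NumberField L] {p : ℕ} [hp : Fact p.Prime]
    (hp2 : p ≠ 2) (hL : finrank ℚ L = p) {x : ℚ} (hx : x ≠ 0) (q : Nat.Primes) :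
    NormAt L q (x : Cq q) ↔ NormAt L q ((x.num.natAbs * x.den ^ (p - 1) : ℕ) : Cq q) := by
  have hodd : Odd p := hp.out.odd_of_ne_two hp2
  have hden : (x.den : ℚ) ≠ 0 := by exact_mod_cast x.den_nz
  -- `x = ± n / den ^ p`
  have h1 : ∃ s : ℚ, s ≠ 0 ∧ ((x.num.natAbs * x.den ^ (p - 1) : ℕ) : ℚ) = x * s ^ p := by
    have hpp : (x.den : ℚ) ^ p = (x.den : ℚ) ^ (p - 1) * x.den := by
      rw [← pow_succ, Nat.sub_add_cancel hp.out.one_le]
    have hxx : x * x.den = x.num := by exact_mod_cast Rat.mul_den_eq_num x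
    rcases Int.natAbs_eq x.num with h | h
    · refine ⟨x.den, hden, ?_⟩
      generalize x.num.natAbs = m at h ⊢
      rw [h] at hxx
      push_cast at hxx ⊢
      rw [← hxx, hpp]
      ring
    · refine ⟨-x.den, neg_ne_zero.2 hden, ?_⟩
      generalize x.num.natAbs = m at h ⊢
      rw [h] at hxx
      push_cast at hxx ⊢
      rw [← neg_neg (m : ℚ), ← hxx, hodd.neg_pow, hpp]
      ring
  obtain ⟨s, hs, hn⟩ := h1
  have h2 : ((x.num.natAbs * x.den ^ (p - 1) : ℕ) : Cq q) = (x : Cq q) * (s : Cq q) ^ finrank ℚ L := by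
    rw [hL, ← Rat.cast_pow, ← Rat.cast_mul, ← hn, Rat.cast_natCast]
  have h3 := normAt_pow (L := L) (q := q) hs
  rw [h2]
  constructor
  · intro h
    exact h.mul h3
  · intro h
    have h4 := h.mul h3.inv
    rwa [mul_inv_cancel_right₀] at h4
    exact pow_ne_zero _ (by exact_mod_cast hs)

/-- REC over `ℚ`, first form -/
theorem rec_aux {ℓ : ℕ} [hℓ : Fact ℓ.Prime] (M : Type*) [Field M] {L : Type*} [Field L]
    [NumberField L] [IsGalois ℚ L]
    [NumberField M] [IsCyclotomicExtension {ℓ} ℚ M] [Algebra L M] {p : ℕ} [hp : Fact p.Prime]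
    (hp2 : p ≠ 2) (hL : finrank ℚ L = p) {k : ℕ} (hpk : p * k = ℓ - 1) (hℓ2 : ℓ ≠ 2)
    (htrans : ∀ q : Nat.Primes, (q : ℕ) ≠ ℓ → ((q : ℕ) : ZMod ℓ) ^ k ≠ 1 → TransAt L q)
    (v₀ : Nat.Primes) (hv : (v₀ : ℕ) ≠ ℓ) (hv' : ((v₀ : ℕ) : ZMod ℓ) ^ k ≠ 1) {x : ℚ} (hx : x ≠ 0)
    (h : ∀ q : Nat.Primes, q ≠ v₀ → NormAt L q (x : Cq q)) : NormAt L v₀ (x : Cq v₀) := by
  have hn : (x.num.natAbs * x.den ^ (p - 1) : ℕ) ≠ 0 :=
    mul_ne_zero (Int.natAbs_ne_zero.2 (Rat.num_ne_zero.2 hx)) (pow_ne_zero _ x.den_nz)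
  rw [normAt_iff_natAbs hp2 hL hx]
  set n : ℕ := (x.num.natAbs * x.den ^ (p - 1) : ℕ) with hndef
  have h1 : p ∣ n.factorization v₀ :=
    dvd_factorization_of_normAt (ℓ := ℓ) M hL hpk hℓ2 htrans v₀ hv hv' hn
      (fun q hq => (normAt_iff_natAbs hp2 hL hx q).1 (h q hq))
  obtain ⟨c, hc⟩ := h1
  have h2 := normAt_of_valuation hL (htrans v₀ hv hv')
    (fun ψ z hz => unr_of_cyclo (ℓ := ℓ) M hv ψ z hz) (x := (n : ℚ_[(v₀ : ℕ)]))
    (by exact_mod_cast hn) (m := -c) ?_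
  · simpa using h2
  · rw [Padic.norm_eq_zpow_neg_valuation (by exact_mod_cast hn), Padic.valuation_natCast,
      ← Nat.factorization_def n v₀.2, hc]
    congr 1
    push_cast
    ring

/-- comparison with the local norms of `CFT/Glue` -/
lemma normAt_iff_locNm {L : Type*} [Field L] [NumberField L] {q : Nat.Primes} (φ : Emb ℚ q)
    (u : (Cq q)ˣ) : NormAt L q (u : Cq q) ↔ LocNm (algebraMap ℚ L) q φ u := by
  classical
  have hsub : ∀ ψ : Emb L q, ψ.comp (algebraMap ℚ L) = φ := fun ψ => Subsingleton.elim _ _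
  constructor
  · rintro ⟨y, hy, hyu⟩
    refine ⟨y, fun τ _ ψ _ => hy τ ψ, ?_⟩
    apply Units.ext
    rw [← hyu, Units.coe_prod]
    refine Finset.prod_congr ?_ (fun _ _ => rfl)
    ext ψ
    simp only [Finset.mem_filter, Finset.mem_univ, true_and, iff_true]
    exact hsub ψ
  · rintro ⟨y, hy, hyu⟩
    refine ⟨y, fun τ ψ => hy τ (Subsingleton.elim _ _) ψ (hsub ψ), ?_⟩
    rw [← hyu, Units.coe_prod]
    refine Finset.prod_congr ?_ (fun _ _ => rfl)
    ext ψ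
    simp only [Finset.mem_filter, Finset.mem_univ, true_and, true_iff]
    exact hsub ψ

theorem isCyclotomic_rat (ℓ : ℕ) [NeZero ℓ] (inst : Algebra ℚ (CyclotomicField ℓ ℚ)) :
    IsCyclotomicExtension {ℓ} ℚ (CyclotomicField ℓ ℚ) := by
  have h : inst = CyclotomicField.algebra ℓ ℚ := Subsingleton.elim _ _
  subst h
  infer_instance

/-- (REC over `ℚ`) -/
theorem exists_rec_field (p : ℕ) [hp : Fact p.Prime] (hp2 : p ≠ 2) (v₀ : Nat.Primes) :
    ∃ (L : IntermediateField ℚ (AlgebraicClosure ℚ)) (_ : NumberField L),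
      IsGalois ℚ L ∧ finrank ℚ L = p ∧ TransAt L v₀ ∧
      ∀ x : ℚ, x ≠ 0 → (∀ q : Nat.Primes, q ≠ v₀ → NormAt L q (x : Cq q)) →
        NormAt L v₀ (x : Cq v₀) := by
  obtain ⟨ℓ, hℓ, hℓv, hℓ2, k, hpk, hk⟩ := exists_aux_prime p v₀.2
  have : Fact ℓ.Prime := ⟨hℓ⟩
  have : NeZero ℓ := ⟨hℓ.ne_zero⟩
  let M := CyclotomicField ℓ ℚ
  have hM : IsCyclotomicExtension {ℓ} ℚ M := isCyclotomic_rat ℓ _
  obtain ⟨L₀, hgal, hfin, htrans⟩ := exists_subfield (ℓ := ℓ) M hpk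
  let ι : M →ₐ[ℚ] AlgebraicClosure ℚ := IsAlgClosed.lift
  let L : IntermediateField ℚ (AlgebraicClosure ℚ) := L₀.map ι
  let e : L₀ ≃ₐ[ℚ] L := L₀.equivMap ι
  have hfd : FiniteDimensional ℚ L := e.toLinearEquiv.finiteDimensional
  have hnf : NumberField L := ⟨⟩
  have hv0 : TransAt L₀ v₀ := htrans v₀ hℓv.symm hk
  refine ⟨L, hnf, IsGalois.of_algEquiv e, ?_, hv0.congr e.toRingEquiv, ?_⟩
  · rw [← hfin]
    exact e.toLinearEquiv.finrank_eq.symm
  · intro x hx h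
    exact (rec_aux (ℓ := ℓ) M hp2 hfin hpk hℓ2 htrans v₀ hℓv.symm hk hx
      (fun q hq => (h q hq).congr e.toRingEquiv.symm)).congr e.toRingEquiv

end Fermat.Agent.CFT6
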