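import Mathlib
import Fermat.Agent.CFT6.RecExists
import Fermat.Agent.CFT6.CycGroup
import Fermat.Agent.QuadRep.RootsOfUnity
import Fermat.Prelude.Def_GroupCohomology_ContinuousUnramified

/-!
# The cyclotomic tower: arithmetic
-/

set_option autoImplicit false

open NumberField IsDedekindDomain Module Fermat.Agent.CFT
open scoped Pointwise

namespace Fermat.Agent.CFT6

section

variable {n : ℕ} [NeZero n] {M : Type*} [Field M] [NumberField M]
  [IsCyclotomicExtension {n} ℚ M] {q : Nat.Primes}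

/-- Frobenius at `q ∤ n` in the local Galois group -/
theorem exists_frob' (hcop : (q : ℕ).Coprime n) (φ : Emb M q) :
    ∃ τ : Gq q, ∀ x : M, x ^ n = 1 → τ (φ x) = φ (x ^ (q : ℕ)) := by
  have : (place φ).asIdeal.IsMaximal := (place φ).isMaximal
  have h1 := IsCyclotomicExtension.Rat.galEquivZMod_stabilizer n M (q : ℕ) (place φ).asIdeal hcop
  set u : (ZMod n)ˣ := ZMod.unitOfCoprime (q : ℕ) hcop with hu
  have h2 : u ∈ (IsCyclotomicExtension.Rat.galEquivZMod n M).mapSubgroup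
      (MulAction.stabilizer Gal(M/ℚ) (place φ).asIdeal) := by
    rw [h1]; exact Subgroup.mem_zpowers _
  obtain ⟨σ, hσ, hσu⟩ := h2
  have hσu' : IsCyclotomicExtension.Rat.galEquivZMod n M σ = u := hσu
  have hσ' : σ • (place φ).asIdeal = (place φ).asIdeal := hσ
  have h3 : place φ = place (φ.comp (σ : M →+* M)) := by
    apply HeightOneSpectrum.ext
    ext x
    show x ∈ primeIdeal φ ↔ x ∈ primeIdeal (φ.comp (σ : M →+* M))
    rw [mem_primeIdeal (φ := φ.comp (σ : M →+* M))]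
    have h4 : (φ.comp (σ : M →+* M)) (x : M) = φ ((σ • x : 𝓞 M) : M) := rfl
    rw [h4]
    have h5 : x ∈ (place φ).asIdeal ↔ σ • x ∈ σ • (place φ).asIdeal :=
      (Ideal.smul_mem_pointwise_smul_iff).symm
    rw [hσ'] at h5
    exact h5
  obtain ⟨τ, hτ⟩ := place_eq_iff.1 h3
  refine ⟨τ, fun x hx => ?_⟩
  rw [hτ x]
  show φ (σ x) = _
  rw [IsCyclotomicExtension.Rat.galEquivZMod_apply_of_pow_eq n M σ hx, hσu']
  congr 1
  have h6 : ((u : ZMod n).val : ZMod n) = ((q : ℕ) : ZMod n) := by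
    rw [ZMod.natCast_zmod_val, hu, ZMod.coe_unitOfCoprime]
  rw [ZMod.natCast_eq_natCast_iff'] at h6
  rw [← Nat.mod_add_div ((u : ZMod n).val) n, h6, pow_add, pow_mul, hx, one_pow, mul_one]
  conv_rhs => rw [← Nat.mod_add_div (q : ℕ) n, pow_add, pow_mul, hx, one_pow, mul_one]

end

/-- all embeddings above `q` of the field of `q^(k+1)`-th roots of unity are conjugate -/
theorem transAt_pow (k : ℕ) {q : Nat.Primes} {M : Type*} [Field M] [NumberField M]
    [IsCyclotomicExtension {(q : ℕ) ^ (k + 1)} ℚ M] : TransAt M q := by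
  intro ψ ψ'
  have hζ := IsCyclotomicExtension.zeta_spec ((q : ℕ) ^ (k + 1)) ℚ M
  have key : ∀ φ : Emb M q, (place φ).asIdeal = Ideal.span {hζ.toInteger - 1} := by
    intro φ
    have : (place φ).asIdeal.IsPrime := (place φ).isPrime
    exact IsCyclotomicExtension.Rat.eq_span_zeta_sub_one_of_liesOver (q : ℕ) k M hζ (place φ).asIdeal
  have h1 : place ψ = place ψ' := HeightOneSpectrum.ext (by rw [key, key])
  obtain ⟨τ, hτ⟩ := place_eq_iff.1 h1
  exact ⟨τ, RingHom.ext hτ⟩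

/-- the absolute Galois group of `ℚ` -/
abbrev GQ : Type := AlgebraicClosure ℚ ≃ₐ[ℚ] AlgebraicClosure ℚ

section chi

variable (n : ℕ) [NeZero n]

/-- the cyclotomic character modulo `n`. -/
noncomputable def chi : GQ →* (ZMod n)ˣ :=
  (modularCyclotomicCharacter (AlgebraicClosure ℚ)
    (HasEnoughRootsOfUnity.natCard_rootsOfUnity (AlgebraicClosure ℚ) n)).comp
    (MonoidHom.mk' (fun σ : GQ => (σ : AlgebraicClosure ℚ ≃+* AlgebraicClosure ℚ)) (fun _ _ => rfl))

variable {n}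

lemma chi_spec (g : GQ) {t : AlgebraicClosure ℚ} (ht : t ^ n = 1) :
    g t = t ^ ((chi n g : (ZMod n)ˣ) : ZMod n).val := by
  have hn : n ≠ 0 := NeZero.ne n
  have ht0 : t ≠ 0 := by
    rintro rfl
    rw [zero_pow hn] at ht
    exact zero_ne_one ht
  have h1 : Units.mk0 t ht0 ∈ rootsOfUnity n (AlgebraicClosure ℚ) := by
    rw [mem_rootsOfUnity]
    exact Units.ext (by simpa using ht)
  have h2 := modularCyclotomicCharacter.spec (AlgebraicClosure ℚ)
    (HasEnoughRootsOfUnity.natCard_rootsOfUnity (AlgebraicClosure ℚ) n)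
    (g : AlgebraicClosure ℚ ≃+* AlgebraicClosure ℚ) h1
  exact h2

lemma chi_eq (g : GQ) {ζ : AlgebraicClosure ℚ} (hζ : IsPrimitiveRoot ζ n) {u : ℕ}
    (h : g ζ = ζ ^ u) : ((chi n g : (ZMod n)ˣ) : ZMod n) = (u : ZMod n) := by
  have h1 := chi_spec g hζ.pow_eq_one
  rw [h] at h1
  have hu : IsUnit ζ := hζ.isUnit (NeZero.ne n)
  lift ζ to (AlgebraicClosure ℚ)ˣ using hu
  have h5 : ζ ^ u = ζ ^ ((chi n g : (ZMod n)ˣ) : ZMod n).val := Units.ext (by simpa using h1)
  rw [pow_eq_pow_iff_modEq, ← (IsPrimitiveRoot.coe_units_iff.1 hζ).eq_orderOf] at h5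
  have := (ZMod.natCast_eq_natCast_iff _ _ _).2 h5
  rw [ZMod.natCast_zmod_val] at this
  exact this.symm

lemma chi_eq_one_iff {g : GQ} : chi n g = 1 ↔ ∀ t : AlgebraicClosure ℚ, t ^ n = 1 → g t = t := by
  constructor
  · intro h t ht
    rw [chi_spec g ht, h]
    rcases eq_or_ne n 1 with rfl | hn
    · rw [pow_one] at ht
      rw [ht, one_pow]
    · have : Fact (1 < n) := ⟨by have := NeZero.ne n; omega⟩
      rw [Units.val_one, ZMod.val_one, pow_one]
  · intro h
    obtain ⟨ζ, hζ⟩ := HasEnoughRootsOfUnity.exists_primitiveRoot (AlgebraicClosure ℚ) n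
    have h1 := chi_eq g hζ (u := 1) (by rw [pow_one]; exact h ζ hζ.pow_eq_one)
    apply Units.ext
    rw [h1]; simp

lemma chi_surjective : Function.Surjective (chi n) := by
  intro u
  obtain ⟨ζ, hζ⟩ := HasEnoughRootsOfUnity.exists_primitiveRoot (AlgebraicClosure ℚ) n
  have hcop : (u : ZMod n).val.Coprime n := ZMod.val_coe_unit_coprime u
  have hζu : IsPrimitiveRoot (ζ ^ (u : ZMod n).val) n := hζ.pow_of_coprime _ hcop
  have hev : Polynomial.aeval ζ (minpoly ℚ (ζ ^ (u : ZMod n).val)) = 0 := by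
    rw [← Polynomial.cyclotomic_eq_minpoly_rat hζu (NeZero.pos n),
      Polynomial.cyclotomic_eq_minpoly_rat hζ (NeZero.pos n)]
    exact minpoly.aeval ℚ ζ
  obtain ⟨g, hg⟩ := minpoly.exists_algEquiv_of_root' (K := ℚ) (L := AlgebraicClosure ℚ)
    (Algebra.IsAlgebraic.isAlgebraic (ζ ^ (u : ZMod n).val)) hev
  have hg' : g.symm ζ = ζ ^ (u : ZMod n).val := by rw [AlgEquiv.symm_apply_eq]; exact hg.symm
  refine ⟨g.symm, Units.ext ?_⟩
  rw [chi_eq g.symm hζ hg', ZMod.natCast_zmod_val]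

/-- comparison of the local action on embeddings with the global Galois action -/
lemma chi_local {q : Nat.Primes} {M : Type*} [Field M] [Algebra ℚ M] (ι : M →ₐ[ℚ] AlgebraicClosure ℚ)
    {ζ : M} (hζ : IsPrimitiveRoot ζ n) (τ : Gq q) {u : ℕ}
    (h : τ (padicEmbedding q (ι ζ)) = padicEmbedding q (ι (ζ ^ u))) :
    ((chi n (localGaloisToGlobal (q : ℕ) τ) : (ZMod n)ˣ) : ZMod n) = (u : ZMod n) := by
  have hζ' : IsPrimitiveRoot (ι ζ) n := hζ.map_of_injective ι.injective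
  apply chi_eq _ hζ'
  apply (padicEmbedding (q : ℕ)).injective
  rw [← map_pow]
  exact (padicEmbedding_localGaloisToGlobal (q : ℕ) τ (ι ζ)).trans h

/-- Frobenius at `q` has cyclotomic character `q` -/
theorem exists_chi_frob {q : Nat.Primes} (hcop : (q : ℕ).Coprime n) :
    ∃ τ : Gq q, chi n (localGaloisToGlobal (q : ℕ) τ) = ZMod.unitOfCoprime (q : ℕ) hcop := by
  let M := CyclotomicField n ℚ
  have hM : IsCyclotomicExtension {n} ℚ M := isCyclotomic_rat n _
  let ι : M →ₐ[ℚ] AlgebraicClosure ℚ := IsAlgClosed.lift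
  have hζ := IsCyclotomicExtension.zeta_spec n ℚ M
  obtain ⟨τ, hτ⟩ := exists_frob' (n := n) (M := M) hcop ((padicEmbedding (q : ℕ)).toRingHom.comp ι.toRingHom)
  refine ⟨τ, Units.ext ?_⟩
  rw [chi_local ι hζ τ (u := q) (hτ _ hζ.pow_eq_one), ZMod.coe_unitOfCoprime]

end chi

/-- the local cyclotomic character at `q` modulo powers of `q` is surjective. -/
theorem chi_local_surjective (q : Nat.Primes) (k : ℕ) :
    Function.Surjective ((chi ((q : ℕ) ^ (k + 1))).comp (localGaloisToGlobal (q : ℕ))) := by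
  intro u
  have : NeZero ((q : ℕ) ^ (k + 1)) := ⟨pow_ne_zero _ q.2.ne_zero⟩
  let M := CyclotomicField ((q : ℕ) ^ (k + 1)) ℚ
  have hM : IsCyclotomicExtension {(q : ℕ) ^ (k + 1)} ℚ M := isCyclotomic_rat _ _
  let ι : M →ₐ[ℚ] AlgebraicClosure ℚ := IsAlgClosed.lift
  have hζ := IsCyclotomicExtension.zeta_spec ((q : ℕ) ^ (k + 1)) ℚ M
  let φ : Emb M q := (padicEmbedding (q : ℕ)).toRingHom.comp ι.toRingHom
  let σ : Gal(M/ℚ) := (IsCyclotomicExtension.Rat.galEquivZMod ((q : ℕ) ^ (k + 1)) M).symm u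
  obtain ⟨τ, hτ⟩ := transAt_pow k (M := M) φ (φ.comp (σ : M →+* M))
  refine ⟨τ, Units.ext ?_⟩
  have h1 : τ (padicEmbedding q (ι (IsCyclotomicExtension.zeta ((q : ℕ) ^ (k + 1)) ℚ M))) =
      padicEmbedding q (ι (IsCyclotomicExtension.zeta ((q : ℕ) ^ (k + 1)) ℚ M ^
        (u : ZMod ((q : ℕ) ^ (k + 1))).val)) := by
    have h2 := congrArg (fun g : Emb M q => g (IsCyclotomicExtension.zeta ((q : ℕ) ^ (k + 1)) ℚ M)) hτ
    have h3 : σ (IsCyclotomicExtension.zeta ((q : ℕ) ^ (k + 1)) ℚ M) =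
        IsCyclotomicExtension.zeta ((q : ℕ) ^ (k + 1)) ℚ M ^ (u : ZMod ((q : ℕ) ^ (k + 1))).val := by
      rw [IsCyclotomicExtension.Rat.galEquivZMod_apply_of_pow_eq _ M σ hζ.pow_eq_one,
        show IsCyclotomicExtension.Rat.galEquivZMod ((q : ℕ) ^ (k + 1)) M σ = u from
          MulEquiv.apply_symm_apply _ _]
    rw [← h3]
    exact h2
  rw [MonoidHom.comp_apply, chi_local ι hζ τ h1, ZMod.natCast_zmod_val]

end Fermat.Agent.CFT6
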