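import Mathlib
import Fermat.Agent.CFT6.CycArith

/-!
# The cyclotomic tower: bounded number of places
-/

set_option autoImplicit false

open NumberField IsDedekindDomain Module Fermat.Agent.CFT Fermat.Agent.PT
open scoped Pointwise

namespace Fermat.Agent.CFT6

variable (p : ℕ) [hp : Fact p.Prime]

instance neZero_pow' (k : ℕ) : NeZero (p ^ k) := ⟨pow_ne_zero _ hp.out.ne_zero⟩

/-- `χ^(p-1)` modulo `p^(k+1)` -/
noncomputable def psi (k : ℕ) : GQ →* (ZMod (p ^ (k + 1)))ˣ :=
  (powMonoidHom (p - 1)).comp (chi (p ^ (k + 1)))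

/-- the tower of subgroups -/
noncomputable def NN (k : ℕ) : Subgroup GQ := (psi p k).ker

instance NN_normal (k : ℕ) : (NN p k).Normal := by unfold NN; infer_instance

lemma mem_NN {k : ℕ} {g : GQ} :
    g ∈ NN p k ↔ ∀ t : AlgebraicClosure ℚ, t ^ (p ^ (k + 1)) = 1 → (g ^ (p - 1)) t = t := by
  rw [← chi_eq_one_iff, map_pow]
  rfl

lemma NN_antitone : Antitone (NN p) := by
  apply antitone_nat_of_succ_le
  intro k g hg
  rw [mem_NN] at hg ⊢
  intro t ht
  exact hg t (by rw [pow_succ, pow_mul, ht, one_pow])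

lemma NN_le (k : ℕ) {F : IntermediateField ℚ (AlgebraicClosure ℚ)}
    (hF : ∀ t : AlgebraicClosure ℚ, t ^ (p ^ (k + 1)) = 1 → t ∈ F) : F.fixingSubgroup ≤ NN p k := by
  intro g hg
  rw [mem_NN]
  intro t ht
  have h1 : ∀ n : ℕ, (g ^ n) t = t := by
    intro n
    induction n with
    | zero => rfl
    | succ n ih =>
      rw [pow_succ', AlgEquiv.mul_apply, ih]
      exact (IntermediateField.mem_fixingSubgroup_iff F g).1 hg t (hF t ht)
  exact h1 _

lemma card_units_pow (k : ℕ) : Nat.card (ZMod (p ^ (k + 1)))ˣ = p ^ k * (p - 1) := by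
  rw [Nat.card_eq_fintype_card, ZMod.card_units_eq_totient, Nat.totient_prime_pow_succ hp.out]

lemma card_range_pow (hp2 : p ≠ 2) (k : ℕ) :
    Nat.card (powMonoidHom (p - 1) : (ZMod (p ^ (k + 1)))ˣ →* _).range = p ^ k := by
  have := ZMod.isCyclic_units_of_prime_pow p hp.out hp2 (k + 1)
  rw [IsCyclic.card_powMonoidHom_range, card_units_pow, Nat.gcd_mul_left_left]
  exact Nat.mul_div_cancel _ (by have := hp.out.two_le; omega)

lemma range_psi_comp {Γ : Type*} [Group Γ] (r : Γ →* GQ) (k : ℕ)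
    (h : Function.Surjective ((chi (p ^ (k + 1))).comp r)) :
    ((psi p k).comp r).range = (powMonoidHom (p - 1) : (ZMod (p ^ (k + 1)))ˣ →* _).range := by
  rw [psi, MonoidHom.comp_assoc, MonoidHom.range_comp, MonoidHom.range_eq_top.2 h,
    ← MonoidHom.range_eq_map]

lemma NN_index (hp2 : p ≠ 2) (k : ℕ) : (NN p k).index = p ^ k := by
  rw [NN, Subgroup.index_ker, ← card_range_pow p hp2 k, ← range_psi_comp p (MonoidHom.id GQ) k]
  · rfl
  · exact chi_surjective

instance NN_finiteIndex (k : ℕ) : (NN p k).FiniteIndex := by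
  unfold NN
  infer_instance

/-- the local images are large -/
theorem card_range_psi_local (hp2 : p ≠ 2) (q : Nat.Primes) :
    ∃ m, ∀ k, p ^ k ≤ p ^ m * Nat.card ((psi p k).comp (localGaloisToGlobal (q : ℕ))).range := by
  by_cases hq : (q : ℕ) = p
  · subst hq
    refine ⟨0, fun k => ?_⟩
    rw [range_psi_comp _ _ k (chi_local_surjective q k), card_range_pow _ hp2, pow_zero, one_mul]
  · have hodd : Odd p := hp.out.odd_of_ne_two hp2
    have hcop : ∀ n : ℕ, (q : ℕ).Coprime (p ^ n) := fun n =>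
      Nat.Coprime.pow_right _ ((Nat.coprime_primes q.2 hp.out).2 hq)
    set x : ℕ := (q : ℕ) ^ (p - 1) with hx
    have hp1 : p - 1 ≠ 0 := by have := hp.out.two_le; omega
    have hx1 : 1 < x := Nat.one_lt_pow hp1 q.2.one_lt
    have hpx : ¬ p ∣ x := fun h =>
      hq ((Nat.prime_dvd_prime_iff_eq hp.out q.2).1 (hp.out.dvd_of_dvd_pow h)).symm
    have hdvd : p ∣ x - 1 := by
      have h1 : ((q : ℕ) : ZMod p) ^ (p - 1) = 1 := by
        apply ZMod.pow_card_sub_one_eq_one
        rw [Ne, ZMod.natCast_eq_zero_iff]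
        exact fun h => hq ((Nat.prime_dvd_prime_iff_eq hp.out q.2).1 h).symm
      rw [← ZMod.natCast_eq_zero_iff, Nat.cast_sub hx1.le, hx]
      push_cast
      rw [h1, sub_self]
    refine ⟨padicValNat p (x - 1), fun k => ?_⟩
    obtain ⟨τ, hτ⟩ := exists_chi_frob (n := p ^ (k + 1)) (hcop (k + 1))
    set u : (ZMod (p ^ (k + 1)))ˣ := (ZMod.unitOfCoprime (q : ℕ) (hcop (k + 1))) ^ (p - 1) with hu
    have hmem : u ∈ ((psi p k).comp (localGaloisToGlobal (q : ℕ))).range := by
      refine ⟨τ, ?_⟩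
      rw [MonoidHom.comp_apply, psi, MonoidHom.comp_apply, hτ]
      rfl
    have ht0 : orderOf u ≠ 0 := (orderOf_pos u).ne'
    have h1 : p ^ (k + 1) ∣ x ^ orderOf u - 1 ^ orderOf u := by
      have h2 : ((x : ℕ) : ZMod (p ^ (k + 1))) ^ orderOf u = 1 := by
        have h3 : ((u : (ZMod (p ^ (k + 1)))ˣ) : ZMod (p ^ (k + 1))) = ((x : ℕ) : ZMod (p ^ (k + 1))) := by
          rw [hu, hx]
          push_cast
          rw [ZMod.coe_unitOfCoprime]
        rw [← h3, ← Units.val_pow_eq_pow_val, pow_orderOf_eq_one, Units.val_one]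
      rw [one_pow, ← ZMod.natCast_eq_zero_iff, Nat.cast_sub (Nat.one_le_pow _ _ (by omega))]
      push_cast
      rw [h2, sub_self]
    have h2 : k + 1 ≤ padicValNat p (x - 1) + padicValNat p (orderOf u) := by
      rw [← padicValNat.pow_sub_pow hodd hx1 hdvd hpx ht0]
      refine (padicValNat_dvd_iff_le ?_).1 h1
      rw [one_pow]
      have := Nat.one_lt_pow ht0 hx1
      omega
    have h3 : p ^ padicValNat p (orderOf u) ≤ orderOf u :=
      Nat.le_of_dvd (orderOf_pos u) pow_padicValNat_dvd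
    have h4 : orderOf u ≤ Nat.card ((psi p k).comp (localGaloisToGlobal (q : ℕ))).range :=
      Nat.le_of_dvd Nat.card_pos (Subgroup.orderOf_dvd_natCard _ hmem)
    calc p ^ k ≤ p ^ (padicValNat p (x - 1) + padicValNat p (orderOf u)) :=
          Nat.pow_le_pow_right hp.out.pos (by omega)
      _ = p ^ padicValNat p (x - 1) * p ^ padicValNat p (orderOf u) := pow_add _ _ _
      _ ≤ _ := Nat.mul_le_mul_left _ (h3.trans h4)

/-- the number of places above `q` in the cyclotomic tower is bounded. -/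
theorem card_orb_NN_le (hp2 : p ≠ 2) (q : Nat.Primes) :
    ∃ C, ∀ k, Nat.card (PT.Orb ((cosetAct (NN p k)).comp (localGaloisToGlobal (q : ℕ)))) ≤ C := by
  obtain ⟨m, hm⟩ := card_range_psi_local p hp2 q
  refine ⟨p ^ m, fun k => ?_⟩
  have h1 := card_orb_normal_le (localGaloisToGlobal (q : ℕ)) (psi p k) (NN p k) rfl
  rw [NN_index p hp2] at h1
  have h2 : 0 < Nat.card ((psi p k).comp (localGaloisToGlobal (q : ℕ))).range := Nat.card_pos
  exact Nat.le_of_mul_le_mul_right (h1.trans (hm k)) h2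

/-- field `cyc` of `PTHyp` -/
theorem cyc_of (hp2 : p ≠ 2) (D : PTData GQ) (hL : ∀ k, IsOpenSub D.L (NN p k))
    (hr : ∀ v, ∃ C, ∀ k, Nat.card (PT.Orb ((cosetAct (NN p k)).comp (D.r v))) ≤ C)
    (U : Subgroup GQ) (hU : IsOpenSub D.L U) :
    ∃ C : ℕ, ∀ k : ℕ, ∃ U' : Subgroup GQ, U' ≤ U ∧ IsOpenSub D.L U' ∧ (U'.subgroupOf U).Normal ∧
      U'.relIndex U = p ^ k ∧ D.s U' ≤ C := by
  have := hU.finiteIndex
  choose C hC using hr
  refine ⟨∑ v, U.index * C v, fun k => ?_⟩
  obtain ⟨j, hj⟩ := exists_relIndex_eq hp.out (NN p) (NN_antitone p) (NN_normal p) (NN_index p hp2) U k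
  refine ⟨U ⊓ NN p j, inf_le_left, ?_, ?_, ?_, ?_⟩
  · obtain ⟨N, hN, hNj⟩ := hL j
    obtain ⟨M, hM, h1, h2⟩ := hU.exists_le hN
    exact ⟨M, hM, le_inf h2 (h1.trans hNj)⟩
  · rw [inf_comm, Subgroup.inf_subgroupOf_right]
    infer_instance
  · rw [inf_comm, Subgroup.inf_relIndex_right, hj]
  · refine Finset.sum_le_sum fun v _ => ?_
    exact (card_orb_inf_le (D.r v) U (NN p j)).trans (Nat.mul_le_mul_left _ (hC v j))

/-- the field of `p^(k+1)`-th roots of unity -/
noncomputable def rootField (k : ℕ) : IntermediateField ℚ (AlgebraicClosure ℚ) :=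
  IntermediateField.adjoin ℚ {t | t ^ (p ^ (k + 1)) = 1}

lemma rootField_fix (k : ℕ) : (rootField p k).fixingSubgroup ≤ NN p k :=
  NN_le p k fun _ ht => IntermediateField.subset_adjoin _ _ ht

omit hp in
lemma rootField_normal (k : ℕ) : Normal ℚ (rootField p k) := by
  apply IntermediateField.normal_iff_forall_map_le'.mpr
  intro σ
  rw [rootField, IntermediateField.adjoin_map]
  apply IntermediateField.adjoin.mono
  rintro _ ⟨t, ht, rfl⟩
  show (σ t) ^ _ = 1
  rw [← map_pow, show t ^ _ = 1 from ht, map_one]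

lemma rootField_finite (k : ℕ) : FiniteDimensional ℚ (rootField p k) := by
  have hfin : Finite {t : AlgebraicClosure ℚ | t ^ (p ^ (k + 1)) = 1} := by
    refine ((Polynomial.X ^ (p ^ (k + 1)) - Polynomial.C (1 : AlgebraicClosure ℚ)).rootSet_finite
      (AlgebraicClosure ℚ)).subset ?_
    intro t ht
    have hne : (Polynomial.X ^ (p ^ (k + 1)) - Polynomial.C (1 : AlgebraicClosure ℚ)) ≠ 0 :=
      Polynomial.X_pow_sub_C_ne_zero (pow_pos hp.out.pos _) 1
    rw [Polynomial.mem_rootSet]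
    refine ⟨hne, ?_⟩
    rw [Set.mem_ofPred_eq] at ht
    simp [ht]
  exact IntermediateField.finiteDimensional_adjoin fun t _ => (Algebra.IsIntegral.isIntegral t)

lemma rootField_unr (k : ℕ) {S : Finset Nat.Primes} (hpS : (⟨p, hp.out⟩ : Nat.Primes) ∈ S) :
    (rootField p k).IsUnramifiedOutside S := by
  refine ⟨rootField_finite p k, fun q hq A hA => ?_⟩
  have hqp : (q : ℕ) ≠ p := by
    rintro h
    apply hq
    have : q = ⟨p, hp.out⟩ := Subtype.ext h
    rwa [this]
  rw [← IntermediateField.le_iff_le, rootField, IntermediateField.adjoin_le_iff]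
  rintro t ht ⟨g, hg⟩
  exact Fermat.Agent.QuadRep.inertia_smul_root q.2 hA hg (pow_pos hp.out.pos _)
    (Nat.Coprime.pow_left _ ((Nat.coprime_primes hp.out q.2).2 (Ne.symm hqp))) t ht

end Fermat.Agent.CFT6
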