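import Mathlib
import Fermat.Agent.CFT6.SUnits

/-!
# Finiteness of the idele class group modulo unit ideles
-/

set_option autoImplicit false

open NumberField IsDedekindDomain Module Fermat.Agent.CFT
open scoped nonZeroDivisors

namespace Fermat.Agent.CFT6

/-- the group of everywhere-unit ideles -/
def unitIdele (K : Type*) [Field K] : Subgroup (Idele K) where
  carrier := {f | ∀ q φ, ‖((f : ∀ q : Nat.Primes, Emb K q → (Cq q)ˣ) q φ : Cq q)‖ = 1}
  mul_mem' := by
    intro a b ha hb q φ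
    show ‖((((a : ∀ q : Nat.Primes, Emb K q → (Cq q)ˣ) q φ *
      (b : ∀ q : Nat.Primes, Emb K q → (Cq q)ˣ) q φ : (Cq q)ˣ)) : Cq q)‖ = 1
    rw [Units.val_mul, norm_mul, ha q φ, hb q φ, one_mul]
  one_mem' := by intro q φ; simp
  inv_mem' := by
    intro a ha q φ
    show ‖((((a : ∀ q : Nat.Primes, Emb K q → (Cq q)ˣ) q φ)⁻¹ : (Cq q)ˣ) : Cq q)‖ = 1
    rw [Units.val_inv_eq_inv_val, norm_inv, ha q φ, inv_one]

lemma mem_unitIdele {K : Type*} [Field K] {f : Idele K} :
    f ∈ unitIdele K ↔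
      ∀ q φ, ‖((f : ∀ q : Nat.Primes, Emb K q → (Cq q)ˣ) q φ : Cq q)‖ = 1 := Iff.rfl

section

variable {K : Type*} [Field K] [NumberField K]

/-- values of ideles are norms of elements of `K` -/
lemma exists_norm_eq_idele (f : Idele K) (q : Nat.Primes) (φ : Emb K q) :
    ∃ x : K, x ≠ 0 ∧ ‖φ x‖ = ‖((f : ∀ q : Nat.Primes, Emb K q → (Cq q)ˣ) q φ : Cq q)‖ := by
  apply exists_norm_eq φ _ (Units.ne_zero _)
  intro τ hτ
  have h1 : τ • φ = φ := RingHom.ext hτ
  have h2 := f.2.1 q τ φ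
  rw [h1] at h2
  exact h2.symm

lemma exists_zpow (f : Idele K) (v : HeightOneSpectrum (𝓞 K)) :
    ∃ n : ℤ, ∀ (q : Nat.Primes) (φ : Emb K q), place φ = v →
      ‖((f : ∀ q : Nat.Primes, Emb K q → (Cq q)ˣ) q φ : Cq q)‖ = unif φ ^ n := by
  obtain ⟨q, hq⟩ := exists_prime_mem v
  obtain ⟨φ, rfl⟩ := exists_place_eq (q := (q : ℕ)) v hq
  obtain ⟨x, hx0, hx⟩ := exists_norm_eq_idele f q φ
  refine ⟨ord (place φ) x, fun q' φ' h => ?_⟩
  have hqq : q' = q := prime_unique (q_mem_place φ') (h ▸ q_mem_place φ)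
  subst hqq
  obtain ⟨τ, hτ⟩ := place_eq_iff.1 h.symm
  have h1 : τ • φ = φ' := RingHom.ext hτ
  rw [← unif_eq_of_place_eq h.symm, ← norm_eq_unif_zpow φ hx0, hx, ← h1]
  have h2 := f.2.1 q' τ φ
  have h3 : ((f : ∀ q : Nat.Primes, Emb K q → (Cq q)ˣ) q' (τ • φ) : Cq q') =
    τ ((f : ∀ q : Nat.Primes, Emb K q → (Cq q)ˣ) q' φ : Cq q') := h2
  rw [h3, norm_gq]

/-- the order of an idele at a place -/
noncomputable def iord (f : Idele K) (v : HeightOneSpectrum (𝓞 K)) : ℤ := (exists_zpow f v).choose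

lemma norm_eq_iord (f : Idele K) {q : Nat.Primes} (φ : Emb K q) :
    ‖((f : ∀ q : Nat.Primes, Emb K q → (Cq q)ˣ) q φ : Cq q)‖ = unif φ ^ iord f (place φ) :=
  (exists_zpow f (place φ)).choose_spec q φ rfl

lemma unif_zpow_inj {q : Nat.Primes} (φ : Emb K q) {m n : ℤ} (h : unif φ ^ m = unif φ ^ n) :
    m = n :=
  (zpow_right_inj₀ (unif_pos φ) (unif_lt_one φ).ne).1 h

lemma finite_iord (f : Idele K) : {v | iord f v ≠ 0}.Finite := by
  have h1 := f.2.2
  have h2 : (⋃ q ∈ {q : Nat.Primes | ∃ φ : Emb K q,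
      ‖((f : ∀ q : Nat.Primes, Emb K q → (Cq q)ˣ) q φ : Cq q)‖ ≠ 1},
      Set.range (fun φ : Emb K q => place φ)).Finite :=
    Set.Finite.biUnion h1 (fun q _ => Set.finite_range _)
  apply h2.subset
  intro v hv
  obtain ⟨q, hq⟩ := exists_prime_mem v
  obtain ⟨φ, rfl⟩ := exists_place_eq (q := (q : ℕ)) v hq
  simp only [Set.mem_iUnion]
  refine ⟨q, ⟨φ, ?_⟩, ⟨φ, rfl⟩⟩
  rw [norm_eq_iord]
  intro h
  rw [← zpow_zero (unif φ)] at h
  exact hv (unif_zpow_inj φ h)

/-- the divisor of an idele -/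
noncomputable def idiv (f : Idele K) : HeightOneSpectrum (𝓞 K) →₀ ℤ :=
  Finsupp.ofSupportFinite (iord f) (finite_iord f)

lemma idiv_apply (f : Idele K) (v : HeightOneSpectrum (𝓞 K)) : idiv f v = iord f v := rfl

/-- the ideal of an idele -/
noncomputable def idealOf (f : Idele K) : FractionalIdeal (𝓞 K)⁰ K :=
  (idiv f).prod (fun v n => (v.asIdeal : FractionalIdeal (𝓞 K)⁰ K) ^ n)

lemma idealOf_ne_zero (f : Idele K) : idealOf f ≠ 0 := by
  unfold idealOf Finsupp.prod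
  rw [Finset.prod_ne_zero_iff]
  intro v _
  exact zpow_ne_zero _ (by
    rw [Ne, FractionalIdeal.coeIdeal_eq_zero]
    exact v.ne_bot)

lemma count_idealOf (f : Idele K) (v : HeightOneSpectrum (𝓞 K)) :
    FractionalIdeal.count K v (idealOf f) = iord f v := by
  have := FractionalIdeal.count_finsuppProd K v (idiv f)
  exact this

lemma count_spanSingleton_alg (v : HeightOneSpectrum (𝓞 K)) {a : 𝓞 K} (ha : a ≠ 0) :
    FractionalIdeal.count K v (FractionalIdeal.spanSingleton (𝓞 K)⁰ (algebraMap (𝓞 K) K a)) =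
      ord v (algebraMap (𝓞 K) K a) := by
  have h1 : FractionalIdeal.spanSingleton (𝓞 K)⁰ (algebraMap (𝓞 K) K a) =
      ((Ideal.span {a} : Ideal (𝓞 K)) : FractionalIdeal (𝓞 K)⁰ K) := by
    rw [FractionalIdeal.coeIdeal_span_singleton]
  have h2 : (Ideal.span {a} : Ideal (𝓞 K)) ≠ 0 := by
    rw [Ne, Ideal.zero_eq_bot, Ideal.span_singleton_eq_bot]; exact ha
  rw [h1, FractionalIdeal.count_coe K v h2, ord, v.valuation_of_algebraMap,
    v.intValuation_if_neg ha, WithZero.log_exp, neg_neg]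

lemma count_spanSingleton (v : HeightOneSpectrum (𝓞 K)) {x : K} (hx : x ≠ 0) :
    FractionalIdeal.count K v (FractionalIdeal.spanSingleton (𝓞 K)⁰ x) = ord v x := by
  obtain ⟨a, b, hb, hab⟩ := IsFractionRing.div_surjective (A := 𝓞 K) x
  have hb0 : b ≠ 0 := nonZeroDivisors.ne_zero hb
  have hbK : algebraMap (𝓞 K) K b ≠ 0 := by simpa using hb0
  have ha0 : a ≠ 0 := by
    rintro rfl
    apply hx
    rw [← hab]; simp
  have hxb : x * algebraMap (𝓞 K) K b = algebraMap (𝓞 K) K a := by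
    rw [← hab]; field_simp
  have h1 := count_spanSingleton_alg v ha0
  have h2 := count_spanSingleton_alg v hb0
  rw [← hxb, ← FractionalIdeal.spanSingleton_mul_spanSingleton, FractionalIdeal.count_mul K v
    (by rw [Ne, FractionalIdeal.spanSingleton_eq_zero_iff]; exact hx)
    (by rw [Ne, FractionalIdeal.spanSingleton_eq_zero_iff]; exact hbK), h2, ord_mul v hx hbK] at h1
  linarith

/-- the class of the ideal of an idele -/
noncomputable def idealUnit (f : Idele K) : (FractionalIdeal (𝓞 K)⁰ K)ˣ :=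
  Units.mk0 (idealOf f) (idealOf_ne_zero f)

variable (K) in
/-- principal ideles times unit ideles -/
noncomputable def princUnit : Subgroup (Idele K) := (princ K).range ⊔ unitIdele K

lemma div_mem_of_class_eq {f f' : Idele K}
    (h : (QuotientGroup.mk (idealUnit f) : (FractionalIdeal (𝓞 K)⁰ K)ˣ ⧸
      (toPrincipalIdeal (𝓞 K) K).range) = QuotientGroup.mk (idealUnit f')) :
    f⁻¹ * f' ∈ princUnit K := by
  rw [QuotientGroup.eq] at h
  obtain ⟨x, hx⟩ := h
  have h1 : (idealUnit f) * toPrincipalIdeal (𝓞 K) K x = idealUnit f' := by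
    rw [hx]; group
  have h2 : idealOf f * FractionalIdeal.spanSingleton (𝓞 K)⁰ (x : K) = idealOf f' := by
    have := congrArg (fun z : (FractionalIdeal (𝓞 K)⁰ K)ˣ => (z : FractionalIdeal (𝓞 K)⁰ K)) h1
    simpa [idealUnit] using this
  have h3 : ∀ v, iord f v + ord v (x : K) = iord f' v := by
    intro v
    rw [← count_idealOf, ← count_idealOf, ← h2, FractionalIdeal.count_mul K v (idealOf_ne_zero f)
      (by rw [Ne, FractionalIdeal.spanSingleton_eq_zero_iff]; exact x.ne_zero),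
      count_spanSingleton v x.ne_zero]
  have h4 : f⁻¹ * f' * (princ K x)⁻¹ ∈ unitIdele K := by
    intro q φ
    have e1 : ((((f⁻¹ * f' * (princ K x)⁻¹ : Idele K)) :
        ∀ q : Nat.Primes, Emb K q → (Cq q)ˣ) q φ : Cq q) =
        ((f : ∀ q : Nat.Primes, Emb K q → (Cq q)ˣ) q φ : Cq q)⁻¹ *
        ((f' : ∀ q : Nat.Primes, Emb K q → (Cq q)ˣ) q φ : Cq q) * (φ (x : K))⁻¹ := by
      simp
    rw [e1, norm_mul, norm_mul, norm_inv, norm_inv, norm_eq_iord, norm_eq_iord,
      norm_eq_unif_zpow φ x.ne_zero, ← h3 (place φ), zpow_add₀ (unif_pos φ).ne']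
    have := (zpow_pos (unif_pos φ) (iord f (place φ))).ne'
    have := (zpow_pos (unif_pos φ) (ord (place φ) (x : K))).ne'
    field_simp
  have h5 : f⁻¹ * f' = princ K x * (f⁻¹ * f' * (princ K x)⁻¹) := by
    rw [mul_comm (princ K x), mul_assoc, inv_mul_cancel, mul_one]
  rw [h5]
  exact Subgroup.mul_mem_sup ⟨x, rfl⟩ h4

theorem finite_quotient_princUnit : Finite (Idele K ⧸ princUnit K) := by
  have hfin : Finite ((FractionalIdeal (𝓞 K)⁰ K)ˣ ⧸ (toPrincipalIdeal (𝓞 K) K).range) :=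
    Finite.of_equiv _ (ClassGroup.equiv K (R := 𝓞 K)).toEquiv
  apply Finite.of_injective (fun c : Idele K ⧸ princUnit K =>
    (QuotientGroup.mk (idealUnit (Quotient.out c)) : (FractionalIdeal (𝓞 K)⁰ K)ˣ ⧸
      (toPrincipalIdeal (𝓞 K) K).range))
  intro c c' h
  have h1 := div_mem_of_class_eq h
  rw [← QuotientGroup.eq] at h1
  rwa [QuotientGroup.out_eq', QuotientGroup.out_eq'] at h1

theorem princUnit_index_ne_zero : (princUnit K).index ≠ 0 := by
  have := finite_quotient_princUnit (K := K)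
  exact Subgroup.index_ne_zero_of_finite

end

end Fermat.Agent.CFT6
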