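import Mathlib
import Fermat.Agent.CFT6.IntApprox
import Fermat.Agent.Herbrand.HP

/-!
# The index of `p`-th powers in `(K ⊗ ℚ_q)ˣ`
-/

set_option autoImplicit false

open NumberField IsDedekindDomain Module Fermat.Agent.CFT Fermat.Agent.Herbrand

namespace Fermat.Agent.CFT6

variable {K : Type*} [Field K] [NumberField K] {q : Nat.Primes}

section ord

lemma exists_norm_eq_Jq {f : Emb K q → (Cq q)ˣ} (hf : f ∈ Jq K q) (φ : Emb K q) :
    ∃ x : K, x ≠ 0 ∧ ‖φ x‖ = ‖(f φ : Cq q)‖ := by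
  apply exists_norm_eq φ _ (Units.ne_zero _)
  intro τ hτ
  have h1 : τ • φ = φ := RingHom.ext hτ
  have h2 := hf τ φ
  rw [h1] at h2
  exact h2.symm

lemma exists_zpow_Jq {f : Emb K q → (Cq q)ˣ} (hf : f ∈ Jq K q) (φ : Emb K q) :
    ∃ n : ℤ, ‖(f φ : Cq q)‖ = unif φ ^ n := by
  obtain ⟨x, hx0, hx⟩ := exists_norm_eq_Jq hf φ
  exact ⟨ord (place φ) x, by rw [← hx, norm_eq_unif_zpow φ hx0]⟩

/-- the order of a semilocal unit at an embedding -/
noncomputable def ordJ (f : Jq K q) (φ : Emb K q) : ℤ := (exists_zpow_Jq f.2 φ).choose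

lemma norm_eq_ordJ (f : Jq K q) (φ : Emb K q) :
    ‖((f : Emb K q → (Cq q)ˣ) φ : Cq q)‖ = unif φ ^ ordJ f φ :=
  (exists_zpow_Jq f.2 φ).choose_spec

lemma unif_zpow_inj' (φ : Emb K q) {m n : ℤ} (h : unif φ ^ m = unif φ ^ n) : m = n :=
  (zpow_right_inj₀ (unif_pos φ) (unif_lt_one φ).ne).1 h

/-- the order homomorphism on the semilocal units -/
noncomputable def ordJHom : Jq K q →* Multiplicative (Orb K q → ℤ) where
  toFun f := Multiplicative.ofAdd (fun o => ordJ f (Quotient.out o))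
  map_one' := by
    have : ∀ φ : Emb K q, ordJ (1 : Jq K q) φ = 0 := by
      intro φ
      apply unif_zpow_inj' φ
      rw [← norm_eq_ordJ]
      simp
    simp only [this]
    rfl
  map_mul' f g := by
    have : ∀ φ : Emb K q, ordJ (f * g) φ = ordJ f φ + ordJ g φ := by
      intro φ
      apply unif_zpow_inj' φ
      rw [zpow_add₀ (unif_pos φ).ne', ← norm_eq_ordJ, ← norm_eq_ordJ, ← norm_eq_ordJ, ← norm_mul]
      rfl
    simp only [this]
    rfl

omit [NumberField K] in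
lemma exists_smul_out (φ : Emb K q) :
    ∃ τ : Gq q, τ • (Quotient.out (Quotient.mk _ φ : Orb K q)) = φ := by
  have h : (Quotient.mk _ (Quotient.out (Quotient.mk _ φ : Orb K q)) : Orb K q) =
    (Quotient.mk _ φ : Orb K q) := Quotient.out_eq _
  have h2 := Quotient.exact h
  obtain ⟨τ, hτ⟩ := h2
  refine ⟨τ⁻¹, ?_⟩
  have hτ' : τ • φ = Quotient.out (Quotient.mk _ φ : Orb K q) := hτ
  rw [← hτ', inv_smul_smul]

lemma ordJHom_eq_one_iff (f : Jq K q) : ordJHom f = 1 ↔ (f : Emb K q → (Cq q)ˣ) ∈ Uq K q := by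
  constructor
  · intro h
    refine ⟨f.2, fun φ => ?_⟩
    obtain ⟨τ, hτ⟩ := exists_smul_out φ
    have h1 : ordJ f (Quotient.out (Quotient.mk _ φ : Orb K q)) = 0 :=
      congrFun h (Quotient.mk _ φ : Orb K q)
    have h2 := norm_eq_ordJ f (Quotient.out (Quotient.mk _ φ : Orb K q))
    rw [h1, zpow_zero] at h2
    rw [← hτ, f.2 τ, norm_gq, h2]
  · intro h
    have : ∀ φ : Emb K q, ordJ f φ = 0 := by
      intro φ
      apply unif_zpow_inj' φ
      rw [← norm_eq_ordJ, h.2 φ, zpow_zero]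
    show Multiplicative.ofAdd (fun o : Orb K q => ordJ f (Quotient.out o)) = 1
    simp only [this]
    rfl

lemma unif_pow_one (φ : Emb K q) : ∃ π : K, π ≠ 0 ∧ ‖φ π‖ = unif φ := by
  obtain ⟨π, hπ⟩ := (place φ).valuation_exists_uniformizer K
  have hπ0 : π ≠ 0 := by
    rintro rfl
    rw [map_zero] at hπ
    exact WithZero.coe_ne_zero hπ.symm
  refine ⟨π, hπ0, ?_⟩
  rw [norm_eq_unif_zpow φ hπ0, ord, hπ, WithZero.log_exp]
  simp

lemma ordJHom_surjective : Function.Surjective (ordJHom (K := K) (q := q)) := by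
  intro n
  choose π hπ0 hπ using fun φ : Emb K q => unif_pow_one φ
  let f : Emb K q → (Cq q)ˣ := fun φ =>
    (Units.map (φ : K →* Cq q) (Units.mk0 (π (Quotient.out (Quotient.mk _ φ : Orb K q)))
      (hπ0 _))) ^ (Multiplicative.toAdd n (Quotient.mk _ φ : Orb K q))
  have hf : f ∈ Jq K q := by
    intro τ φ
    have h1 : (Quotient.mk _ (τ • φ) : Orb K q) = Quotient.mk _ φ := Quotient.sound ⟨τ, rfl⟩
    show ((f (τ • φ) : (Cq q)ˣ) : Cq q) = τ (f φ : Cq q)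
    simp only [f, h1]
    rw [Units.val_zpow_eq_zpow_val, Units.val_zpow_eq_zpow_val, map_zpow₀]
    rfl
  refine ⟨⟨f, hf⟩, ?_⟩
  have h2 : ∀ o : Orb K q, ordJ (⟨f, hf⟩ : Jq K q) (Quotient.out o) = Multiplicative.toAdd n o := by
    intro o
    apply unif_zpow_inj' (Quotient.out o)
    rw [← norm_eq_ordJ]
    show ‖((f (Quotient.out o) : (Cq q)ˣ) : Cq q)‖ = _
    have h3 : (Quotient.mk _ (Quotient.out o) : Orb K q) = o := Quotient.out_eq o
    simp only [f, h3]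
    rw [Units.val_zpow_eq_zpow_val, norm_zpow]
    congr 1
    exact hπ _
  show Multiplicative.ofAdd (fun o : Orb K q => ordJ (⟨f, hf⟩ : Jq K q) (Quotient.out o)) = n
  simp only [h2]
  rfl

instance : Finite (Orb K q) := Finite.of_equiv _ (orbEquiv q).symm

lemma HP_of_Uq {p : ℕ} [Fact p.Prime] {c : ℕ} (h : HP p (Uq K q) c) :
    HP p (Jq K q) (c * p ^ Nat.card (Orb K q)) := by
  have hp0 : p ≠ 0 := (Fact.out : p.Prime).ne_zero
  have h2 : HP p (Multiplicative (Orb K q → ℤ)) (p ^ Nat.card (Orb K q)) := by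
    have : Fintype (Orb K q) := Fintype.ofFinite _
    have i1 : Module.Finite ℤ (Additive (Multiplicative (Orb K q → ℤ))) :=
      (inferInstance : Module.Finite ℤ (Orb K q → ℤ))
    have h3 := HP.of_fg (Multiplicative (Orb K q → ℤ)) hp0
    have h4 : finrank ℤ (Additive (Multiplicative (Orb K q → ℤ))) = Nat.card (Orb K q) := by
      rw [Nat.card_eq_fintype_card]
      exact Module.finrank_fintype_fun_eq_card (R := ℤ) (η := Orb K q)
    rwa [h4] at h3
  exact HP.mid (Subgroup.inclusion (Uq_le_Jq K q)) ordJHom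
    (Subgroup.inclusion_injective _) ordJHom_surjective
    (fun f => by
      rw [ordJHom_eq_one_iff]
      constructor
      · intro hf; exact ⟨⟨f, hf⟩, rfl⟩
      · rintro ⟨a, rfl⟩; exact a.2) h h2

end ord

section filtration

/-- the congruence subgroups -/
def Vr (K : Type*) [Field K] (q : Nat.Primes) {c : ℝ} (hc0 : 0 ≤ c) (hc : c < 1) :
    Subgroup (Emb K q → (Cq q)ˣ) where
  carrier := {f | f ∈ Jq K q ∧ ∀ φ, ‖1 - (f φ : Cq q)‖ ≤ c}
  mul_mem' := by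
    rintro a b ⟨ha, ha'⟩ ⟨hb, hb'⟩
    refine ⟨mul_mem ha hb, fun φ => ?_⟩
    have h1 : ‖(a φ : Cq q)‖ = 1 := norm_eq_one_of_close ((ha' φ).trans_lt hc)
    have h2 : 1 - ((a * b) φ : Cq q) = (1 - (a φ : Cq q)) + (a φ : Cq q) * (1 - (b φ : Cq q)) := by
      simp; ring
    rw [h2]
    refine (PadicAlgCl.isNonarchimedean q _ _).trans (max_le (ha' φ) ?_)
    rw [norm_mul, h1, one_mul]; exact hb' φ
  one_mem' := ⟨one_mem _, fun φ => by simpa using hc0⟩
  inv_mem' := by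
    rintro a ⟨ha, ha'⟩
    refine ⟨inv_mem ha, fun φ => ?_⟩
    have h1 : ‖(a φ : Cq q)‖ = 1 := norm_eq_one_of_close ((ha' φ).trans_lt hc)
    have h0 : (a φ : Cq q) ≠ 0 := (a φ).ne_zero
    have h2 : 1 - ((a⁻¹) φ : Cq q) = -((a φ : Cq q)⁻¹ * (1 - (a φ : Cq q))) := by
      simp only [Pi.inv_apply, Units.val_inv_eq_inv_val]
      field_simp; ring
    rw [h2, norm_neg, norm_mul, norm_inv, h1, inv_one, one_mul]
    exact ha' φ

variable {c : ℝ} {hc0 : 0 ≤ c} {hc : c < 1}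

omit [NumberField K] in
lemma mem_Vr {f : Emb K q → (Cq q)ˣ} :
    f ∈ Vr K q hc0 hc ↔ f ∈ Jq K q ∧ ∀ φ, ‖1 - (f φ : Cq q)‖ ≤ c := Iff.rfl

omit [NumberField K] in
lemma Vr_le_Uq : Vr K q hc0 hc ≤ Uq K q := fun _ hf =>
  ⟨hf.1, fun φ => norm_eq_one_of_close ((hf.2 φ).trans_lt hc)⟩

omit [NumberField K] in
/-- criterion for a ratio to be in the congruence subgroup -/
lemma inv_mul_mem_Vr {f g : Emb K q → (Cq q)ˣ} (hf : f ∈ Uq K q) (hg : g ∈ Uq K q)
    (h : ∀ φ, ‖(f φ : Cq q) - (g φ : Cq q)‖ ≤ c) : f⁻¹ * g ∈ Vr K q hc0 hc := by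
  refine ⟨mul_mem (inv_mem hf.1) hg.1, fun φ => ?_⟩
  have h0 : (f φ : Cq q) ≠ 0 := (f φ).ne_zero
  have h2 : 1 - ((f⁻¹ * g) φ : Cq q) = (f φ : Cq q)⁻¹ * ((f φ : Cq q) - (g φ : Cq q)) := by
    simp only [Pi.mul_apply, Pi.inv_apply, Units.val_mul, Units.val_inv_eq_inv_val]
    field_simp
  rw [h2, norm_mul, norm_inv, hf.2 φ, inv_one, one_mul]
  exact h φ

lemma finite_quot (n : ℕ) (hn : n ≠ 0) (hc' : ‖(n : Cq q)‖ ≤ c) :
    Finite (Uq K q ⧸ (Vr K q hc0 hc).subgroupOf (Uq K q)) := by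
  have hI : Ideal.span {(n : 𝓞 K)} ≠ ⊥ := by
    rw [Ne, Ideal.span_singleton_eq_bot]; exact_mod_cast hn
  have hfin : Finite (𝓞 K ⧸ Ideal.span {(n : 𝓞 K)}) := Ideal.finiteQuotientOfFreeOfNeBot _ hI
  have hnpos : 0 < ‖(n : Cq q)‖ := norm_pos_iff.2 (by exact_mod_cast hn)
  have h1 : ∀ f : Uq K q, ∃ a : 𝓞 K, ∀ φ : Emb K q,
      ‖φ (a : K) - ((f : Emb K q → (Cq q)ˣ) φ : Cq q)‖ < ‖(n : Cq q)‖ := fun f =>
    exists_integral_approx (fun φ => ((f : Emb K q → (Cq q)ˣ) φ : Cq q)) (fun τ φ => f.2.1 τ φ)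
      (fun φ => (f.2.2 φ).le) hnpos
  choose a ha using h1
  apply Finite.of_injective (fun x : Uq K q ⧸ (Vr K q hc0 hc).subgroupOf (Uq K q) =>
    Ideal.Quotient.mk (Ideal.span {(n : 𝓞 K)}) (a (Quotient.out x)))
  intro x y hxy
  rw [Ideal.Quotient.mk_eq_mk_iff_sub_mem, Ideal.mem_span_singleton] at hxy
  obtain ⟨b, hb⟩ := hxy
  have h2 : (Quotient.out x)⁻¹ * Quotient.out y ∈ (Vr K q hc0 hc).subgroupOf (Uq K q) := by
    rw [Subgroup.mem_subgroupOf]
    refine inv_mul_mem_Vr (Quotient.out x).2 (Quotient.out y).2 (fun φ => ?_)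
    have h3 := ha (Quotient.out x) φ
    have h4 := ha (Quotient.out y) φ
    have h5 : φ ((a (Quotient.out x) : 𝓞 K) : K) - φ ((a (Quotient.out y) : 𝓞 K) : K) =
        (n : Cq q) * φ (b : K) := by
      rw [← map_sub]
      have : ((a (Quotient.out x) : 𝓞 K) : K) - ((a (Quotient.out y) : 𝓞 K) : K) =
        (n : K) * (b : K) := by
          have := congrArg (fun z : 𝓞 K => (z : K)) hb
          simpa using this
      rw [this, map_mul, map_natCast]
    have h6 : (((Quotient.out x : Uq K q) : Emb K q → (Cq q)ˣ) φ : Cq q) -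
        (((Quotient.out y : Uq K q) : Emb K q → (Cq q)ˣ) φ : Cq q) =
        (-(φ ((a (Quotient.out x) : 𝓞 K) : K) -
          (((Quotient.out x : Uq K q) : Emb K q → (Cq q)ˣ) φ : Cq q)) +
        (φ ((a (Quotient.out y) : 𝓞 K) : K) -
          (((Quotient.out y : Uq K q) : Emb K q → (Cq q)ˣ) φ : Cq q))) +
        (n : Cq q) * φ (b : K) := by
      rw [← h5]; ring
    rw [h6]
    refine (PadicAlgCl.isNonarchimedean q _ _).trans (max_le ?_ ?_)
    · refine (PadicAlgCl.isNonarchimedean q _ _).trans (max_le ?_ ?_)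
      · rw [norm_neg]; exact h3.le.trans hc'
      · exact h4.le.trans hc'
    · rw [norm_mul]
      calc ‖(n : Cq q)‖ * ‖φ (b : K)‖ ≤ ‖(n : Cq q)‖ * 1 := by
            gcongr; exact norm_embedding_le_one φ b
        _ ≤ c := by rw [mul_one]; exact hc'
  rw [← QuotientGroup.eq] at h2
  rwa [QuotientGroup.out_eq', QuotientGroup.out_eq'] at h2

/-- `1 + r a` as a function -/
noncomputable def oneAdd (r : ℕ) (hr : ‖(r : Cq q)‖ < 1) (a : 𝓞 K) : Emb K q → (Cq q)ˣ := fun φ =>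
  Units.mk0 (1 + (r : Cq q) * φ (a : K)) (by
    intro h0
    have h1 : ‖(r : Cq q) * φ (a : K)‖ = 1 := by
      have : (r : Cq q) * φ (a : K) = -1 := by linear_combination h0
      rw [this, norm_neg, norm_one]
    rw [norm_mul] at h1
    have h2 : ‖(r : Cq q)‖ * ‖φ (a : K)‖ ≤ ‖(r : Cq q)‖ * 1 := by
      gcongr; exact norm_embedding_le_one φ a
    rw [h1, mul_one] at h2
    exact absurd hr (not_lt.2 h2))

omit [NumberField K] in
lemma norm_mul_emb_le (r : ℕ) (φ : Emb K q) (a : 𝓞 K) :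
    ‖(r : Cq q) * φ (a : K)‖ ≤ ‖(r : Cq q)‖ := by
  rw [norm_mul]
  calc ‖(r : Cq q)‖ * ‖φ (a : K)‖ ≤ ‖(r : Cq q)‖ * 1 := by
        gcongr; exact norm_embedding_le_one φ a
    _ = _ := mul_one _

omit [NumberField K] in
lemma oneAdd_mem (r : ℕ) (hr : ‖(r : Cq q)‖ < 1) (a : 𝓞 K) :
    oneAdd r hr a ∈ Vr K q (norm_nonneg (r : Cq q)) hr := by
  refine ⟨?_, fun φ => ?_⟩
  · intro τ φ
    show 1 + (r : Cq q) * (τ • φ) (a : K) = τ (1 + (r : Cq q) * φ (a : K))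
    rw [map_add, map_one, map_mul, map_natCast]; rfl
  · show ‖1 - (1 + (r : Cq q) * φ (a : K))‖ ≤ _
    have : (1 : Cq q) - (1 + (r : Cq q) * φ (a : K)) = -((r : Cq q) * φ (a : K)) := by ring
    rw [this, norm_neg]
    exact norm_mul_emb_le r φ a

/-- the set of algebraic integers divisible by `c` at `q`. -/
def smallInt (K : Type*) [Field K] [NumberField K] (q : Nat.Primes) (c : ℝ) (hc0 : 0 ≤ c) :
    AddSubgroup (𝓞 K) where
  carrier := {a | ∀ φ : Emb K q, ‖φ (a : K)‖ ≤ c}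
  add_mem' := by
    intro a b ha hb φ
    have h1 : φ ((a + b : 𝓞 K) : K) = φ (a : K) + φ (b : K) := by simp
    rw [h1]
    exact (PadicAlgCl.isNonarchimedean q _ _).trans (max_le (ha φ) (hb φ))
  zero_mem' := by intro φ; simpa using hc0
  neg_mem' := by
    intro a ha φ
    have h1 : φ ((-a : 𝓞 K) : K) = -φ (a : K) := by simp
    rw [h1, norm_neg]; exact ha φ

lemma mem_smallInt {c : ℝ} {hc0 : 0 ≤ c} {a : 𝓞 K} :
    a ∈ smallInt K q c hc0 ↔ ∀ φ : Emb K q, ‖φ (a : K)‖ ≤ c := Iff.rfl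

/-- `a ↦ 1 + r a` as a homomorphism to the quotient -/
noncomputable def oneAddHom (r : ℕ) (hr : ‖(r : Cq q)‖ < 1) {c : ℝ} (hc0 : 0 ≤ c) (hc : c < 1)
    (hrc : ‖(r : Cq q)‖ ^ 2 ≤ c) :
    Multiplicative (𝓞 K) →* (Vr K q (norm_nonneg (r : Cq q)) hr ⧸
      (Vr K q hc0 hc).subgroupOf (Vr K q (norm_nonneg (r : Cq q)) hr)) where
  toFun a := QuotientGroup.mk ⟨oneAdd r hr a.toAdd, oneAdd_mem r hr _⟩
  map_one' := by
    rw [← QuotientGroup.mk_one]
    congr 1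
    apply Subtype.ext
    funext φ
    apply Units.ext
    show 1 + (r : Cq q) * φ ((0 : 𝓞 K) : K) = 1
    simp
  map_mul' a b := by
    rw [← QuotientGroup.mk_mul]
    symm
    rw [eq_comm, QuotientGroup.eq, Subgroup.mem_subgroupOf]
    refine inv_mul_mem_Vr (Vr_le_Uq (oneAdd_mem r hr _))
      (mul_mem (Vr_le_Uq (oneAdd_mem r hr _)) (Vr_le_Uq (oneAdd_mem r hr _))) (fun φ => ?_)
    show ‖(1 + (r : Cq q) * φ ((a.toAdd + b.toAdd : 𝓞 K) : K)) -
      ((1 + (r : Cq q) * φ (a.toAdd : K)) * (1 + (r : Cq q) * φ (b.toAdd : K)))‖ ≤ c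
    have h1 : φ ((a.toAdd + b.toAdd : 𝓞 K) : K) = φ (a.toAdd : K) + φ (b.toAdd : K) := by simp
    have h2 : (1 + (r : Cq q) * (φ (a.toAdd : K) + φ (b.toAdd : K))) -
      ((1 + (r : Cq q) * φ (a.toAdd : K)) * (1 + (r : Cq q) * φ (b.toAdd : K))) =
      -(((r : Cq q) * φ (a.toAdd : K)) * ((r : Cq q) * φ (b.toAdd : K))) := by ring
    rw [h1, h2, norm_neg, norm_mul]
    calc _ ≤ ‖(r : Cq q)‖ * ‖(r : Cq q)‖ :=
          mul_le_mul (norm_mul_emb_le r φ _) (norm_mul_emb_le r φ _) (norm_nonneg _)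
            (norm_nonneg _)
      _ ≤ c := by rw [← sq]; exact hrc

lemma oneAddHom_surjective (r : ℕ) (hr : ‖(r : Cq q)‖ < 1) (hr0 : r ≠ 0) {c : ℝ} (hc0 : 0 < c)
    (hc : c < 1) (hrc : ‖(r : Cq q)‖ ^ 2 ≤ c) :
    Function.Surjective (oneAddHom (K := K) r hr hc0.le hc hrc) := by
  intro x
  obtain ⟨f, rfl⟩ := QuotientGroup.mk_surjective x
  have hrpos : 0 < ‖(r : Cq q)‖ := norm_pos_iff.2 (by exact_mod_cast hr0)
  have hr0' : (r : Cq q) ≠ 0 := by exact_mod_cast hr0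
  obtain ⟨a, ha⟩ := exists_integral_approx
    (fun φ => (((f : Emb K q → (Cq q)ˣ) φ : Cq q) - 1) / (r : Cq q))
    (fun τ φ => by
      have := f.2.1 τ φ
      show (((f : Emb K q → (Cq q)ˣ) (τ • φ) : Cq q) - 1) / (r : Cq q) = _
      rw [this, map_div₀, map_sub, map_one, map_natCast])
    (fun φ => by
      rw [norm_div, div_le_one hrpos, ← norm_neg, neg_sub]
      exact f.2.2 φ) (ε := c / ‖(r : Cq q)‖) (by positivity)
  refine ⟨Multiplicative.ofAdd a, ?_⟩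
  show QuotientGroup.mk _ = _
  rw [QuotientGroup.eq, Subgroup.mem_subgroupOf]
  refine inv_mul_mem_Vr (Vr_le_Uq (oneAdd_mem r hr _)) (Vr_le_Uq f.2) (fun φ => ?_)
  show ‖(1 + (r : Cq q) * φ (a : K)) - ((f : Emb K q → (Cq q)ˣ) φ : Cq q)‖ ≤ c
  have h1 : (1 + (r : Cq q) * φ (a : K)) - ((f : Emb K q → (Cq q)ˣ) φ : Cq q) =
    (r : Cq q) * (φ (a : K) - (((f : Emb K q → (Cq q)ˣ) φ : Cq q) - 1) / (r : Cq q)) := by
      field_simp; ring
  rw [h1, norm_mul]
  have h2 := ha φ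
  rw [lt_div_iff₀ hrpos] at h2
  rw [mul_comm]
  exact h2.le

lemma oneAddHom_ker (r : ℕ) (hr : ‖(r : Cq q)‖ < 1) (hr0 : r ≠ 0) {d : ℝ} (hd0 : 0 ≤ d)
    (hc0 : 0 ≤ ‖(r : Cq q)‖ * d) (hc : ‖(r : Cq q)‖ * d < 1)
    (hrc : ‖(r : Cq q)‖ ^ 2 ≤ ‖(r : Cq q)‖ * d) :
    (oneAddHom (K := K) r hr hc0 hc hrc).ker = AddSubgroup.toSubgroup (smallInt K q d hd0) := by
  have hrpos : 0 < ‖(r : Cq q)‖ := norm_pos_iff.2 (by exact_mod_cast hr0)
  ext a
  rw [MonoidHom.mem_ker]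
  show QuotientGroup.mk _ = _ ↔ a.toAdd ∈ smallInt K q d hd0
  rw [QuotientGroup.eq_one_iff, Subgroup.mem_subgroupOf, mem_smallInt]
  show (oneAdd r hr a.toAdd ∈ Vr K q hc0 hc) ↔ _
  rw [mem_Vr]
  have h1 : ∀ φ : Emb K q, ‖1 - ((oneAdd r hr a.toAdd φ : (Cq q)ˣ) : Cq q)‖ =
      ‖(r : Cq q)‖ * ‖φ (a.toAdd : K)‖ := by
    intro φ
    show ‖1 - (1 + (r : Cq q) * φ (a.toAdd : K))‖ = _
    have : (1 : Cq q) - (1 + (r : Cq q) * φ (a.toAdd : K)) = -((r : Cq q) * φ (a.toAdd : K)) := by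
      ring
    rw [this, norm_neg, norm_mul]
  constructor
  · rintro ⟨-, h⟩ φ
    have h2 := h φ
    rw [h1] at h2
    exact le_of_mul_le_mul_left h2 hrpos
  · intro h
    refine ⟨(oneAdd_mem r hr _).1, fun φ => ?_⟩
    rw [h1]
    gcongr
    exact h φ

lemma relIndex_Vr (r : ℕ) (hr : ‖(r : Cq q)‖ < 1) (hr0 : r ≠ 0) {d : ℝ} (hd0 : 0 < d)
    (hc0 : 0 ≤ ‖(r : Cq q)‖ * d) (hc : ‖(r : Cq q)‖ * d < 1)
    (hrc : ‖(r : Cq q)‖ ≤ d) :
    (Vr K q hc0 hc).relIndex (Vr K q (norm_nonneg (r : Cq q)) hr) =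
      (smallInt K q d hd0.le).index := by
  have hrpos : 0 < ‖(r : Cq q)‖ := norm_pos_iff.2 (by exact_mod_cast hr0)
  have hrc' : ‖(r : Cq q)‖ ^ 2 ≤ ‖(r : Cq q)‖ * d := by
    rw [sq]; gcongr
  have h1 := oneAddHom_surjective (K := K) r hr hr0 (c := ‖(r : Cq q)‖ * d) (by positivity) hc hrc'
  have h2 := oneAddHom_ker (K := K) r hr hr0 hd0.le hc0 hc hrc'
  have h3 := Subgroup.index_ker (oneAddHom (K := K) r hr hc0 hc hrc')
  rw [h2, MonoidHom.range_eq_top.2 h1, Subgroup.card_top] at h3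
  have h4 : (AddSubgroup.toSubgroup (smallInt K q d hd0.le)).index =
    (smallInt K q d hd0.le).index := rfl
  rw [← h4, h3]
  rfl

end filtration

section small

omit [NumberField K] in
/-- equivariant functions close to `1` are `p`-th powers of functions close to `1`. -/
theorem exists_pow_of_close' (p : ℕ) [hp : Fact p.Prime] {f : Emb K q → (Cq q)ˣ} (hf : f ∈ Jq K q)
    (h : ∀ φ, ‖1 - (f φ : Cq q)‖ < ‖(p : Cq q)‖ ^ 2) :
    ∃ g : Emb K q → (Cq q)ˣ, (g ∈ Jq K q ∧ ∀ φ, ‖1 - (g φ : Cq q)‖ ^ (p - 1) < ‖(p : Cq q)‖) ∧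
      g ^ p = f := by
  choose w hw1 hw2 using fun φ => exists_close_root p (h φ)
  have hw0 : ∀ φ, w φ ≠ 0 := by
    intro φ h0
    have := hw1 φ
    rw [h0, zero_pow hp.out.ne_zero] at this
    exact (f φ).ne_zero this.symm
  refine ⟨fun φ => Units.mk0 (w φ) (hw0 φ), ⟨?_, fun φ => hw2 φ⟩, ?_⟩
  · intro τ φ
    show w (τ • φ) = τ (w φ)
    apply close_root_unique p
    · rw [hw1, ← map_pow, hw1]
      exact hf τ φ
    · exact hw2 _
    · have : 1 - τ (w φ) = τ (1 - w φ) := by simp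
      rw [this, norm_gq]
      exact hw2 φ
  · funext φ
    apply Units.ext
    simp [hw1 φ]

variable {p : ℕ} [Fact p.Prime]

lemma smallInt_one : smallInt K q 1 zero_le_one = ⊤ := by
  rw [eq_top_iff]
  intro a _ φ
  exact norm_embedding_le_one φ a

lemma smallInt_q : smallInt K q ‖((q : ℕ) : Cq q)‖ (norm_nonneg _) =
    (nsmulAddMonoidHom (α := 𝓞 K) (q : ℕ)).range := by
  ext a
  rw [mem_smallInt]
  constructor
  · intro h
    have hq0 : ((q : ℕ) : K) ≠ 0 := by exact_mod_cast q.2.ne_zero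
    obtain ⟨b, hb⟩ := exists_integral_of_norm_le_one (y := (a : K) / ((q : ℕ) : K)) (by
      intro r φ
      by_cases hr : r = q
      · subst hr
        rw [map_div₀, norm_div, map_natCast]
        have h0 : 0 < ‖((r : ℕ) : Cq r)‖ := norm_pos_iff.2 (by exact_mod_cast r.2.ne_zero)
        rw [div_le_one h0]
        exact h φ
      · rw [map_div₀, norm_div, map_natCast, norm_prime_ne hr, div_one]
        exact norm_embedding_le_one φ a)
    refine ⟨b, ?_⟩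
    have h2 : ((((q : ℕ) : 𝓞 K) * b : 𝓞 K) : K) = (a : K) := by
      have h3 : ((((q : ℕ) : 𝓞 K) * b : 𝓞 K) : K) = ((q : ℕ) : K) * (b : K) := by simp
      rw [h3, hb]; field_simp
    apply FaithfulSMul.algebraMap_injective (𝓞 K) K
    show algebraMap (𝓞 K) K ((q : ℕ) • b : 𝓞 K) = (a : K)
    rw [nsmul_eq_mul]
    exact h2
  · rintro ⟨b, rfl⟩ φ
    show ‖φ (((q : ℕ) • b : 𝓞 K) : K)‖ ≤ _
    have : φ (((q : ℕ) • b : 𝓞 K) : K) = ((q : ℕ) : Cq q) * φ (b : K) := by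
      rw [nsmul_eq_mul]; simp
    rw [this]
    exact norm_mul_emb_le _ _ _

lemma index_smallInt_q : (smallInt K q ‖((q : ℕ) : Cq q)‖ (norm_nonneg _)).index =
    (q : ℕ) ^ finrank ℚ K := by
  rw [smallInt_q, AddSubgroup.index_range_nsmul, RingOfIntegers.rank]

omit K in
/-- norm of `1 - w^p` for `w` close to `1`. -/
lemma norm_one_sub_pow {q : Nat.Primes} (p : ℕ) [Fact p.Prime] {w : Cq q}
    (hw : ‖1 - w‖ ^ (p - 1) < ‖(p : Cq q)‖) :
    ‖1 - w ^ p‖ = ‖(p : Cq q)‖ * ‖1 - w‖ := by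
  have hp : p.Prime := Fact.out
  haveI : NeZero (p : Cq q) := ⟨Nat.cast_ne_zero.2 hp.ne_zero⟩
  obtain ⟨ζ, hζ⟩ := HasEnoughRootsOfUnity.exists_primitiveRoot (Cq q) p
  have h1 := X_pow_sub_C_eq_prod hζ hp.pos (rfl : w ^ p = w ^ p)
  have h2 : 1 - w ^ p = ∏ i ∈ Finset.range p, (1 - ζ ^ i * w) := by
    have := congrArg (Polynomial.eval 1) h1
    simpa [Polynomial.eval_prod] using this
  obtain ⟨n, hn⟩ : ∃ n, p = n + 1 := Nat.exists_eq_succ_of_ne_zero hp.ne_zero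
  have h3 := IsPrimitiveRoot.prod_one_sub_pow_eq_order (hn ▸ hζ)
  have hζn : ∀ k : ℕ, ‖ζ ^ k‖ = 1 := by
    intro k
    have h2 : ‖ζ‖ ^ p = 1 := by rw [← norm_pow, hζ.pow_eq_one, norm_one]
    rw [norm_pow, (pow_eq_one_iff_of_nonneg (norm_nonneg _) hp.ne_zero).1 h2, one_pow]
  have h4 : ∀ k ∈ Finset.range n, ‖1 - ζ ^ (k + 1) * w‖ = ‖1 - ζ ^ (k + 1)‖ := by
    intro k hk
    rw [Finset.mem_range] at hk
    have hne : ζ ^ (k + 1) ≠ 1 := hζ.pow_ne_one_of_pos_of_lt (Nat.succ_ne_zero k) (by omega)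
    have h5 : ¬ (‖1 - ζ ^ (k + 1)‖ ^ (p - 1) < ‖(p : Cq q)‖) := by
      intro hlt
      apply hne
      exact eq_one_of_close p (by rw [← pow_mul, mul_comm, pow_mul, hζ.pow_eq_one, one_pow]) hlt
    have h6 : ‖1 - w‖ < ‖1 - ζ ^ (k + 1)‖ := by
      by_contra hge
      push Not at hge
      exact h5 ((pow_le_pow_left₀ (norm_nonneg _) hge _).trans_lt hw)
    have h7 : 1 - ζ ^ (k + 1) * w = (1 - ζ ^ (k + 1)) + ζ ^ (k + 1) * (1 - w) := by ring
    rw [h7, IsUltrametricDist.norm_add_eq_max_of_norm_ne_norm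
      (by rw [norm_mul, hζn, one_mul]; exact h6.ne'), norm_mul, hζn, one_mul]
    exact max_eq_left h6.le
  rw [h2, norm_prod]
  conv_lhs => rw [hn, Finset.prod_range_succ']
  rw [Finset.prod_congr rfl h4, ← norm_prod, h3, pow_zero, one_mul]
  congr 2
  rw [hn]; push_cast; rfl

omit [NumberField K] in
lemma HP_Vr {c : ℝ} (hc0 : 0 ≤ c) (hc : c < 1) (hcp : c < ‖(p : Cq q)‖)
    (hc0' : 0 ≤ c * ‖(p : Cq q)‖) (hc' : c * ‖(p : Cq q)‖ < 1) :
    HP p (Vr K q hc0 hc) ((Vr K q hc0' hc').relIndex (Vr K q hc0 hc)) := by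
  have hp : p.Prime := Fact.out
  have hp1 : ‖(p : Cq q)‖ ≤ 1 := norm_natCast_le_one p
  have hppos : 0 < ‖(p : Cq q)‖ := norm_p_pos p
  have hpow : ∀ w : Cq q, ‖1 - w‖ ≤ c → ‖1 - w‖ ^ (p - 1) < ‖(p : Cq q)‖ := by
    intro w hw
    have h1 : p - 1 ≠ 0 := Nat.sub_ne_zero_of_lt hp.one_lt
    calc ‖1 - w‖ ^ (p - 1) ≤ ‖1 - w‖ ^ 1 :=
          pow_le_pow_of_le_one (norm_nonneg _) (hw.trans hc.le) (Nat.one_le_iff_ne_zero.2 h1)
      _ ≤ c := by rw [pow_one]; exact hw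
      _ < _ := hcp
  have hinj : Function.Injective (fun x : Vr K q hc0 hc => x ^ p) := by
    intro x y hxy
    apply Subtype.ext
    funext φ
    apply Units.ext
    have h1 := congrArg (fun z : Vr K q hc0 hc => (((z : Emb K q → (Cq q)ˣ) φ : (Cq q)ˣ) : Cq q)) hxy
    simp only [Subgroup.coe_pow, Pi.pow_apply, Units.val_pow_eq_pow_val] at h1
    exact close_root_unique p h1 (hpow _ (x.2.2 φ)) (hpow _ (y.2.2 φ))
  have h1 := HP.of_injective (p := p) (Vr K q hc0 hc) hinj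
  have h2 : (powMonoidHom p : Vr K q hc0 hc →* Vr K q hc0 hc).range =
      (Vr K q hc0' hc').subgroupOf (Vr K q hc0 hc) := by
    ext f
    rw [Subgroup.mem_subgroupOf]
    constructor
    · rintro ⟨g, rfl⟩
      refine ⟨pow_mem g.2.1 p, fun φ => ?_⟩
      show ‖1 - (((g : Emb K q → (Cq q)ˣ) φ : (Cq q)ˣ) : Cq q) ^ p‖ ≤ _
      rw [norm_one_sub_pow p (hpow _ (g.2.2 φ)), mul_comm]
      gcongr
      exact g.2.2 φ
    · intro hf
      obtain ⟨g, hg, hgf⟩ := exists_pow_of_close' (K := K) p hf.1 (fun φ => by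
        refine (hf.2 φ).trans_lt ?_
        rw [sq]
        gcongr)
      have hgc : ∀ φ, ‖1 - (g φ : Cq q)‖ ≤ c := by
        intro φ
        have h3 := norm_one_sub_pow p (hg.2 φ)
        have h4 : ((g φ : (Cq q)ˣ) : Cq q) ^ p = (((f : Emb K q → (Cq q)ˣ) φ : (Cq q)ˣ) : Cq q) := by
          rw [← hgf]; rfl
        rw [h4] at h3
        have h5 := hf.2 φ
        rw [h3, mul_comm] at h5
        exact le_of_mul_le_mul_right h5 hppos
      exact ⟨⟨g, hg.1, hgc⟩, Subtype.ext hgf⟩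
  rw [h2] at h1
  exact h1

end small

section final

variable (K q)
variable (p : ℕ) [Fact p.Prime]

lemma HP_Uq : HP p (Uq K q) (if (q : ℕ) = p then p ^ finrank ℚ K else 1) := by
  have hp : p.Prime := Fact.out
  have hq0 : ((q : ℕ) ^ 2) ≠ 0 := pow_ne_zero _ q.2.ne_zero
  have hqlt : ‖((q : ℕ) : Cq q)‖ < 1 := norm_natCast_q_lt
  have hqpos : 0 < ‖((q : ℕ) : Cq q)‖ := norm_pos_iff.2 (by exact_mod_cast q.2.ne_zero)
  have hp1 : ‖(p : Cq q)‖ ≤ 1 := norm_natCast_le_one p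
  have hppos : 0 < ‖(p : Cq q)‖ := norm_p_pos p
  have hrn : ‖(((q : ℕ) ^ 2 : ℕ) : Cq q)‖ = ‖((q : ℕ) : Cq q)‖ ^ 2 := by
    rw [Nat.cast_pow, norm_pow]
  have hr : ‖(((q : ℕ) ^ 2 : ℕ) : Cq q)‖ < 1 := by
    rw [hrn]; exact pow_lt_one₀ hqpos.le hqlt two_ne_zero
  have hrp : ‖(((q : ℕ) ^ 2 : ℕ) : Cq q)‖ < ‖(p : Cq q)‖ := by
    by_cases h : (q : ℕ) = p
    · have hpq : (p : Cq q) = ((q : ℕ) : Cq q) := congrArg (fun n : ℕ => (n : Cq q)) h.symm
      rw [hrn, hpq]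
      calc ‖((q : ℕ) : Cq q)‖ ^ 2 = ‖((q : ℕ) : Cq q)‖ * ‖((q : ℕ) : Cq q)‖ := sq _
        _ < ‖((q : ℕ) : Cq q)‖ * 1 := by gcongr
        _ = _ := mul_one _
    · have h1 : ‖(p : Cq q)‖ = 1 :=
        norm_natCast_eq_one (fun hd => h ((Nat.prime_dvd_prime_iff_eq q.2 hp).1 hd))
      rw [h1]; exact hr
  have hc0 : 0 ≤ ‖(((q : ℕ) ^ 2 : ℕ) : Cq q)‖ * ‖(p : Cq q)‖ := by positivity
  have hc : ‖(((q : ℕ) ^ 2 : ℕ) : Cq q)‖ * ‖(p : Cq q)‖ < 1 :=
    (mul_le_of_le_one_right (norm_nonneg _) hp1).trans_lt hr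
  have h1 := HP_Vr (K := K) (q := q) (p := p) (norm_nonneg _) hr hrp hc0 hc
  rw [relIndex_Vr _ hr hq0 hppos hc0 hc hrp.le] at h1
  have hfin := finite_quot (K := K) (q := q) (hc0 := norm_nonneg _) (hc := hr) _ hq0 le_rfl
  have h2 := HP.of_le (Vr_le_Uq (K := K) (q := q) (hc0 := norm_nonneg _) (hc := hr)) h1
    (HP.of_finite _ p)
  rw [mul_one] at h2
  convert! h2 using 1
  by_cases h : (q : ℕ) = p
  · rw [if_pos h]
    have h3 := index_smallInt_q (K := K) (q := q)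
    subst h
    rw [h3]
  · rw [if_neg h]
    have h1 : ‖(p : Cq q)‖ = 1 :=
      norm_natCast_eq_one (fun hd => h ((Nat.prime_dvd_prime_iff_eq q.2 hp).1 hd))
    symm
    rw [AddSubgroup.index_eq_one, eq_top_iff]
    intro a _ φ
    rw [h1]
    exact norm_embedding_le_one φ a

theorem HP_Jq : HP p (Jq K q)
    ((if (q : ℕ) = p then p ^ finrank ℚ K else 1) * p ^ Nat.card (Orb K q)) :=
  HP_of_Uq (HP_Uq K q p)

omit [NumberField K] in
lemma card_rootsOfUnity_prim {ζ : K} (hζ : IsPrimitiveRoot ζ p) :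
    Nat.card (rootsOfUnity p K) = p := by
  have : NeZero p := ⟨(Fact.out : p.Prime).ne_zero⟩
  exact hζ.card_rootsOfUnity

theorem card_ker_pow_Jq {ζ : K} (hζ : IsPrimitiveRoot ζ p) :
    Nat.card (powMonoidHom p : Jq K q →* Jq K q).ker = p ^ Nat.card (Orb K q) := by
  have hp : p.Prime := Fact.out
  have : NeZero p := ⟨hp.ne_zero⟩
  let g : (Orb K q → rootsOfUnity p K) → (powMonoidHom p : Jq K q →* Jq K q).ker := fun η =>
    ⟨⟨fun φ => Units.map (φ : K →* Cq q) (η (Quotient.mk _ φ)), by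
      intro τ φ
      have h1 : (Quotient.mk _ (τ • φ) : Orb K q) = Quotient.mk _ φ := Quotient.sound ⟨τ, rfl⟩
      show (τ • φ) ((η (Quotient.mk _ (τ • φ) : Orb K q) : Kˣ) : K) =
        τ (φ ((η (Quotient.mk _ φ : Orb K q) : Kˣ) : K))
      rw [h1]; rfl⟩, by
      rw [MonoidHom.mem_ker, powMonoidHom_apply]
      apply Subtype.ext
      funext φ
      show (Units.map (φ : K →* Cq q) (η (Quotient.mk _ φ) : Kˣ)) ^ p = 1
      rw [← map_pow, (mem_rootsOfUnity _ _).1 (η (Quotient.mk _ φ)).2, map_one]⟩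
  have hg : Function.Bijective g := by
    constructor
    · intro η η' h
      funext o
      have h1 := congrArg (fun z : (powMonoidHom p : Jq K q →* Jq K q).ker =>
        (((z : Jq K q) : Emb K q → (Cq q)ˣ) (Quotient.out o))) h
      have h2 : Units.map ((Quotient.out o : Emb K q) : K →* Cq q)
          (η (Quotient.mk _ (Quotient.out o)) : Kˣ) =
          Units.map ((Quotient.out o : Emb K q) : K →* Cq q)
          (η' (Quotient.mk _ (Quotient.out o)) : Kˣ) := h1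
      rw [show (Quotient.mk _ (Quotient.out o) : Orb K q) = o from Quotient.out_eq o] at h2
      apply Subtype.ext
      exact Units.map_injective (Quotient.out o : Emb K q).injective h2
    · intro f
      have hex : ∀ φ : Emb K q, ∃ η : rootsOfUnity p K,
          Units.map (φ : K →* Cq q) (η : Kˣ) = ((f : Jq K q) : Emb K q → (Cq q)ˣ) φ := by
        intro φ
        have hf : (((f : Jq K q) : Emb K q → (Cq q)ˣ) φ) ^ p = 1 := by
          have := f.2
          rw [MonoidHom.mem_ker, powMonoidHom_apply] at this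
          exact congrFun (congrArg Subtype.val this) φ
        have hprim : IsPrimitiveRoot (φ ζ) p := hζ.map_of_injective φ.injective
        obtain ⟨i, _, hi⟩ := hprim.eq_pow_of_pow_eq_one
          (ξ := (((f : Jq K q) : Emb K q → (Cq q)ˣ) φ : Cq q))
          (by rw [← Units.val_pow_eq_pow_val, hf]; rfl)
        have hζu : IsUnit ζ := hζ.isUnit hp.ne_zero
        refine ⟨⟨hζu.unit ^ i, ?_⟩, ?_⟩
        · rw [mem_rootsOfUnity, ← pow_mul, mul_comm, pow_mul]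
          have : hζu.unit ^ p = 1 := by
            apply Units.ext
            rw [Units.val_pow_eq_pow_val, IsUnit.unit_spec, hζ.pow_eq_one]; rfl
          rw [this, one_pow]
        · apply Units.ext
          show φ ((hζu.unit ^ i : Kˣ) : K) = _
          rw [Units.val_pow_eq_pow_val, IsUnit.unit_spec, map_pow]
          exact hi
      choose η hη using hex
      refine ⟨fun o => η (Quotient.out o), ?_⟩
      apply Subtype.ext
      apply Subtype.ext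
      funext φ
      show Units.map (φ : K →* Cq q) (η (Quotient.out (Quotient.mk _ φ : Orb K q)) : Kˣ) = _
      obtain ⟨τ, hτ⟩ := exists_smul_out φ
      have h1 := hη (Quotient.out (Quotient.mk _ φ : Orb K q))
      apply Units.ext
      have h2 := (f : Jq K q).2 τ (Quotient.out (Quotient.mk _ φ : Orb K q))
      rw [hτ, ← h1] at h2
      rw [h2]
      show φ _ = τ ((Quotient.out (Quotient.mk _ φ : Orb K q)) _)
      rw [← smul_emb_apply, hτ]
  rw [← Nat.card_congr (Equiv.ofBijective g hg), Nat.card_fun, card_rootsOfUnity_prim K p hζ]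

/-- (A) index of `p`-th powers in the semilocal units -/
theorem index_pow_Jq {ζ : K} (hζ : IsPrimitiveRoot ζ p) :
    (powMonoidHom p : Jq K q →* Jq K q).range.index =
      p ^ (2 * Nat.card (Orb K q) + if (q : ℕ) = p then finrank ℚ K else 0) := by
  rw [(HP_Jq K q p).eq, card_ker_pow_Jq K q p hζ]
  by_cases h : (q : ℕ) = p
  · rw [if_pos h, if_pos h, ← pow_add, ← pow_add]; congr 1; omega
  · rw [if_neg h, if_neg h, one_mul, ← pow_add]; congr 1; omega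

end final

end Fermat.Agent.CFT6
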