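import Mathlib
import Fermat.Agent.CFT6.SUnits

/-!
# Index of `p`-th powers in the `S`-units
-/

set_option autoImplicit false

open NumberField IsDedekindDomain Module Fermat.Agent.CFT

namespace Fermat.Agent.CFT6

variable {K : Type*} [Field K] [NumberField K]

lemma tc_of_primitiveRoot {p : ℕ} [Fact p.Prime] (hp2 : p ≠ 2) {ζ : K}
    (hζ : IsPrimitiveRoot ζ p) : IsTotallyComplex K := by
  have hp : 2 < p := lt_of_le_of_ne (Fact.out : p.Prime).two_le (Ne.symm hp2)
  exact nrRealPlaces_eq_zero_iff.1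
    (InfinitePlace.IsPrimitiveRoot.nrRealPlaces_eq_zero_of_two_lt hp hζ)

lemma rank_tc (htc : IsTotallyComplex K) :
    Units.rank K + 1 = finrank ℚ K / 2 ∧ 2 * (finrank ℚ K / 2) = finrank ℚ K := by
  have h1 : InfinitePlace.nrRealPlaces K = 0 := nrRealPlaces_eq_zero_iff.2 htc
  have h2 := InfinitePlace.card_add_two_mul_card_eq_rank K
  have h3 := InfinitePlace.card_eq_nrRealPlaces_add_nrComplexPlaces K
  rw [h1, zero_add] at h2 h3
  have h4 : 0 < Fintype.card (InfinitePlace K) := Fintype.card_pos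
  rw [Units.rank]
  omega

lemma rank_of_primitiveRoot {p : ℕ} [Fact p.Prime] (hp2 : p ≠ 2) {ζ : K}
    (hζ : IsPrimitiveRoot ζ p) :
    Units.rank K + 1 = finrank ℚ K / 2 ∧ 2 * (finrank ℚ K / 2) = finrank ℚ K :=
  rank_tc (tc_of_primitiveRoot hp2 hζ)

lemma norm_eq_one_of_pow {q : Nat.Primes} {y : Cq q} {n : ℕ} (hn : n ≠ 0) (h : y ^ n = 1) :
    ‖y‖ = 1 := by
  have h1 : ‖y‖ ^ n = 1 := by rw [← norm_pow, h, norm_one]
  exact (pow_eq_one_iff_of_nonneg (norm_nonneg _) hn).1 h1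

omit [NumberField K] in
/-- the `p`-torsion of the `S`-units -/
lemma card_ker_pow_SUnits (p : ℕ) [Fact p.Prime] {ζ : K} (hζ : IsPrimitiveRoot ζ p)
    (S : Finset Nat.Primes) :
    Nat.card (powMonoidHom p : SUnits K S →* SUnits K S).ker = p := by
  have hp0 : p ≠ 0 := (Fact.out : p.Prime).ne_zero
  have : NeZero p := ⟨hp0⟩
  let e : (powMonoidHom p : SUnits K S →* SUnits K S).ker ≃ rootsOfUnity p K :=
    { toFun := fun x => ⟨(x.1 : Kˣ), by
        have h := x.2
        rw [MonoidHom.mem_ker, powMonoidHom_apply] at h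
        rw [mem_rootsOfUnity]
        exact congrArg (fun z : SUnits K S => (z : Kˣ)) h⟩
      invFun := fun x => ⟨⟨x.1, fun q _ φ => norm_eq_one_of_pow hp0 (by
        rw [← map_pow, ← Units.val_pow_eq_pow_val, (mem_rootsOfUnity _ _).1 x.2]; simp)⟩, by
        rw [MonoidHom.mem_ker, powMonoidHom_apply]
        exact Subtype.ext ((mem_rootsOfUnity _ _).1 x.2)⟩
      left_inv := fun x => rfl
      right_inv := fun x => rfl }
  rw [Nat.card_congr e, hζ.card_rootsOfUnity]

/-- `[E_S : E_S^p]` -/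
theorem index_pow_SUnits_tc (p : ℕ) [Fact p.Prime] (htc : IsTotallyComplex K) {ζ : K}
    (hζ : IsPrimitiveRoot ζ p) (S : Finset Nat.Primes) :
    (powMonoidHom p : SUnits K S →* SUnits K S).range.index =
      p ^ (∑ q ∈ S, Nat.card (Orb K q) + finrank ℚ K / 2) := by
  have hp0 : p ≠ 0 := (Fact.out : p.Prime).ne_zero
  rw [Herbrand.index_range_pow_fg _ hp0, card_ker_pow_SUnits p hζ, finrank_SUnits, ← pow_succ]
  have := (rank_tc htc).1
  congr 1
  omega

/-- `[E_S : E_S^p]` -/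
theorem index_pow_SUnits (p : ℕ) [Fact p.Prime] (hp2 : p ≠ 2) {ζ : K} (hζ : IsPrimitiveRoot ζ p)
    (S : Finset Nat.Primes) :
    (powMonoidHom p : SUnits K S →* SUnits K S).range.index =
      p ^ (∑ q ∈ S, Nat.card (Orb K q) + finrank ℚ K / 2) :=
  index_pow_SUnits_tc p (tc_of_primitiveRoot hp2 hζ) hζ S

end Fermat.Agent.CFT6
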