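import Mathlib
import Fermat.Agent.CFT.CS
import Fermat.Agent.CFT6.JqIndex
import Fermat.Agent.CFT6.ClassFin
import Fermat.Agent.CFT6.PowIndex

/-!
# The `p`-Herbrand quotient of the `S`-idele class group
-/

set_option autoImplicit false

open NumberField IsDedekindDomain Module Fermat.Agent.CFT Fermat.Agent.Herbrand

namespace Fermat.Agent.CFT6

noncomputable instance instCommGroupCS {K : Type*} [Field K] [NumberField K]
    (S : Finset Nat.Primes) : CommGroup (CS K S) := QuotientGroup.Quotient.commGroup (CSker K S)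

section ext

variable {K : Type*} [Field K] (S : Finset Nat.Primes)

open Classical in
/-- extension by `1` of a family of semilocal units -/
noncomputable def extS : (∀ q : S, Jq K q.1) →* Idele K where
  toFun f := ⟨fun q => if h : q ∈ S then (f ⟨q, h⟩ : Emb K q → (Cq q)ˣ) else 1, by
    constructor
    · intro q
      show (if h : q ∈ S then (f ⟨q, h⟩ : Emb K q → (Cq q)ˣ) else 1) ∈ Jq K q
      by_cases h : q ∈ S
      · rw [dif_pos h]; exact (f ⟨q, h⟩).2
      · rw [dif_neg h]; exact one_mem _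
    · refine (S.finite_toSet).subset ?_
      rintro q ⟨φ, hφ⟩
      by_contra h
      have h1 : (if h : q ∈ S then (f ⟨q, h⟩ : Emb K q → (Cq q)ˣ) else 1) =
        (1 : Emb K q → (Cq q)ˣ) := dif_neg h
      apply hφ
      show ‖(((if h : q ∈ S then (f ⟨q, h⟩ : Emb K q → (Cq q)ˣ) else
        (1 : Emb K q → (Cq q)ˣ) : Emb K q → (Cq q)ˣ) φ : (Cq q)ˣ) : Cq q)‖ = 1
      rw [h1]; simp⟩
  map_one' := by
    apply Subtype.ext
    funext q
    by_cases h : q ∈ S <;> simp [h]
  map_mul' f g := by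
    apply Subtype.ext
    funext q
    by_cases h : q ∈ S <;> simp [h]

lemma extS_of_mem (f : ∀ q : S, Jq K q.1) {q : Nat.Primes} (h : q ∈ S) :
    (extS S f).1 q = (f ⟨q, h⟩ : Emb K q → (Cq q)ˣ) := dif_pos h

lemma extS_of_notMem (f : ∀ q : S, Jq K q.1) {q : Nat.Primes} (h : q ∉ S) :
    (extS S f).1 q = 1 := dif_neg h

/-- the `S`-components of an idele -/
def resS (f : Idele K) : ∀ q : S, Jq K q.1 := fun q => ⟨f.1 q.1, f.2.1 q.1⟩

lemma extS_resS_of_mem (f : Idele K) {q : Nat.Primes} (h : q ∈ S) :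
    (extS S (resS S f)).1 q = f.1 q := by
  rw [extS_of_mem S _ h]; rfl

end ext

variable {K : Type*} [Field K] [NumberField K] (S : Finset Nat.Primes)

/-- `S`-units in the semilocal units -/
noncomputable def sunitsTo : SUnits K S →* (∀ q : S, Jq K q.1) where
  toFun x := resS S (princ K x)
  map_one' := by
    funext q
    apply Subtype.ext
    show (princ K (1 : Kˣ)).1 q.1 = 1
    rw [map_one]; rfl
  map_mul' x y := by
    funext q
    apply Subtype.ext
    show (princ K ((x * y : SUnits K S) : Kˣ)).1 q.1 = (princ K (x : Kˣ)).1 q.1 * (princ K (y : Kˣ)).1 q.1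
    rw [Subgroup.coe_mul, map_mul]; rfl

lemma princ_one_apply (x : Kˣ) (q : Nat.Primes) (φ : Emb K q) :
    ((princ K x).1 q φ : Cq q) = φ (x : K) := rfl

lemma princ_comp_injective {q : Nat.Primes} {x y : Kˣ} (h : (princ K x).1 q = (princ K y).1 q) :
    x = y := by
  obtain ⟨φ⟩ : Nonempty (Emb K q) := inferInstance
  have h1 := congrArg (fun u : (Cq q)ˣ => (u : Cq q)) (congrFun h φ)
  apply Units.ext
  exact φ.injective h1

lemma sunitsTo_injective (hS : S.Nonempty) : Function.Injective (sunitsTo (K := K) S) := by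
  intro x y hxy
  obtain ⟨q, hq⟩ := hS
  have h1 := congrArg Subtype.val (congrFun hxy ⟨q, hq⟩)
  apply Subtype.ext
  exact princ_comp_injective h1

/-- the map from the semilocal units to the `S`-class group. -/
noncomputable def JStoCS : (∀ q : S, Jq K q.1) →* CS K S :=
  (QuotientGroup.mk' (CSker K S)).comp (extS S)

lemma JStoCS_eq_one_iff (f : ∀ q : S, Jq K q.1) :
    JStoCS S f = 1 ↔ ∃ x, sunitsTo S x = f := by
  show QuotientGroup.mk (extS S f) = _ ↔ _
  rw [QuotientGroup.eq_one_iff, CSker, Subgroup.mem_sup]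
  constructor
  · rintro ⟨_, ⟨x, rfl⟩, u, hu, h⟩
    have hx : x ∈ SUnits K S := by
      intro q hq φ
      have h1 : (princ K x * u).1 q = (extS S f).1 q := by rw [h]
      rw [extS_of_notMem S f hq] at h1
      have h2 : (princ K x).1 q φ * u.1 q φ = 1 := congrFun h1 φ
      have h3 : ‖((princ K x).1 q φ : Cq q)‖ * ‖(u.1 q φ : Cq q)‖ = 1 := by
        rw [← norm_mul, ← Units.val_mul, h2]; simp
      rw [(hu.2 q hq).2 φ, mul_one] at h3
      exact h3
    refine ⟨⟨x, hx⟩, ?_⟩
    funext q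
    apply Subtype.ext
    show (princ K x).1 q.1 = _
    have h1 : (princ K x * u).1 q.1 = (extS S f).1 q.1 := by rw [h]
    rw [extS_of_mem S f q.2] at h1
    rw [← h1]
    have h2 : (princ K x * u).1 q.1 = (princ K x).1 q.1 * u.1 q.1 := rfl
    rw [h2, hu.1 q.1 q.2, mul_one]
  · rintro ⟨x, rfl⟩
    refine ⟨princ K x, ⟨x, rfl⟩, (princ K (x : Kˣ))⁻¹ * extS S (sunitsTo S x), ⟨?_, ?_⟩, by group⟩
    · intro q hq
      show ((princ K (x : Kˣ)).1 q)⁻¹ * (extS S (sunitsTo S x)).1 q = 1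
      rw [extS_of_mem S _ hq, inv_mul_eq_one]
      rfl
    · intro q hq
      show ((princ K (x : Kˣ)).1 q)⁻¹ * (extS S (sunitsTo S x)).1 q ∈ Uq K q
      rw [extS_of_notMem S _ hq, mul_one]
      apply inv_mem
      exact ⟨(princ K (x : Kˣ)).2.1 q, fun φ => x.2 q hq φ⟩

lemma mem_range_JStoCS_of_unitIdele {u : Idele K} (hu : u ∈ unitIdele K) :
    (QuotientGroup.mk u : CS K S) ∈ (JStoCS (K := K) S).range := by
  refine ⟨resS S u, ?_⟩
  show QuotientGroup.mk (extS S (resS S u)) = _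
  rw [QuotientGroup.eq, CSker]
  apply Subgroup.mem_sup_right
  refine ⟨?_, ?_⟩
  · intro q hq
    show ((extS S (resS S u)).1 q)⁻¹ * u.1 q = 1
    rw [extS_resS_of_mem S u hq, inv_mul_cancel]
  · intro q hq
    show ((extS S (resS S u)).1 q)⁻¹ * u.1 q ∈ Uq K q
    rw [extS_of_notMem S _ hq, inv_one, one_mul]
    exact ⟨u.2.1 q, fun φ => hu q φ⟩

lemma finite_CS_quot : Finite (CS K S ⧸ (JStoCS (K := K) S).range) := by
  have hfin := finite_quotient_princUnit (K := K)
  let g : Idele K →* CS K S ⧸ (JStoCS (K := K) S).range :=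
    (QuotientGroup.mk' _).comp (QuotientGroup.mk' (CSker K S))
  have hg : princUnit K ≤ g.ker := by
    apply sup_le
    · rintro _ ⟨x, rfl⟩
      rw [MonoidHom.mem_ker]
      show (QuotientGroup.mk (QuotientGroup.mk (princ K x) : CS K S) :
        CS K S ⧸ (JStoCS (K := K) S).range) = 1
      have h1 : (QuotientGroup.mk (princ K x) : CS K S) = 1 := by
        rw [QuotientGroup.eq_one_iff]
        exact Subgroup.mem_sup_left ⟨x, rfl⟩
      rw [h1]; rfl
    · intro u hu
      rw [MonoidHom.mem_ker]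
      show (QuotientGroup.mk (QuotientGroup.mk u : CS K S) :
        CS K S ⧸ (JStoCS (K := K) S).range) = 1
      rw [QuotientGroup.eq_one_iff]
      exact mem_range_JStoCS_of_unitIdele S hu
  apply Finite.of_surjective (QuotientGroup.lift (princUnit K) g hg)
  intro x
  obtain ⟨y, rfl⟩ := QuotientGroup.mk_surjective x
  obtain ⟨z, rfl⟩ := QuotientGroup.mk_surjective y
  exact ⟨QuotientGroup.mk z, rfl⟩

section count

variable (p : ℕ) [Fact p.Prime]

lemma HP_JS (hpS : ∃ q ∈ S, (q : ℕ) = p) :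
    HP p (∀ q : S, Jq K q.1) (p ^ (finrank ℚ K + ∑ q ∈ S, Nat.card (Orb K q))) := by
  have h := HP.pi (p := p) S (fun q => Jq K q) _ (fun q _ => HP_Jq K q p)
  rw [Finset.prod_mul_distrib, Finset.prod_pow_eq_pow_sum] at h
  obtain ⟨q₀, hq₀, hq₀p⟩ := hpS
  have h2 : ∏ q ∈ S, (if (q : ℕ) = p then p ^ finrank ℚ K else 1) = p ^ finrank ℚ K := by
    rw [Finset.prod_eq_single q₀]
    · rw [if_pos hq₀p]
    · intro q _ hne
      rw [if_neg (fun h => hne (Subtype.ext (h.trans hq₀p.symm)))]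
    · intro h; exact absurd hq₀ h
  rw [h2, ← pow_add] at h
  exact h

lemma HP_SUnits_tc (htc : IsTotallyComplex K) :
    HP p (SUnits K S) (p ^ (finrank ℚ K / 2 - 1 + ∑ q ∈ S, Nat.card (Orb K q))) := by
  have hp0 : p ≠ 0 := (Fact.out : p.Prime).ne_zero
  have h := HP.of_fg (SUnits K S) hp0
  rw [finrank_SUnits] at h
  have h2 := (rank_tc htc).1
  have h3 : Units.rank K = finrank ℚ K / 2 - 1 := by omega
  rwa [h3] at h

/-- (B) the `p`-Herbrand quotient of the `S`-class group. -/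
theorem HP_CS_tc (htc : IsTotallyComplex K) (hpS : ∃ q ∈ S, (q : ℕ) = p) :
    HP p (CS K S) (p ^ (finrank ℚ K / 2 + 1)) := by
  have hp0 : p ≠ 0 := (Fact.out : p.Prime).ne_zero
  have hS : S.Nonempty := by obtain ⟨q, hq, -⟩ := hpS; exact ⟨q, hq⟩
  have h1 := HP_JS (K := K) S p hpS
  have h2 := HP_SUnits_tc (K := K) S p htc
  have h3 := rank_tc htc
  have h4 : p ^ (finrank ℚ K + ∑ q ∈ S, Nat.card (Orb K q)) =
      p ^ (finrank ℚ K / 2 - 1 + ∑ q ∈ S, Nat.card (Orb K q)) * p ^ (finrank ℚ K / 2 + 1) := by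
    rw [← pow_add]; congr 1; omega
  rw [h4] at h1
  have h5 : HP p (JStoCS (K := K) S).range (p ^ (finrank ℚ K / 2 + 1)) :=
    HP.right (sunitsTo S) (JStoCS (K := K) S).rangeRestrict (sunitsTo_injective S hS)
      (JStoCS (K := K) S).rangeRestrict_surjective
      (fun f => by
        rw [← JStoCS_eq_one_iff]
        exact Subtype.ext_iff) h2 h1 (pow_ne_zero _ hp0)
  have hfin := finite_CS_quot (K := K) S
  have h6 := HP.mid (JStoCS (K := K) S).range.subtype
    (QuotientGroup.mk' (JStoCS (K := K) S).range) (Subgroup.subtype_injective _)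
    (QuotientGroup.mk'_surjective _)
    (fun b => by
      rw [QuotientGroup.mk'_apply, QuotientGroup.eq_one_iff]
      constructor
      · intro hb; exact ⟨⟨b, hb⟩, rfl⟩
      · rintro ⟨a, rfl⟩; exact a.2) h5 (HP.of_finite _ p)
  rwa [mul_one] at h6

/-- (B), explicit form -/
theorem index_pow_CS_tc (htc : IsTotallyComplex K) (hpS : ∃ q ∈ S, (q : ℕ) = p) :
    (powMonoidHom p : CS K S →* CS K S).range.index =
      p ^ (finrank ℚ K / 2 + 1) * Nat.card (powMonoidHom p : CS K S →* CS K S).ker ∧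
    Nat.card (powMonoidHom p : CS K S →* CS K S).ker ≠ 0 :=
  ⟨(HP_CS_tc S p htc hpS).eq, (HP_CS_tc S p htc hpS).fin⟩

theorem index_pow_CS {ζ : K} (hp2 : p ≠ 2) (hζ : IsPrimitiveRoot ζ p)
    (hpS : ∃ q ∈ S, (q : ℕ) = p) :
    (powMonoidHom p : CS K S →* CS K S).range.index =
      p ^ (finrank ℚ K / 2 + 1) * Nat.card (powMonoidHom p : CS K S →* CS K S).ker ∧
    Nat.card (powMonoidHom p : CS K S →* CS K S).ker ≠ 0 :=
  index_pow_CS_tc S p (tc_of_primitiveRoot hp2 hζ) hpS

end count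

end Fermat.Agent.CFT6
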