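import Mathlib
import Fermat.Agent.CFT6.CSIndex

/-!
# The index lemma for the second inequality
-/

set_option autoImplicit false

open NumberField IsDedekindDomain Module Fermat.Agent.CFT Fermat.Agent.Herbrand

namespace Fermat.Agent.CFT6

variable {K : Type*} [Field K] [NumberField K]

/-- `[E_V : E_V^p] = p^(n/2 + |V|)` -/
theorem index_pow_unit_tc (p : ℕ) [Fact p.Prime] (htc : IsTotallyComplex K) {ζ : K}
    (hζ : IsPrimitiveRoot ζ p)
    (V : Set (HeightOneSpectrum (𝓞 K))) [Finite V] :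
    (powMonoidHom p : V.unit K →* V.unit K).range.index =
      p ^ (finrank ℚ K / 2 + Nat.card V) := by
  have hp0 : p ≠ 0 := (Fact.out : p.Prime).ne_zero
  have : NeZero p := ⟨hp0⟩
  let e : (powMonoidHom p : V.unit K →* V.unit K).ker ≃ rootsOfUnity p K :=
    { toFun := fun x => ⟨((x : V.unit K) : Kˣ), by
        have h := x.2
        rw [MonoidHom.mem_ker, powMonoidHom_apply] at h
        rw [mem_rootsOfUnity]
        exact congrArg (fun z : V.unit K => (z : Kˣ)) h⟩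
      invFun := fun x => ⟨⟨x.1, fun v _ => by
        have h1 : ((x : Kˣ) : K) ^ p = 1 := by
          rw [← Units.val_pow_eq_pow_val, (mem_rootsOfUnity _ _).1 x.2]; rfl
        have h2 : (v.valuation K ((x : Kˣ) : K)) ^ p = 1 := by rw [← map_pow, h1, map_one]
        exact (pow_eq_one_iff_of_nonneg zero_le hp0).1 h2⟩, by
        rw [MonoidHom.mem_ker, powMonoidHom_apply]
        exact Subtype.ext ((mem_rootsOfUnity _ _).1 x.2)⟩
      left_inv := fun x => rfl
      right_inv := fun x => rfl }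
  rw [Herbrand.index_range_pow_fg _ hp0, Nat.card_congr e, hζ.card_rootsOfUnity, finrank_unit,
    ← pow_succ]
  have := (rank_tc htc).1
  congr 1
  omega

/-- there are arbitrarily large sets `S` such that every idele is principal times a unit
outside `S`. -/
theorem exists_gen_S (S₀ : Finset Nat.Primes) : ∃ S : Finset Nat.Primes, S₀ ⊆ S ∧
    ∀ f : Idele K, ∃ x : Kˣ, ∀ q ∉ S, ∀ φ : Emb K q, ‖((f * princ K x).1 q φ : Cq q)‖ = 1 := by
  classical
  have hfin := finite_quotient_princUnit (K := K)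
  have hfin' : Fintype (Idele K ⧸ princUnit K) := Fintype.ofFinite _
  let S₁ : Finset Nat.Primes := Finset.univ.biUnion fun c : Idele K ⧸ princUnit K =>
    (Quotient.out c).2.2.toFinset
  refine ⟨S₀ ∪ S₁, Finset.subset_union_left, fun f => ?_⟩
  have h1 : (QuotientGroup.mk (Quotient.out (QuotientGroup.mk f : Idele K ⧸ princUnit K)) :
    Idele K ⧸ princUnit K) = QuotientGroup.mk f := QuotientGroup.out_eq' _
  rw [QuotientGroup.eq, princUnit, Subgroup.mem_sup] at h1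
  obtain ⟨_, ⟨x, rfl⟩, u, hu, h⟩ := h1
  refine ⟨x⁻¹, fun q hq φ => ?_⟩
  set g : Idele K := Quotient.out (QuotientGroup.mk f : Idele K ⧸ princUnit K) with hg
  have h2 : f * princ K x⁻¹ = g * u := by
    have h3 : g * (princ K x * u) = f := by rw [h]; exact mul_inv_cancel_left _ _
    rw [← h3, map_inv, mul_comm (princ K x) u, ← mul_assoc]
    exact mul_inv_cancel_right _ _
  rw [h2]
  have h4 : ‖(g.1 q φ : Cq q)‖ = 1 := by
    by_contra hne
    apply hq
    rw [Finset.mem_union]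
    right
    rw [Finset.mem_biUnion]
    exact ⟨QuotientGroup.mk f, Finset.mem_univ _, by
      rw [Set.Finite.mem_toFinset]; exact ⟨φ, hne⟩⟩
  show ‖((g.1 q φ * u.1 q φ : (Cq q)ˣ) : Cq q)‖ = 1
  rw [Units.val_mul, norm_mul, h4, hu q φ, one_mul]

section X

variable (p : ℕ) (S : Finset Nat.Primes) (T : Finset (HeightOneSpectrum (𝓞 K)))

/-- the open subgroup `∏_S (J_q)^p × ∏_T K_v^* × ∏ U_v`. -/
def DT : Subgroup (Idele K) where
  carrier := {f | (∀ q ∈ S, ∃ g ∈ Jq K q, g ^ p = f.1 q) ∧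
    ∀ q ∉ S, ∀ φ : Emb K q, place φ ∉ T → ‖(f.1 q φ : Cq q)‖ = 1}
  mul_mem' := by
    rintro a b ⟨ha, ha'⟩ ⟨hb, hb'⟩
    refine ⟨fun q hq => ?_, fun q hq φ hφ => ?_⟩
    · obtain ⟨g, hg, hga⟩ := ha q hq
      obtain ⟨h, hh, hhb⟩ := hb q hq
      exact ⟨g * h, mul_mem hg hh, by rw [mul_pow, hga, hhb]; rfl⟩
    · show ‖((a.1 q φ * b.1 q φ : (Cq q)ˣ) : Cq q)‖ = 1
      rw [Units.val_mul, norm_mul, ha' q hq φ hφ, hb' q hq φ hφ, one_mul]
  one_mem' := ⟨fun q _ => ⟨1, one_mem _, one_pow _⟩, fun q _ φ _ => by simp⟩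
  inv_mem' := by
    rintro a ⟨ha, ha'⟩
    refine ⟨fun q hq => ?_, fun q hq φ hφ => ?_⟩
    · obtain ⟨g, hg, hga⟩ := ha q hq
      exact ⟨g⁻¹, inv_mem hg, by rw [inv_pow, hga]; rfl⟩
    · show ‖(((a.1 q φ)⁻¹ : (Cq q)ˣ) : Cq q)‖ = 1
      rw [Units.val_inv_eq_inv_val, norm_inv, ha' q hq φ hφ, inv_one]

lemma mem_DT {f : Idele K} : f ∈ DT p S T ↔ (∀ q ∈ S, ∃ g ∈ Jq K q, g ^ p = f.1 q) ∧
    ∀ q ∉ S, ∀ φ : Emb K q, place φ ∉ T → ‖(f.1 q φ : Cq q)‖ = 1 := Iff.rfl

/-- the group of `S ∪ T`-units. -/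
noncomputable abbrev ET : Subgroup Kˣ := (above K S ∪ (T : Set (HeightOneSpectrum (𝓞 K)))).unit K

/-- `S ∪ T`-units in the semilocal units at `S` -/
noncomputable def ETto : ET S T →* (∀ q : S, Jq K q.1) where
  toFun x := resS S (princ K x)
  map_one' := by
    funext q
    apply Subtype.ext
    show (princ K (1 : Kˣ)).1 q.1 = 1
    rw [map_one]; rfl
  map_mul' x y := by
    funext q
    apply Subtype.ext
    show (princ K ((x * y : ET S T) : Kˣ)).1 q.1 = (princ K (x : Kˣ)).1 q.1 * (princ K (y : Kˣ)).1 q.1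
    rw [Subgroup.coe_mul, map_mul]; rfl

/-- the map from the semilocal units to the quotient. -/
noncomputable def Psi : (∀ q : S, Jq K q.1) →* Idele K ⧸ ((princ K).range ⊔ DT p S T) :=
  (QuotientGroup.mk' ((princ K).range ⊔ DT p S T)).comp (extS S)

lemma Psi_surjective
    (hgen : ∀ f : Idele K, ∃ x : Kˣ, ∀ q ∉ S, ∀ φ : Emb K q, ‖((f * princ K x).1 q φ : Cq q)‖ = 1) :
    Function.Surjective (Psi (K := K) p S T) := by
  intro y
  obtain ⟨f, rfl⟩ := QuotientGroup.mk_surjective y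
  obtain ⟨x, hx⟩ := hgen f
  refine ⟨resS S (f * princ K x), ?_⟩
  show QuotientGroup.mk (extS S (resS S (f * princ K x))) = _
  rw [QuotientGroup.eq]
  have h1 : (extS S (resS S (f * princ K x)))⁻¹ * f =
      (princ K x⁻¹) * ((extS S (resS S (f * princ K x)))⁻¹ * (f * princ K x)) := by
    rw [map_inv, ← mul_assoc, mul_comm (princ K x)⁻¹, mul_assoc, mul_comm (princ K x)⁻¹,
      mul_assoc, mul_inv_cancel, mul_one]
  rw [h1]
  refine Subgroup.mul_mem_sup ⟨x⁻¹, rfl⟩ ⟨fun q hq => ⟨1, one_mem _, ?_⟩, fun q hq φ _ => ?_⟩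
  · rw [one_pow]
    show 1 = ((extS S (resS S (f * princ K x))).1 q)⁻¹ * (f * princ K x).1 q
    rw [extS_resS_of_mem S _ hq, inv_mul_cancel]
  · have h2 : (((extS S (resS S (f * princ K x)))⁻¹ * (f * princ K x)).1 q) =
        ((extS S (resS S (f * princ K x))).1 q)⁻¹ * (f * princ K x).1 q := rfl
    rw [h2, extS_of_notMem S _ hq, inv_one, one_mul]
    exact hx q hq φ

lemma mem_above_union {S : Finset Nat.Primes} {T : Finset (HeightOneSpectrum (𝓞 K))}
    {q : Nat.Primes} (hq : q ∉ S) {φ : Emb K q} (hφ : place φ ∉ T) :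
    place φ ∉ above K S ∪ (T : Set (HeightOneSpectrum (𝓞 K))) := by
  rintro (⟨r, hr, hr'⟩ | h)
  · exact hq ((prime_unique (q_mem_place φ) hr') ▸ hr)
  · exact hφ h

lemma Psi_ker : (Psi (K := K) p S T).ker =
    (powMonoidHom p : (∀ q : S, Jq K q.1) →* (∀ q : S, Jq K q.1)).range ⊔ (ETto S T).range := by
  apply le_antisymm
  · intro f hf
    rw [MonoidHom.mem_ker] at hf
    have h1 : extS S f ∈ (princ K).range ⊔ DT p S T := by
      have : (QuotientGroup.mk (extS S f) : Idele K ⧸ ((princ K).range ⊔ DT p S T)) = 1 := hf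
      rwa [QuotientGroup.eq_one_iff] at this
    rw [Subgroup.mem_sup] at h1
    obtain ⟨_, ⟨b, rfl⟩, d, hd, h⟩ := h1
    have hb : b ∈ ET S T := by
      intro v hv
      obtain ⟨q, hq⟩ := exists_prime_mem v
      obtain ⟨φ, rfl⟩ := exists_place_eq (q := (q : ℕ)) v hq
      have hqS : q ∉ S := fun h => hv (Or.inl ⟨q, h, hq⟩)
      have hφT : place φ ∉ T := fun h => hv (Or.inr h)
      rw [valuation_eq_one_iff]
      have h1 : (princ K b * d).1 q = (extS S f).1 q := by rw [h]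
      rw [extS_of_notMem S f hqS] at h1
      have h2 : (princ K b).1 q φ * d.1 q φ = 1 := congrFun h1 φ
      have h3 : ‖((princ K b).1 q φ : Cq q)‖ * ‖(d.1 q φ : Cq q)‖ = 1 := by
        rw [← norm_mul, ← Units.val_mul, h2]; simp
      rw [hd.2 q hqS φ hφT, mul_one] at h3
      exact h3
    choose g hg hgd using hd.1
    have hf' : f = (fun q : S => (⟨g q.1 q.2, hg q.1 q.2⟩ : Jq K q.1)) ^ p * ETto S T ⟨b, hb⟩ := by
      funext q
      apply Subtype.ext
      show (f q : Emb K q.1 → (Cq q.1)ˣ) = (g q.1 q.2) ^ p * (princ K b).1 q.1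
      rw [hgd, mul_comm]
      have h1 : (princ K b * d).1 q.1 = (extS S f).1 q.1 := by rw [h]
      rw [extS_of_mem S f q.2] at h1
      exact h1.symm
    rw [hf']
    exact Subgroup.mul_mem_sup ⟨_, rfl⟩ ⟨_, rfl⟩
  · apply sup_le
    · rintro _ ⟨f, rfl⟩
      rw [MonoidHom.mem_ker]
      show (QuotientGroup.mk (extS S (f ^ p)) : Idele K ⧸ ((princ K).range ⊔ DT p S T)) = 1
      rw [QuotientGroup.eq_one_iff]
      apply Subgroup.mem_sup_right
      refine ⟨fun q hq => ⟨(f ⟨q, hq⟩ : Emb K q → (Cq q)ˣ), (f ⟨q, hq⟩).2, ?_⟩,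
        fun q hq φ _ => ?_⟩
      · rw [extS_of_mem S _ hq]; rfl
      · rw [extS_of_notMem S _ hq]; simp
    · rintro _ ⟨b, rfl⟩
      rw [MonoidHom.mem_ker]
      show (QuotientGroup.mk (extS S (resS S (princ K b))) :
        Idele K ⧸ ((princ K).range ⊔ DT p S T)) = 1
      rw [QuotientGroup.eq_one_iff]
      have h1 : extS S (resS S (princ K (b : Kˣ))) =
        princ K (b : Kˣ) * ((princ K (b : Kˣ))⁻¹ * extS S (resS S (princ K (b : Kˣ)))) := by group
      rw [h1]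
      refine Subgroup.mul_mem_sup ⟨b, rfl⟩ ⟨fun q hq => ⟨1, one_mem _, ?_⟩, fun q hq φ hφ => ?_⟩
      · rw [one_pow]
        show 1 = ((princ K (b : Kˣ)).1 q)⁻¹ * (extS S (resS S (princ K (b : Kˣ)))).1 q
        rw [extS_resS_of_mem S _ hq, inv_mul_cancel]
      · have h2 : ((princ K (b : Kˣ))⁻¹ * extS S (resS S (princ K (b : Kˣ)))).1 q =
          ((princ K (b : Kˣ)).1 q)⁻¹ * (extS S (resS S (princ K (b : Kˣ)))).1 q := rfl
        rw [h2, extS_of_notMem S _ hq, mul_one]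
        show ‖((((princ K (b : Kˣ)).1 q φ)⁻¹ : (Cq q)ˣ) : Cq q)‖ = 1
        rw [Units.val_inv_eq_inv_val, norm_inv, princ_one_apply,
          (valuation_eq_one_iff (φ := φ)).1 (b.2 _ (mem_above_union hq hφ)), inv_one]

/-- card of `p`-torsion of the semilocal units at `S`. -/
lemma card_ker_pow_JS [Fact p.Prime] {ζ : K} (hζ : IsPrimitiveRoot ζ p) :
    Nat.card (powMonoidHom p : (∀ q : S, Jq K q.1) →* (∀ q : S, Jq K q.1)).ker =
      p ^ (∑ q ∈ S, Nat.card (Orb K q)) := by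
  let e : (powMonoidHom p : (∀ q : S, Jq K q.1) →* (∀ q : S, Jq K q.1)).ker ≃
      (∀ q : S, (powMonoidHom p : Jq K q.1 →* Jq K q.1).ker) :=
    { toFun := fun f q => ⟨(f : ∀ q : S, Jq K q.1) q, by
        have := f.2
        rw [MonoidHom.mem_ker, powMonoidHom_apply] at this
        rw [MonoidHom.mem_ker, powMonoidHom_apply]
        exact congrFun this q⟩
      invFun := fun f => ⟨fun q => (f q : Jq K q.1), by
        rw [MonoidHom.mem_ker, powMonoidHom_apply]
        funext q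
        have := (f q).2
        rw [MonoidHom.mem_ker, powMonoidHom_apply] at this
        exact this⟩
      left_inv := fun f => rfl
      right_inv := fun f => rfl }
  rw [Nat.card_congr e, Nat.card_pi, ← Finset.prod_pow_eq_pow_sum]
  have h1 := Finset.prod_coe_sort S
    (fun q => Nat.card (powMonoidHom p : Jq K q →* Jq K q).ker)
  rw [← Finset.prod_congr rfl (fun q _ => card_ker_pow_Jq K q p hζ)]
  exact h1

lemma index_pow_JS_tc [Fact p.Prime] (htc : IsTotallyComplex K) {ζ : K}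
    (hζ : IsPrimitiveRoot ζ p)
    (hpS : ∃ q ∈ S, (q : ℕ) = p) :
    (powMonoidHom p : (∀ q : S, Jq K q.1) →* (∀ q : S, Jq K q.1)).range.index =
      p ^ (2 * (∑ q ∈ S, Nat.card (Orb K q) + finrank ℚ K / 2)) := by
  rw [(HP_JS (K := K) S p hpS).eq, card_ker_pow_JS p S hζ, ← pow_add]
  have := (rank_tc htc).2
  congr 1
  omega

lemma card_above_union (hT : ∀ v ∈ T, v ∉ above K S) :
    Nat.card (above K S ∪ (T : Set (HeightOneSpectrum (𝓞 K))) : Set (HeightOneSpectrum (𝓞 K))) =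
      ∑ q ∈ S, Nat.card (Orb K q) + T.card := by
  rw [← card_above, Nat.card_coe_set_eq, Set.ncard_union_eq, ← Nat.card_coe_set_eq,
    Set.ncard_coe_finset]
  · rw [Set.disjoint_left]
    intro v hv hv'
    exact hT v hv' hv

/-- (X) the index lemma -/
theorem index_princ_sup_DT_tc [Fact p.Prime] (htc : IsTotallyComplex K) {ζ : K}
    (hζ : IsPrimitiveRoot ζ p)
    (hpS : ∃ q ∈ S, (q : ℕ) = p)
    (hgen : ∀ f : Idele K, ∃ x : Kˣ, ∀ q ∉ S, ∀ φ : Emb K q, ‖((f * princ K x).1 q φ : Cq q)‖ = 1)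
    (hT : ∀ v ∈ T, v ∉ above K S)
    (hinj : ∀ b ∈ ET S T, (∀ q ∈ S, ∃ g ∈ Jq K q, g ^ p = (princ K b).1 q) →
      ∃ c : Kˣ, b = c ^ p) :
    ((princ K).range ⊔ DT p S T).index * p ^ (∑ q ∈ S, Nat.card (Orb K q) + finrank ℚ K / 2 +
      T.card) = p ^ (2 * (∑ q ∈ S, Nat.card (Orb K q) + finrank ℚ K / 2)) := by
  have hp0 : p ≠ 0 := (Fact.out : p.Prime).ne_zero
  have hfinV : Finite (above K S ∪ (T : Set (HeightOneSpectrum (𝓞 K))) :
    Set (HeightOneSpectrum (𝓞 K))) := by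
    have : Finite (T : Set (HeightOneSpectrum (𝓞 K))) := T.finite_toSet
    exact Finite.Set.finite_union _ _
  set P := (powMonoidHom p : (∀ q : S, Jq K q.1) →* (∀ q : S, Jq K q.1)).range with hP
  have h1 : ((princ K).range ⊔ DT p S T).index = (P ⊔ (ETto S T).range).index := by
    rw [hP, ← Psi_ker, Subgroup.index_ker, MonoidHom.range_eq_top.2 (Psi_surjective p S T hgen),
      Subgroup.card_top]
    rfl
  have h2 : P.relIndex (P ⊔ (ETto S T).range) * (P ⊔ (ETto S T).range).index = P.index :=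
    Subgroup.relIndex_mul_index le_sup_left
  have h3 : P.relIndex (P ⊔ (ETto S T).range) = (P.comap (ETto S T)).index := by
    rw [sup_comm, Subgroup.relIndex_sup_right, Subgroup.index_comap]
  have h4 : P.comap (ETto S T) = (powMonoidHom p : ET S T →* ET S T).range := by
    ext b
    rw [Subgroup.mem_comap]
    constructor
    · rintro ⟨f, hf⟩
      obtain ⟨c, hc⟩ := hinj b b.2 (fun q hq => ⟨(f ⟨q, hq⟩ : Emb K q → (Cq q)ˣ), (f ⟨q, hq⟩).2, by
        have := congrArg Subtype.val (congrFun hf ⟨q, hq⟩)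
        exact this⟩)
      have hcT : c ∈ ET S T := by
        intro v hv
        have h5 := b.2 v hv
        rw [hc, Units.val_pow_eq_pow_val, map_pow] at h5
        exact (pow_eq_one_iff_of_nonneg zero_le hp0).1 h5
      exact ⟨⟨c, hcT⟩, Subtype.ext hc.symm⟩
    · rintro ⟨c, rfl⟩
      rw [powMonoidHom_apply, map_pow]
      exact ⟨ETto S T c, rfl⟩
  rw [h3, h4, index_pow_unit_tc p htc hζ, card_above_union S T hT, index_pow_JS_tc p S htc hζ hpS] at h2
  rw [h1, ← h2, mul_comm]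
  congr 2
  omega

/-- (X) the index lemma -/
theorem index_princ_sup_DT [Fact p.Prime] (hp2 : p ≠ 2) {ζ : K} (hζ : IsPrimitiveRoot ζ p)
    (hpS : ∃ q ∈ S, (q : ℕ) = p)
    (hgen : ∀ f : Idele K, ∃ x : Kˣ, ∀ q ∉ S, ∀ φ : Emb K q, ‖((f * princ K x).1 q φ : Cq q)‖ = 1)
    (hT : ∀ v ∈ T, v ∉ above K S)
    (hinj : ∀ b ∈ ET S T, (∀ q ∈ S, ∃ g ∈ Jq K q, g ^ p = (princ K b).1 q) →
      ∃ c : Kˣ, b = c ^ p) :
    ((princ K).range ⊔ DT p S T).index * p ^ (∑ q ∈ S, Nat.card (Orb K q) + finrank ℚ K / 2 +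
      T.card) = p ^ (2 * (∑ q ∈ S, Nat.card (Orb K q) + finrank ℚ K / 2)) :=
  index_princ_sup_DT_tc p S T (tc_of_primitiveRoot hp2 hζ) hζ hpS hgen hT hinj

end X

end Fermat.Agent.CFT6
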