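import Mathlib
import Fermat.Agent.CFT6.CycArith
import Fermat.Agent.ExtVan.LiftInertia

/-!
# The local Galois group modulo inertia is procyclic
-/

set_option autoImplicit false

open NumberField IsDedekindDomain Module Fermat.Agent.CFT Fermat.Agent.Frob
open scoped Pointwise

namespace Fermat.Agent.CFT6

section ff

/-- endomorphisms of a finite field are powers of Frobenius -/
lemma exists_pow_of_ringHom {k : Type*} [Field k] [Finite k] {q : ℕ} [hq : Fact q.Prime] [CharP k q]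
    (s : k →+* k) : ∃ j : ℕ, ∀ x, s x = x ^ (q ^ j) := by
  let _ : Algebra (ZMod q) k := ZMod.algebra k q
  have hcomm : s.comp (algebraMap (ZMod q) k) = algebraMap (ZMod q) k := Subsingleton.elim _ _
  let s' : k →ₐ[ZMod q] k :=
    { s with commutes' := fun r => congrArg (fun g : ZMod q →+* k => g r) hcomm }
  obtain ⟨n, hn⟩ := (FiniteField.bijective_frobeniusAlgHom_pow (ZMod q) k).2 s'
  have key : ∀ (m : ℕ) (x : k), (FiniteField.frobeniusAlgHom (ZMod q) k ^ m) x = x ^ (q ^ m) := by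
    intro m
    induction m with
    | zero => intro x; simp
    | succ m ih =>
      intro x
      rw [pow_succ', AlgHom.mul_apply, ih, FiniteField.coe_frobeniusAlgHom, ZMod.card]
      simp only
      rw [← pow_mul, pow_succ]
  refine ⟨n.1, fun x => ?_⟩
  have h1 : s x = s' x := rfl
  rw [h1, ← hn]
  exact key _ _

end ff

section nf

variable {F : Type*} [Field F] [NumberField F] {q : Nat.Primes} (φ : Emb F q)

lemma norm_sub_lt_one_iff {x y : 𝓞 F} : ‖φ (x : F) - φ (y : F)‖ < 1 ↔ x - y ∈ (place φ).asIdeal := by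
  have h : (x - y ∈ (place φ).asIdeal) ↔ ‖φ ((x - y : 𝓞 F) : F)‖ < 1 := Iff.rfl
  rw [h]
  simp

/-- automorphisms preserving the place are congruent to powers of Frobenius -/
theorem exists_frob_pow (σ : F ≃ₐ[ℚ] F) (hσ : ∀ x, ‖φ (σ x)‖ = ‖φ x‖) :
    ∃ j : ℕ, ∀ x : 𝓞 F, ‖φ (σ (x : F)) - φ (x : F) ^ ((q : ℕ) ^ j)‖ < 1 := by
  let P := (place φ).asIdeal
  have hPmax : P.IsMaximal := (place φ).isMaximal
  let _ : Field (𝓞 F ⧸ P) := Ideal.Quotient.field P
  have hfin : Finite (𝓞 F ⧸ P) := Ideal.finiteQuotientOfFreeOfNeBot P (place φ).ne_bot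
  have hchar : CharP (𝓞 F ⧸ P) (q : ℕ) := by
    have h1 : ((q : ℕ) : 𝓞 F ⧸ P) = 0 := by
      rw [← map_natCast (Ideal.Quotient.mk P), Ideal.Quotient.eq_zero_iff_mem]
      exact q_mem_place φ
    exact (CharP.charP_iff_prime_eq_zero q.2).2 h1
  let σO : 𝓞 F →+* 𝓞 F := RingOfIntegers.mapRingHom (σ : F →+* F)
  have hσO : ∀ x : 𝓞 F, ((σO x : 𝓞 F) : F) = σ (x : F) := fun x => rfl
  have hle : P ≤ P.comap σO := by
    intro x hx
    show ‖φ ((σO x : 𝓞 F) : F)‖ < 1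
    rw [hσO, hσ]
    exact hx
  obtain ⟨j, hj⟩ := exists_pow_of_ringHom (q := (q : ℕ)) (Ideal.quotientMap P σO hle)
  refine ⟨j, fun x => ?_⟩
  have h1 := hj (Ideal.Quotient.mk P x)
  rw [Ideal.quotientMap_mk, ← map_pow, Ideal.Quotient.eq] at h1
  have h2 := (norm_sub_lt_one_iff φ).2 h1
  have h3 : φ ((x ^ (q : ℕ) ^ j : 𝓞 F) : F) = φ (x : F) ^ (q : ℕ) ^ j := by
    rw [← map_pow]; rfl
  rwa [hσO, h3] at h2

end nf

section qbar

variable {q : ℕ} [hq : Fact q.Prime]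

lemma mem_nonunits_padic (x : AlgebraicClosure ℚ) :
    x ∈ (padicPlace q).nonunits ↔ ‖padicEmbedding q x‖ < 1 := by
  rw [ValuationSubring.mem_nonunits_iff_or, mem_padicPlace_iff, map_inv₀, nnnorm_inv]
  constructor
  · rintro (rfl | h)
    · simp
    · push Not at h
      by_contra hcon
      push Not at hcon
      exact absurd (inv_le_one_of_one_le₀ (show (1 : NNReal) ≤ ‖padicEmbedding q x‖₊ from hcon)) (not_le.2 h)
  · intro h
    rcases eq_or_ne x 0 with rfl | hx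
    · exact Or.inl rfl
    · right
      push Not
      have h1 : 0 < ‖padicEmbedding q x‖₊ := by
        rw [nnnorm_pos]
        exact (map_ne_zero _).2 hx
      exact (one_lt_inv₀ h1).2 h

variable (q) in
lemma liesOver_padic : (padicPlace q).LiesOverPrime q := by
  show ((q : ℕ) : AlgebraicClosure ℚ) ∈ (padicPlace q).nonunits
  rw [mem_nonunits_padic, map_natCast]
  exact norm_natCast_q_lt

/-- the element of `ℤ̄` obtained from an integer of a subfield -/
lemma norm_gal_inv {q : ℕ} [Fact q.Prime] (τ : PadicAlgCl q ≃ₐ[ℚ_[q]] PadicAlgCl q) (y : PadicAlgCl q) :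
    ‖τ y‖ = ‖y‖ := (spectralNorm_eq_of_equiv τ y).symm

end qbar

section proc

variable {q : Nat.Primes} {Ω : Type*} [Field Ω] [CharZero Ω] [IsGalois ℚ Ω] (ι : Ω →+* Cq q)
  {A : ValuationSubring Ω} (hA : ∀ x, x ∈ A.nonunits ↔ ‖ι x‖ < 1) (hAq : A.LiesOverPrime (q : ℕ))
  (r : Gq q →* (Ω ≃ₐ[ℚ] Ω)) (hr : ∀ τ x, ι (r τ x) = τ (ι x))

omit [CharZero Ω] [IsGalois ℚ Ω] in
include hA in
lemma mem_center_iota (x : integralClosure ℤ Ω) : x ∈ center A ↔ ‖ι (x : Ω)‖ < 1 :=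
  (mem_center_iff A x).trans (hA _)

/-- the restriction of the `q`-adic embedding -/
noncomputable def embF (F : IntermediateField ℚ Ω) : Emb F q := ι.comp (algebraMap F Ω)

omit [IsGalois ℚ Ω] in
lemma embF_apply (F : IntermediateField ℚ Ω) (x : F) : embF ι F x = ι (x : Ω) := rfl

omit [IsGalois ℚ Ω] in
lemma isIntegral_coe {F : IntermediateField ℚ Ω} (x : 𝓞 F) : IsIntegral ℤ ((x : F) : Ω) :=
  (RingOfIntegers.isIntegral_coe x).map ((algebraMap F Ω).toIntAlgHom)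

include hA hAq hr in
/-- local Frobenius elements -/
theorem exists_frob_loc (F : IntermediateField ℚ Ω) [FiniteDimensional ℚ F] :
    ∃ (σ : Ω ≃ₐ[ℚ] Ω) (g : Gq q), A.IsFrobeniusAt σ q ∧ ∀ x ∈ F, r g x = σ x := by
  obtain ⟨σ, hσ⟩ := exists_isFrobeniusAt (L := Ω) q.2 hAq
  have hσA : σ • A = A := hσ.mem_decompositionSubgroup
  have hnf : NumberField F := ⟨⟩
  let φ' : Emb F q := ι.comp ((σ : Ω →+* Ω).comp (algebraMap F Ω))
  have h1 : place (embF ι F) = place φ' := by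
    apply HeightOneSpectrum.ext
    ext x
    let x' : integralClosure ℤ Ω := ⟨((x : F) : Ω), isIntegral_coe x⟩
    have e1 : x ∈ (place (embF ι F)).asIdeal ↔ x' ∈ center A := (mem_center_iota ι hA x').symm
    have e2 : x ∈ (place φ').asIdeal ↔ σ • x' ∈ center A := (mem_center_iota ι hA (σ • x')).symm
    rw [e1, e2]
    have h2 : center A = σ • center A := by
      rw [← center_smul, hσA]
    conv_rhs => rw [h2]
    exact (Ideal.smul_mem_pointwise_smul_iff).symm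
  obtain ⟨τ, hτ⟩ := place_eq_iff.1 h1
  refine ⟨σ, τ, hσ, fun x hx => ?_⟩
  apply ι.injective
  rw [hr]
  exact hτ ⟨x, hx⟩

omit [CharZero Ω] [IsGalois ℚ Ω] in
/-- Frobenius on algebraic integers -/
lemma frob_sub_mem [Algebra ℚ Ω] {ℓ : ℕ} {σ : Ω ≃ₐ[ℚ] Ω} (hσ : A.IsFrobeniusAt σ ℓ)
    (x : integralClosure ℤ Ω) : σ • x - x ^ ℓ ∈ center A := by
  rw [center, Ideal.mem_comap, ← IsLocalRing.residue_eq_zero_iff]
  have h := hσ.smul_residue_eq (IsLocalRing.residue A (toVal A x))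
  rw [← IsLocalRing.ResidueField.residue_smul] at h
  rw [map_sub, map_sub, map_pow, map_pow, ← h, sub_eq_zero]
  rfl

lemma norm_pow_sub_pow_lt' {q : Nat.Primes} {a b : Cq q} (ha : ‖a‖ ≤ 1) (hb : ‖b‖ ≤ 1)
    (h : ‖a - b‖ < 1) (n : ℕ) : ‖a ^ n - b ^ n‖ < 1 := by
  induction n with
  | zero => simp
  | succ n ih =>
    have e : a ^ (n + 1) - b ^ (n + 1) = a ^ n * (a - b) + (a ^ n - b ^ n) * b := by ring
    rw [e]
    refine lt_of_le_of_lt (IsUltrametricDist.norm_add_le_max _ _) (max_lt ?_ ?_)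
    · rw [norm_mul, norm_pow]
      calc ‖a‖ ^ n * ‖a - b‖ ≤ 1 * ‖a - b‖ := by
            gcongr
            exact pow_le_one₀ (norm_nonneg _) ha
        _ < 1 := by rwa [one_mul]
    · rw [norm_mul]
      calc ‖a ^ n - b ^ n‖ * ‖b‖ ≤ ‖a ^ n - b ^ n‖ * 1 := by gcongr
        _ < 1 := by rwa [mul_one]

lemma norm_sub_lt_trans {q : Nat.Primes} {a b c : Cq q} (h : ‖a - b‖ < 1) (h' : ‖b - c‖ < 1) :
    ‖a - c‖ < 1 := by
  have e : a - c = (a - b) + (b - c) := by ring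
  rw [e]
  exact lt_of_le_of_lt (IsUltrametricDist.norm_add_le_max _ _) (max_lt h h')

include hA hAq hr in
/-- Frobenius generates the local Galois group modulo inertia -/
theorem procyc (F : IntermediateField ℚ Ω) [FiniteDimensional ℚ F] [Normal ℚ F]
    (hF : A.inertiaSubgroupIn ℚ ≤ F.fixingSubgroup) {σ : Ω ≃ₐ[ℚ] Ω} (hσ : A.IsFrobeniusAt σ q)
    {g : Gq q} (hg : ∀ x ∈ F, r g x = σ x) (γ : Gq q) :
    ∃ j : ℕ, r ((g ^ j)⁻¹ * γ) ∈ F.fixingSubgroup := by
  have hnf : NumberField F := ⟨⟩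
  have hint : ∀ x : integralClosure ℤ Ω, ‖ι (x : Ω)‖ ≤ 1 := fun x =>
    Fermat.Agent.CFT.norm_le_one_of_isIntegral (x.2.map ι.toIntAlgHom)
  -- the exponent
  let σγ : F ≃ₐ[ℚ] F := (r γ).restrictNormal F
  have hσγ : ∀ x : F, ((σγ x : F) : Ω) = r γ (x : Ω) := fun x => AlgEquiv.restrictNormal_commutes (r γ) F x
  obtain ⟨j, hj⟩ := exists_frob_pow (embF ι F) σγ (by
    intro x
    rw [embF_apply, embF_apply, hσγ, hr, norm_gq])
  have hj' : ∀ x : integralClosure ℤ Ω, (x : Ω) ∈ F →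
      ‖ι (r γ (x : Ω)) - ι (x : Ω) ^ ((q : ℕ) ^ j)‖ < 1 := by
    intro x hx
    have hxi : IsIntegral ℤ (⟨(x : Ω), hx⟩ : F) := by
      have h := x.2
      exact (isIntegral_algHom_iff (algebraMap F Ω).toIntAlgHom (algebraMap F Ω).injective).1 h
    have h1 := hj ⟨⟨(x : Ω), hx⟩, hxi⟩
    rw [embF_apply, embF_apply, hσγ] at h1
    exact h1
  -- powers of Frobenius
  have hFr : ∀ (m : ℕ) (x : integralClosure ℤ Ω), (x : Ω) ∈ F →
      ‖ι (r (g ^ m) (x : Ω)) - ι (x : Ω) ^ ((q : ℕ) ^ m)‖ < 1 := by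
    intro m
    induction m with
    | zero => intro x _; simp
    | succ m ih =>
      intro x hx
      have h1 : ((r g • x : integralClosure ℤ Ω) : Ω) ∈ F := by
        show r g (x : Ω) ∈ F
        have := AlgEquiv.restrictNormal_commutes (r g) F ⟨(x : Ω), hx⟩
        have h2 : r g (x : Ω) = (((r g).restrictNormal F ⟨(x : Ω), hx⟩ : F) : Ω) := this.symm
        rw [h2]
        exact Subtype.mem _
      have h2 := ih (r g • x) h1
      have h3 : ‖ι ((r g • x : integralClosure ℤ Ω) : Ω) - ι (x : Ω) ^ (q : ℕ)‖ < 1 := by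
        have h4 := (mem_center_iota ι hA _).1 (frob_sub_mem (A := A) hσ x)
        have h5 : ι (((σ • x - x ^ (q : ℕ) : integralClosure ℤ Ω)) : Ω) =
            ι ((r g • x : integralClosure ℤ Ω) : Ω) - ι (x : Ω) ^ (q : ℕ) := by
          have h6 : (((σ • x - x ^ (q : ℕ) : integralClosure ℤ Ω)) : Ω) = σ (x : Ω) - (x : Ω) ^ (q : ℕ) := rfl
          have h7 : ((r g • x : integralClosure ℤ Ω) : Ω) = r g (x : Ω) := rfl
          rw [h6, h7, hg _ hx, map_sub, map_pow]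
        rwa [h5] at h4
      have h4 := norm_pow_sub_pow_lt' (hint (r g • x)) (by
        rw [norm_pow]; exact pow_le_one₀ (norm_nonneg _) (hint x)) h3 ((q : ℕ) ^ m)
      have h5 := norm_sub_lt_trans h2 h4
      rw [← pow_mul, ← pow_succ'] at h5
      have h6 : r (g ^ (m + 1)) (x : Ω) = r (g ^ m) ((r g • x : integralClosure ℤ Ω) : Ω) := by
        rw [pow_succ, map_mul, AlgEquiv.mul_apply]; rfl
      rw [h6]
      exact h5
  refine ⟨j, ?_⟩
  obtain ⟨τ, hτ, hτF⟩ := Fermat.Agent.ExtVan.exists_lift_inertia F q.2 hAq (r ((g ^ j)⁻¹ * γ)) (by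
    intro x hx
    rw [mem_center_iota ι hA]
    have h1 : ‖ι (r γ (x : Ω)) - ι (r (g ^ j) (x : Ω))‖ < 1 := by
      refine norm_sub_lt_trans (hj' x hx) ?_
      rw [norm_sub_rev]
      exact hFr j x hx
    have h2 : ι ((r ((g ^ j)⁻¹ * γ) • x - x : integralClosure ℤ Ω) : Ω) =
        (g ^ j)⁻¹ (ι (r γ (x : Ω)) - ι (r (g ^ j) (x : Ω))) := by
      have h3 : ((r ((g ^ j)⁻¹ * γ) • x - x : integralClosure ℤ Ω) : Ω) =
        r ((g ^ j)⁻¹ * γ) (x : Ω) - (x : Ω) := rfl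
      rw [h3, map_sub, map_sub, hr, hr γ, hr (g ^ j), AlgEquiv.mul_apply]
      congr 1
      rw [← AlgEquiv.mul_apply, inv_mul_cancel]
      rfl
    rw [h2, norm_gq]
    exact h1)
  have h1 := hF hτ
  rw [IntermediateField.mem_fixingSubgroup_iff] at h1 ⊢
  intro x hx
  rw [← hτF x hx]
  exact h1 x hx

end proc

end Fermat.Agent.CFT6
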