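import Mathlib
import Fermat.Agent.CFT6.ClassFin
import Fermat.Agent.CFT6.PowIndex
import Fermat.Agent.CFT.KumNorm

/-!
# The group `K_S` and its index
-/

set_option autoImplicit false

open NumberField IsDedekindDomain Module Fermat.Agent.CFT

namespace Fermat.Agent.CFT6

/-- ideles which are units outside `S` -/
def BS (K : Type*) [Field K] (S : Finset Nat.Primes) : Subgroup (Idele K) where
  carrier := {f | ∀ q ∉ S, f.1 q ∈ Uq K q}
  mul_mem' := fun ha hb q hq => mul_mem (ha q hq) (hb q hq)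
  one_mem' := fun q _ => one_mem (Uq K q)
  inv_mem' := fun ha q hq => inv_mem (ha q hq)

lemma mem_BS {K : Type*} [Field K] {S : Finset Nat.Primes} {f : Idele K} :
    f ∈ BS K S ↔ ∀ q ∉ S, f.1 q ∈ Uq K q := Iff.rfl

lemma mem_BS' {K : Type*} [Field K] {S : Finset Nat.Primes} {f : Idele K} :
    f ∈ BS K S ↔ ∀ q ∉ S, ∀ φ : Emb K q, ‖(f.1 q φ : Cq q)‖ = 1 :=
  ⟨fun h q hq => (h q hq).2, fun h q hq => ⟨f.2.1 q, h q hq⟩⟩

variable {K : Type*} [Field K] [NumberField K]

variable (K) in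
/-- the `S`-class group -/
abbrev ClS (S : Finset Nat.Primes) : Type _ := Idele K ⧸ ((princ K).range ⊔ BS K S)

noncomputable instance instCommGroupClS (S : Finset Nat.Primes) : CommGroup (ClS K S) :=
  QuotientGroup.Quotient.commGroup ((princ K).range ⊔ BS K S)

variable (K) in
/-- the group of divisors outside `S` -/
abbrev DS (S : Finset Nat.Primes) : Type _ := Idele K ⧸ BS K S

noncomputable instance instCommGroupDS (S : Finset Nat.Primes) : CommGroup (DS K S) :=
  QuotientGroup.Quotient.commGroup (BS K S)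

instance finite_ClS (S : Finset Nat.Primes) : Finite (ClS K S) := by
  have h1 : princUnit K ≤ (princ K).range ⊔ BS K S := by
    refine sup_le_sup_left ?_ _
    intro f hf
    rw [mem_BS']
    exact fun q _ φ => hf q φ
  have : Finite (Idele K ⧸ princUnit K) := finite_quotient_princUnit
  exact Finite.of_surjective _ (QuotientGroup.map_surjective_of_surjective (princUnit K)
    ((princ K).range ⊔ BS K S) (MonoidHom.id _)
      (QuotientGroup.mk_surjective.comp Function.surjective_id) (by simpa using h1))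

/-- the elements of `K` whose valuation is divisible by `p` at all places outside `S` -/
def KS (K : Type*) [Field K] (p : ℕ) (S : Finset Nat.Primes) : Subgroup Kˣ where
  carrier := {x | ∀ q ∉ S, ∀ φ : Emb K q, ∃ u : (Cq q)ˣ, Fx φ u ∧ ‖φ (x : K)‖ = ‖(u : Cq q)‖ ^ p}
  mul_mem' := by
    intro a b ha hb q hq φ
    obtain ⟨u, hu, hau⟩ := ha q hq φ
    obtain ⟨w, hw, hbw⟩ := hb q hq φ
    refine ⟨u * w, hu.mul hw, ?_⟩
    rw [Units.val_mul, map_mul, norm_mul, hau, hbw, Units.val_mul, norm_mul, mul_pow]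
  one_mem' := by
    intro q _ φ
    exact ⟨1, fun τ _ => by simp, by simp⟩
  inv_mem' := by
    intro a ha q hq φ
    obtain ⟨u, hu, hau⟩ := ha q hq φ
    refine ⟨u⁻¹, hu.inv, ?_⟩
    rw [Units.val_inv_eq_inv_val, map_inv₀, norm_inv, hau, Units.val_inv_eq_inv_val, norm_inv, inv_pow]

lemma mem_KS {K : Type*} [Field K] {p : ℕ} {S : Finset Nat.Primes} {x : Kˣ} :
    x ∈ KS K p S ↔ ∀ q ∉ S, ∀ φ : Emb K q, ∃ u : (Cq q)ˣ, Fx φ u ∧
      ‖φ (x : K)‖ = ‖(u : Cq q)‖ ^ p := Iff.rfl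

lemma place_smul {q : Nat.Primes} (τ : Gq q) (φ : Emb K q) : place (τ • φ) = place φ :=
  (place_eq_iff.2 ⟨τ, fun _ => rfl⟩).symm

/-- an idele given by elements of `K` at every place -/
noncomputable def ideleOf (x : Kˣ) (y : HeightOneSpectrum (𝓞 K) → Kˣ)
    (hy : ∀ (q : Nat.Primes) (φ : Emb K q), ‖φ (x : K)‖ = 1 → y (place φ) = 1) : Idele K :=
  ⟨fun q φ => Units.map (φ : K →* Cq q) (y (place φ)), by
    constructor
    · intro q τ φ
      show τ (φ (y (place (τ • φ)) : K)) = τ (φ (y (place φ) : K))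
      rw [place_smul]
    · refine (finite_setOf_norm_ne_one x).subset ?_
      rintro q ⟨φ, hφ⟩
      refine ⟨φ, fun h => hφ ?_⟩
      simp [hy q φ h]⟩

lemma ideleOf_apply (x : Kˣ) (y : HeightOneSpectrum (𝓞 K) → Kˣ)
    (hy : ∀ (q : Nat.Primes) (φ : Emb K q), ‖φ (x : K)‖ = 1 → y (place φ) = 1)
    (q : Nat.Primes) (φ : Emb K q) :
    ((ideleOf x y hy).1 q φ : Cq q) = φ (y (place φ) : K) := rfl

/-- gluing of the local roots -/
lemma exists_idele_of_KS {p : ℕ} {S : Finset Nat.Primes} {x : Kˣ} (hx : x ∈ KS K p S) :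
    ∃ f : Idele K, ∀ q ∉ S, ∀ φ : Emb K q, ‖φ (x : K)‖ = ‖(f.1 q φ : Cq q)‖ ^ p := by
  classical
  have key : ∀ v : HeightOneSpectrum (𝓞 K), ∃ y : Kˣ,
      (∀ (q : Nat.Primes) (φ : Emb K q), place φ = v → ‖φ (x : K)‖ = 1 → y = 1) ∧
      ∀ q ∉ S, ∀ φ : Emb K q, place φ = v → ‖φ (x : K)‖ = ‖φ (y : K)‖ ^ p := by
    intro v
    obtain ⟨q, hq⟩ := exists_prime_mem v
    obtain ⟨φ, rfl⟩ := exists_place_eq (q := (q : ℕ)) v hq
    by_cases h1 : ‖φ (x : K)‖ = 1
    · refine ⟨1, fun _ _ _ _ => rfl, fun q' _ φ' h => ?_⟩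
      have hqq : q' = q := prime_unique (q_mem_place φ') (h ▸ q_mem_place φ)
      subst hqq
      rw [norm_eq_of_place_eq h (x : K), h1]
      simp
    · have h2 : ∀ (q' : Nat.Primes) (φ' : Emb K q'), place φ' = place φ → ‖φ' (x : K)‖ ≠ 1 := by
        intro q' φ' h
        have hqq : q' = q := prime_unique (q_mem_place φ') (h ▸ q_mem_place φ)
        subst hqq
        rwa [norm_eq_of_place_eq h (x : K)]
      by_cases hS : q ∈ S
      · refine ⟨1, fun q' φ' h h' => absurd h' (h2 q' φ' h), fun q' hq' φ' h => ?_⟩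
        have hqq : q' = q := prime_unique (q_mem_place φ') (h ▸ q_mem_place φ)
        subst hqq
        exact absurd hS hq'
      · obtain ⟨u, hu, hxu⟩ := hx q hS φ
        obtain ⟨y, hy0, hy⟩ := exists_norm_eq φ (y := (u : Cq q)) (fun τ hτ => hu τ (RingHom.ext hτ))
          u.ne_zero
        refine ⟨Units.mk0 y hy0, fun q' φ' h h' => absurd h' (h2 q' φ' h), fun q' _ φ' h => ?_⟩
        have hqq : q' = q := prime_unique (q_mem_place φ') (h ▸ q_mem_place φ)
        subst hqq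
        rw [norm_eq_of_place_eq h (x : K), norm_eq_of_place_eq h ((Units.mk0 y hy0 : Kˣ) : K),
          Units.val_mk0, hy, hxu]
  choose y hy1 hy2 using key
  exact ⟨ideleOf x y (fun q φ h => hy1 _ q φ rfl h), fun q hq φ => hy2 _ q hq φ rfl⟩

lemma norm_div_pow (x : Kˣ) (f : Idele K) (p : ℕ) (q : Nat.Primes) (φ : Emb K q) :
    ‖(((princ K x / f ^ p : Idele K).1 q φ : (Cq q)ˣ) : Cq q)‖ =
      ‖φ (x : K)‖ / ‖(f.1 q φ : Cq q)‖ ^ p := by
  have : (((princ K x / f ^ p : Idele K).1 q φ : (Cq q)ˣ) : Cq q) =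
      φ (x : K) / (f.1 q φ : Cq q) ^ p := by
    rw [← Units.val_pow_eq_pow_val]
    have h : ∀ a b : (Cq q)ˣ, ((a / b : (Cq q)ˣ) : Cq q) = (a : Cq q) / (b : Cq q) := by
      intro a b; simp
    exact h _ _
  rw [this, norm_div, norm_pow]

lemma mem_KS_iff {p : ℕ} {S : Finset Nat.Primes} {x : Kˣ} :
    x ∈ KS K p S ↔ ∃ f : Idele K, princ K x / f ^ p ∈ BS K S := by
  constructor
  · intro hx
    obtain ⟨f, hf⟩ := exists_idele_of_KS hx
    refine ⟨f, ?_⟩
    rw [mem_BS']
    intro q hq φ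
    rw [norm_div_pow, hf q hq φ]
    exact div_self (pow_ne_zero _ (norm_ne_zero_iff.2 (Units.ne_zero _)))
  · rintro ⟨f, hf⟩ q hq φ
    refine ⟨f.1 q φ, Fx_of_mem (f.2.1 q) φ, ?_⟩
    have h := mem_BS'.1 hf q hq φ
    rw [norm_div_pow] at h
    exact (div_eq_one_iff_eq (pow_ne_zero _ (norm_ne_zero_iff.2 (Units.ne_zero _)))).1 h

omit [NumberField K] in
lemma mem_BS_of_pow {S : Finset Nat.Primes} {f : Idele K} {n : ℕ} (hn : n ≠ 0)
    (h : f ^ n ∈ BS K S) : f ∈ BS K S := by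
  rw [mem_BS'] at h ⊢
  intro q hq φ
  have h1 : ‖(f.1 q φ : Cq q)‖ ^ n = 1 := by
    rw [← norm_pow, ← Units.val_pow_eq_pow_val]
    exact h q hq φ
  exact (pow_eq_one_iff_of_nonneg (norm_nonneg _) hn).1 h1

section count

variable (p : ℕ) (S : Finset Nat.Primes)

omit [NumberField K] in
lemma powD_injective (hp : p ≠ 0) :
    Function.Injective (powMonoidHom p : DS K S →* DS K S) := by
  rw [injective_iff_map_eq_one]
  intro a ha
  obtain ⟨f, rfl⟩ := QuotientGroup.mk_surjective a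
  rw [powMonoidHom_apply, ← QuotientGroup.mk_pow, QuotientGroup.eq_one_iff] at ha
  rw [QuotientGroup.eq_one_iff]
  exact mem_BS_of_pow hp ha

/-- `K^*` to the `S`-divisors -/
noncomputable def toD : Kˣ →* DS K S := (QuotientGroup.mk' _).comp (princ K)

lemma mem_KS_iff_toD {x : Kˣ} :
    x ∈ KS K p S ↔ toD S x ∈ (powMonoidHom p : DS K S →* DS K S).range := by
  rw [mem_KS_iff]
  constructor
  · rintro ⟨f, hf⟩
    refine ⟨QuotientGroup.mk f, ?_⟩
    rw [powMonoidHom_apply, ← QuotientGroup.mk_pow]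
    show _ = QuotientGroup.mk (princ K x)
    rw [QuotientGroup.eq]
    rwa [mul_comm, ← div_eq_mul_inv]
  · rintro ⟨a, ha⟩
    obtain ⟨f, rfl⟩ := QuotientGroup.mk_surjective a
    refine ⟨f, ?_⟩
    rw [powMonoidHom_apply, ← QuotientGroup.mk_pow] at ha
    have ha' : (QuotientGroup.mk (f ^ p) : DS K S) = QuotientGroup.mk (princ K x) := ha
    rw [QuotientGroup.eq] at ha'
    rwa [mul_comm, ← div_eq_mul_inv] at ha'

/-- the root of the divisor -/
noncomputable def rootD (hp : p ≠ 0) : KS K p S →* DS K S :=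
  ((MonoidHom.ofInjective (powD_injective (K := K) p S hp)).symm : _ →* _).comp
    (((toD S).comp (KS K p S).subtype).codRestrict _ (fun x => (mem_KS_iff_toD p S).1 x.2))

lemma rootD_pow (hp : p ≠ 0) (x : KS K p S) : (rootD p S hp x) ^ p = toD S (x : Kˣ) := by
  have h := MulEquiv.apply_symm_apply (MonoidHom.ofInjective (powD_injective (K := K) p S hp))
    ((((toD S).comp (KS K p S).subtype).codRestrict _ (fun x => (mem_KS_iff_toD p S).1 x.2)) x)
  have h2 := congrArg Subtype.val h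
  exact h2

/-- divisors to the class group -/
noncomputable def DtoCl : DS K S →* ClS K S :=
  QuotientGroup.map _ _ (MonoidHom.id _) (by
    show BS K S ≤ (((princ K).range ⊔ BS K S)).comap (MonoidHom.id _)
    rw [Subgroup.comap_id]; exact le_sup_right)

lemma DtoCl_mk (f : Idele K) : DtoCl S (QuotientGroup.mk f) = QuotientGroup.mk f := rfl

lemma DtoCl_eq_one {a : DS K S} : DtoCl S a = 1 ↔ ∃ x : Kˣ, toD S x = a := by
  obtain ⟨f, rfl⟩ := QuotientGroup.mk_surjective a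
  rw [DtoCl_mk, QuotientGroup.eq_one_iff, Subgroup.mem_sup]
  constructor
  · rintro ⟨_, ⟨x, rfl⟩, u, hu, h⟩
    refine ⟨x, ?_⟩
    show QuotientGroup.mk (princ K x) = _
    rw [QuotientGroup.eq, ← h, inv_mul_cancel_left]
    exact hu
  · rintro ⟨x, hx⟩
    have hx' : (QuotientGroup.mk (princ K x) : DS K S) = QuotientGroup.mk f := hx
    rw [QuotientGroup.eq] at hx'
    exact ⟨princ K x, ⟨x, rfl⟩, _, hx', by group⟩

/-- the class of the root of the divisor -/
noncomputable def rootCl (hp : p ≠ 0) :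
    KS K p S →* (powMonoidHom p : ClS K S →* ClS K S).ker :=
  ((DtoCl S).comp (rootD p S hp)).codRestrict _ (fun x => by
    rw [MonoidHom.mem_ker, powMonoidHom_apply, ← map_pow, MonoidHom.comp_apply, map_pow, rootD_pow]
    exact (DtoCl_eq_one S).2 ⟨x, rfl⟩)

lemma rootCl_apply (hp : p ≠ 0) (x : KS K p S) :
    ((rootCl p S hp x : (powMonoidHom p : ClS K S →* ClS K S).ker) : ClS K S) =
      DtoCl S (rootD p S hp x) := rfl

lemma rootCl_surjective (hp : p ≠ 0) : Function.Surjective (rootCl (K := K) p S hp) := by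
  rintro ⟨c, hc⟩
  obtain ⟨f, rfl⟩ := QuotientGroup.mk_surjective c
  rw [MonoidHom.mem_ker, powMonoidHom_apply, ← QuotientGroup.mk_pow, QuotientGroup.eq_one_iff,
    Subgroup.mem_sup] at hc
  obtain ⟨_, ⟨x, rfl⟩, u, hu, h⟩ := hc
  have hx : princ K x / f ^ p ∈ BS K S := by
    rw [← h, div_mul_eq_div_div, div_self', one_div]
    exact inv_mem hu
  let x' : KS K p S := ⟨x, mem_KS_iff.2 ⟨f, hx⟩⟩
  refine ⟨x', ?_⟩
  have h1 : rootD p S hp x' = QuotientGroup.mk f := by
    apply powD_injective p S hp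
    rw [powMonoidHom_apply, powMonoidHom_apply, rootD_pow, ← QuotientGroup.mk_pow, ← h]
    show (QuotientGroup.mk (princ K x) : DS K S) = _
    rw [QuotientGroup.eq, inv_mul_cancel_left]
    exact hu
  apply Subtype.ext
  rw [rootCl_apply, h1]
  rfl

lemma toD_eq_one {x : Kˣ} : toD S x = 1 ↔ x ∈ SUnits K S := by
  have h : toD S x = (QuotientGroup.mk (princ K x) : DS K S) := rfl
  rw [h, QuotientGroup.eq_one_iff, mem_BS']
  rfl

lemma rootCl_ker (hp : p ≠ 0) : (rootCl (K := K) p S hp).ker =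
    ((powMonoidHom p : Kˣ →* Kˣ).range ⊔ SUnits K S).subgroupOf (KS K p S) := by
  ext x
  rw [Subgroup.mem_subgroupOf, MonoidHom.mem_ker, ← Subtype.coe_inj, rootCl_apply, Subgroup.coe_one,
    DtoCl_eq_one, Subgroup.mem_sup]
  constructor
  · rintro ⟨y, hy⟩
    have h1 : toD S ((x : Kˣ) / y ^ p) = 1 := by
      rw [map_div, map_pow, hy, rootD_pow, div_self']
    exact ⟨y ^ p, ⟨y, rfl⟩, _, (toD_eq_one S).1 h1, by rw [mul_div_cancel]⟩
  · rintro ⟨_, ⟨y, rfl⟩, e, he, h⟩
    refine ⟨y, powD_injective p S hp ?_⟩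
    rw [powMonoidHom_apply, powMonoidHom_apply, rootD_pow, ← h, map_mul, (toD_eq_one S).2 he,
      mul_one, ← map_pow]
    rfl

omit [NumberField K] in
lemma SUnits_le_KS : SUnits K S ≤ KS K p S := fun x hx q hq φ =>
  ⟨1, fun τ _ => by simp, by rw [hx q hq φ]; simp⟩

omit [NumberField K] in
lemma pow_le_KS : (powMonoidHom p : Kˣ →* Kˣ).range ≤ KS K p S := by
  rintro _ ⟨x, rfl⟩ q _ φ
  refine ⟨Units.map (φ : K →* Cq q) x, Fx_emb x, ?_⟩
  simp

omit [NumberField K] in
lemma pow_subgroupOf_SUnits (hp : p ≠ 0) : (powMonoidHom p : Kˣ →* Kˣ).range.subgroupOf (SUnits K S) =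
    (powMonoidHom p : SUnits K S →* SUnits K S).range := by
  ext x
  rw [Subgroup.mem_subgroupOf]
  constructor
  · rintro ⟨y, hy⟩
    have hy' : y ∈ SUnits K S := by
      intro q hq φ
      have h1 := x.2 q hq φ
      rw [← hy, powMonoidHom_apply, Units.val_pow_eq_pow_val, map_pow, norm_pow] at h1
      exact (pow_eq_one_iff_of_nonneg (norm_nonneg _) hp).1 h1
    exact ⟨⟨y, hy'⟩, Subtype.ext hy⟩
  · rintro ⟨y, rfl⟩
    exact ⟨(y : Kˣ), rfl⟩

/-- the index of the `p`-th powers in `K_S`. -/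
theorem relIndex_KS [Fact p.Prime] (hp2 : p ≠ 2) {ζ : K} (hζ : IsPrimitiveRoot ζ p) :
    (powMonoidHom p : Kˣ →* Kˣ).range.relIndex (KS K p S) =
      p ^ (∑ q ∈ S, Nat.card (Orb K q) + finrank ℚ K / 2) *
        Nat.card (powMonoidHom p : ClS K S →* ClS K S).ker := by
  have hp0 : p ≠ 0 := (Fact.out : p.Prime).ne_zero
  have hle : (powMonoidHom p : Kˣ →* Kˣ).range ⊔ SUnits K S ≤ KS K p S :=
    sup_le (pow_le_KS p S) (SUnits_le_KS p S)
  rw [← Subgroup.relIndex_mul_relIndex _ _ _ le_sup_left hle]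
  congr 1
  · rw [Subgroup.relIndex_sup_left, Subgroup.relIndex, pow_subgroupOf_SUnits p S hp0,
      index_pow_SUnits p hp2 hζ S]
  · rw [Subgroup.relIndex, ← rootCl_ker p S hp0, Subgroup.index_ker,
      MonoidHom.range_eq_top.2 (rootCl_surjective p S hp0), Subgroup.card_top]

theorem card_ker_pow_ClS : Nat.card (powMonoidHom p : ClS K S →* ClS K S).ker =
    (powMonoidHom p : ClS K S →* ClS K S).range.index := by
  have h1 := Subgroup.card_mul_index (powMonoidHom p : ClS K S →* ClS K S).ker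
  have h2 := Subgroup.card_mul_index (powMonoidHom p : ClS K S →* ClS K S).range
  rw [Subgroup.index_ker] at h1
  have h3 : 0 < Nat.card (powMonoidHom p : ClS K S →* ClS K S).range := Nat.card_pos
  apply Nat.eq_of_mul_eq_mul_right h3
  rw [h1, ← h2, mul_comm]

theorem relIndex_KS_ne_zero [Fact p.Prime] (hp2 : p ≠ 2) {ζ : K} (hζ : IsPrimitiveRoot ζ p) :
    (powMonoidHom p : Kˣ →* Kˣ).range.relIndex (KS K p S) ≠ 0 := by
  rw [relIndex_KS p S hp2 hζ]
  exact mul_ne_zero (pow_ne_zero _ (Fact.out : p.Prime).ne_zero) Nat.card_pos.ne'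

end count

end Fermat.Agent.CFT6
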